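import Fermat.Agent.S56.E.Abs.Star

/-!
# S56 / E / key `S56/E-COMB` : Artin induction for additive functions     (combinatorics; uses only `lam_eq_of_fix` + Basic.lean)

`U ⊴ Γ` of finite index, `V` torsion free, `L` additive, `hcyc : lam (Map(Γ/(U⟨g⟩), ρ)) = 0` for all `g` and ALL modules `ρ`.  Then `lam = 0`.

PROOF.  `Z := Σ g : Γ ⧸ U, Γ ⧸ (U ⊔ zpowers g.out)`, `πZ := sigmaPerm (fun g => cosetPerm _)` (finite: `Γ ⧸ U ↠ Γ ⧸ (U ⊔ ..)`; `U` acts trivially because `U` is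
normal: `u x C = x (x⁻¹ u x) C = x C`).  `z := card Z`, `a γ := #Z^γ`.  `1 ≤ a γ ≤ z`: the point `⟨[γ], 1·C⟩` is fixed by `γ` (`γ ∈ [γ].out U`).
`#(Fin i → Z)^γ = (a γ)^i` for `powPerm (Fin i) πZ`.   `P := ∏ j ∈ Finset.Icc 1 z, (X - C (j:ℤ)) ∈ ℤ[X]`, `P.eval (a γ) = 0`, `P.coeff 0 = ± z! ≠ 0`.
`c i := P.coeff i` (`i ≤ z`).   `Xs := Σ i : Fin (z+1), Fin (c i).toNat × (Fin i → Z)`,  `Ys := Σ i : Fin (z+1), Fin (- c i).toNat × (Fin i → Z)`
with `sigmaPerm (fun i => prodPerm 1 (powPerm (Fin i) πZ))`.  `#Xs^γ - #Ys^γ = ∑ c i (a γ)^i = 0`.  `lam_eq_of_fix` ⇒ `lam (Map(Xs, ρ)) = lam (Map(Ys, ρ))`.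
By `lam_Fn_sigma`, `lam_Fn_fin_prod`: `lam (Map(Xs,ρ)) = ∑ i, (c i).toNat • ℓ i`, `ℓ i := lam (Map(Fin i → Z, ρ))`.
`ℓ 0 = lam ρ` (`lam_Fn_unique`).  `ℓ (i+1) = 0`: `(Fin (i+1) → Z) ≃ Z × (Fin i → Z)` (`Fin.consEquiv`/`Fin.insertNthEquiv`; `lam_Fn_congr`), `lam_Fn_prod`:
`= lam (Map(Z, ρ'))` with `ρ' = Fn (powPerm (Fin i) πZ) ρ` (`IsMod.fn`), `= ∑ g, lam (Map(Γ/(U⟨g.out⟩), ρ')) = 0` by `lam_Fn_sigma` and `hcyc`.
So `(c 0).toNat • lam ρ = (- c 0).toNat • lam ρ`, one of the two numbers is `z! ≠ 0` and the other is `0`; `htf`.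
-/

set_option autoImplicit false

noncomputable section

namespace Fermat.Agent.S56.E

open Fermat.Agent.S55

variable {Γ : Type} [Group Γ] {U : Subgroup Γ} {p : ℕ} {V : Type} [AddCommGroup V]

/-- disjoint union of two `Γ`-sets -/
def sumPerm {X Y : Type} (π : Γ →* Equiv.Perm X) (π' : Γ →* Equiv.Perm Y) :
    Γ →* Equiv.Perm (X ⊕ Y) where
  toFun g := Equiv.sumCongr (π g) (π' g)
  map_one' := by ext x; cases x <;> simp
  map_mul' g h := by ext x; cases x <;> simp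

theorem sumPerm_triv {X Y : Type} {π : Γ →* Equiv.Perm X} {π' : Γ →* Equiv.Perm Y}
    (hπ : ∀ u ∈ U, π u = 1) (hπ' : ∀ u ∈ U, π' u = 1) : ∀ u ∈ U, sumPerm π π' u = 1 := by
  intro u hu
  ext x
  cases x with
  | inl x => show Sum.inl (π u x) = _; rw [hπ u hu]; rfl
  | inr x => show Sum.inr (π' u x) = _; rw [hπ' u hu]; rfl

theorem prodPerm_triv {X Y : Type} {π : Γ →* Equiv.Perm X} {π' : Γ →* Equiv.Perm Y}
    (hπ : ∀ u ∈ U, π u = 1) (hπ' : ∀ u ∈ U, π' u = 1) : ∀ u ∈ U, prodPerm π π' u = 1 := by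
  intro u hu
  ext x
  · show π u x.1 = _; rw [hπ u hu]; rfl
  · show π' u x.2 = _; rw [hπ' u hu]; rfl

theorem lam_Fn_sum (L : LamData U p V) {A : Type} [AddCommGroup A] {ρ : Γ →* AddMonoid.End A}
    (h : IsMod U p ρ) {X Y : Type} [Finite X] [Finite Y] (π : Γ →* Equiv.Perm X)
    (π' : Γ →* Equiv.Perm Y) (hπ : ∀ u ∈ U, π u = 1) (hπ' : ∀ u ∈ U, π' u = 1) :
    L.lam _ (Fn (sumPerm π π') ρ) = L.lam _ (Fn π ρ) + L.lam _ (Fn π' ρ) := by
  rw [← lam_prod L (h.fn hπ) (h.fn hπ')]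
  let e : (X ⊕ Y → A) ≃+ (X → A) × (Y → A) :=
    { toFun := fun f => (fun x => f (Sum.inl x), fun y => f (Sum.inr y))
      invFun := fun q => Sum.elim q.1 q.2
      left_inv := fun f => by ext x; cases x <;> rfl
      right_inv := fun q => rfl
      map_add' := fun f f' => rfl }
  exact lam_iso L e (fun g f => rfl) (h.fn (sumPerm_triv hπ hπ'))

/-- number of fixed points -/
def fx {X : Type} (π : Γ →* Equiv.Perm X) (g : Γ) : ℕ := Nat.card {x // π g x = x}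

theorem fx_sum {X Y : Type} [Finite X] [Finite Y] (π : Γ →* Equiv.Perm X) (π' : Γ →* Equiv.Perm Y)
    (g : Γ) : fx (sumPerm π π') g = fx π g + fx π' g := by
  unfold fx
  rw [Nat.card_congr (Equiv.subtypeSum (p := fun x : X ⊕ Y => sumPerm π π' g x = x)), Nat.card_sum]
  congr 1
  · exact Nat.card_congr (Equiv.subtypeEquivRight fun a =>
      ⟨fun h => Sum.inl_injective h, fun h => congrArg Sum.inl h⟩)
  · exact Nat.card_congr (Equiv.subtypeEquivRight fun a =>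
      ⟨fun h => Sum.inr_injective h, fun h => congrArg Sum.inr h⟩)

theorem fx_prod {X Y : Type} (π : Γ →* Equiv.Perm X) (π' : Γ →* Equiv.Perm Y)
    (g : Γ) : fx (prodPerm π π') g = fx π g * fx π' g := by
  unfold fx
  rw [← Nat.card_prod]
  refine Nat.card_congr ((Equiv.subtypeEquivRight fun a => ?_).trans
    (Equiv.subtypeProdEquivProd (p := fun x => π g x = x) (q := fun y => π' g y = y)))
  exact Prod.ext_iff

theorem fx_one (n : ℕ) (g : Γ) : fx (1 : Γ →* Equiv.Perm (Fin n)) g = n := by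
  unfold fx
  rw [Nat.card_congr (Equiv.subtypeUnivEquiv
    (p := fun x : Fin n => (1 : Γ →* Equiv.Perm (Fin n)) g x = x) (fun x => rfl)),
    Nat.card_eq_fintype_card, Fintype.card_fin]

theorem artin_aux (L : LamData U p V) {Z : Type} [Fintype Z] (πZ : Γ →* Equiv.Perm Z)
    (hZ : ∀ u ∈ U, πZ u = 1)
    (hZ0 : ∀ {A : Type} [AddCommGroup A] (ρ : Γ →* AddMonoid.End A), IsMod U p ρ →
      L.lam _ (Fn πZ ρ) = 0) (j : ℕ) :
    ∃ (X Y : Type) (_ : Fintype X) (_ : Fintype Y) (πX : Γ →* Equiv.Perm X)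
      (πY : Γ →* Equiv.Perm Y), (∀ u ∈ U, πX u = 1) ∧ (∀ u ∈ U, πY u = 1) ∧
      (∀ g, (fx πX g : ℤ) - fx πY g = ∏ i ∈ Finset.range j, ((fx πZ g : ℤ) - ((i : ℤ) + 1))) ∧
      ∀ {A : Type} [AddCommGroup A] (ρ : Γ →* AddMonoid.End A), IsMod U p ρ →
        L.lam _ (Fn πX ρ) - L.lam _ (Fn πY ρ) =
          (∏ i ∈ Finset.range j, (-((i : ℤ) + 1))) • L.lam A ρ := by
  induction j with
  | zero =>
    refine ⟨Unit, Empty, inferInstance, inferInstance, 1, 1, fun _ _ => rfl, fun _ _ => rfl, ?_, ?_⟩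
    · intro g
      have h1 : fx (1 : Γ →* Equiv.Perm Unit) g = 1 := by
        unfold fx
        rw [Nat.card_congr (Equiv.subtypeUnivEquiv
          (p := fun x : Unit => (1 : Γ →* Equiv.Perm Unit) g x = x) (fun x => rfl))]
        simp
      have h2 : fx (1 : Γ →* Equiv.Perm Empty) g = 0 := by
        unfold fx
        simp
      rw [h1, h2]
      simp
    · intro A _ ρ h
      rw [lam_Fn_unique L h, lam_of_subsingleton L (Fn (1 : Γ →* Equiv.Perm Empty) ρ)]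
      simp
  | succ j ih =>
    obtain ⟨X, Y, _, _, πX, πY, hX, hY, hfx, hlam⟩ := ih
    have h1 : ∀ u ∈ U, (1 : Γ →* Equiv.Perm (Fin (j + 1))) u = 1 := fun _ _ => rfl
    refine ⟨(Z × X) ⊕ (Fin (j + 1) × Y), (Z × Y) ⊕ (Fin (j + 1) × X), inferInstance, inferInstance,
      sumPerm (prodPerm πZ πX) (prodPerm 1 πY), sumPerm (prodPerm πZ πY) (prodPerm 1 πX),
      sumPerm_triv (prodPerm_triv hZ hX) (prodPerm_triv h1 hY),
      sumPerm_triv (prodPerm_triv hZ hY) (prodPerm_triv h1 hX), ?_, ?_⟩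
    · intro g
      rw [fx_sum, fx_sum, fx_prod, fx_prod, fx_prod, fx_prod, fx_one, Finset.prod_range_succ,
        ← hfx g]
      push_cast
      ring
    · intro A _ ρ h
      rw [lam_Fn_sum L h _ _ (prodPerm_triv hZ hX) (prodPerm_triv h1 hY),
        lam_Fn_sum L h _ _ (prodPerm_triv hZ hY) (prodPerm_triv h1 hX),
        lam_Fn_prod L h _ _ hZ hX, lam_Fn_prod L h _ _ hZ hY, hZ0 _ (h.fn hX), hZ0 _ (h.fn hY),
        lam_Fn_fin_prod L h _ _ hY, lam_Fn_fin_prod L h _ _ hX, Finset.prod_range_succ, mul_comm,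
        mul_smul, ← hlam ρ h, zero_add, zero_add, neg_smul, smul_sub, ← natCast_zsmul,
        ← natCast_zsmul]
      push_cast
      abel

theorem cosetPerm_triv [U.Normal] {H : Subgroup Γ} (hH : U ≤ H) : ∀ u ∈ U, cosetPerm H u = 1 := by
  intro u hu
  ext x
  induction x using QuotientGroup.induction_on with
  | H x =>
    show ((u * x : Γ) : Γ ⧸ H) = (x : Γ ⧸ H)
    rw [QuotientGroup.eq]
    apply hH
    have h1 : (u * x)⁻¹ * x = x⁻¹ * u⁻¹ * x⁻¹⁻¹ := by group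
    rw [h1]
    exact Subgroup.Normal.conj_mem inferInstance _ (U.inv_mem hu) _

theorem artin [Fact p.Prime] [U.Normal] [Finite (Γ ⧸ U)]
    (htf : ∀ (n : ℕ), n ≠ 0 → ∀ v : V, n • v = 0 → v = 0) (L : LamData U p V)
    (hcyc : ∀ (g : Γ) {A : Type} [AddCommGroup A] (ρ : Γ →* AddMonoid.End A), IsMod U p ρ →
      L.lam _ (Fn (cosetPerm (U ⊔ Subgroup.zpowers g)) ρ) = 0)
    {A : Type} [AddCommGroup A] (ρ : Γ →* AddMonoid.End A) (h : IsMod U p ρ) : L.lam A ρ = 0 := by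
  classical
  have : Fintype (Γ ⧸ U) := Fintype.ofFinite _
  have hfi : U.FiniteIndex := Subgroup.finiteIndex_of_finite_quotient
  have hfin : ∀ g : Γ ⧸ U, Finite (Γ ⧸ (U ⊔ Subgroup.zpowers g.out)) := fun g =>
    have : (U ⊔ Subgroup.zpowers g.out).FiniteIndex := Subgroup.finiteIndex_of_le le_sup_left
    inferInstance
  have : ∀ g : Γ ⧸ U, Fintype (Γ ⧸ (U ⊔ Subgroup.zpowers g.out)) := fun g => Fintype.ofFinite _
  let πZ : Γ →* Equiv.Perm (Σ g : Γ ⧸ U, Γ ⧸ (U ⊔ Subgroup.zpowers g.out)) :=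
    sigmaPerm (fun g => cosetPerm (U ⊔ Subgroup.zpowers g.out))
  have hZ : ∀ u ∈ U, πZ u = 1 := by
    intro u hu
    ext x : 1
    obtain ⟨g, x⟩ := x
    show (⟨g, cosetPerm (U ⊔ Subgroup.zpowers g.out) u x⟩ :
      Σ g : Γ ⧸ U, Γ ⧸ (U ⊔ Subgroup.zpowers g.out)) = ⟨g, x⟩
    rw [cosetPerm_triv le_sup_left u hu]
    rfl
  have hZ0 : ∀ {A : Type} [AddCommGroup A] (ρ : Γ →* AddMonoid.End A), IsMod U p ρ →
      L.lam _ (Fn πZ ρ) = 0 := by
    intro A _ ρ h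
    rw [lam_Fn_sigma L h _ (fun g => cosetPerm_triv le_sup_left)]
    exact Finset.sum_eq_zero fun g _ => hcyc _ ρ h
  obtain ⟨X, Y, _, _, πX, πY, hX, hY, hfx, hlam⟩ := artin_aux L πZ hZ hZ0
    (Fintype.card (Σ g : Γ ⧸ U, Γ ⧸ (U ⊔ Subgroup.zpowers g.out)))
  have hfix : ∀ g, Nat.card {x // πX g x = x} = Nat.card {y // πY g y = y} := by
    intro γ
    have h1 : 1 ≤ fx πZ γ := by
      have hne : Nonempty {x // πZ γ x = x} := by
        refine ⟨⟨⟨(γ : Γ ⧸ U), ((1 : Γ) : Γ ⧸ _)⟩, ?_⟩⟩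
        show (⟨(γ : Γ ⧸ U), ((γ * 1 : Γ) : Γ ⧸ _)⟩ :
          Σ g : Γ ⧸ U, Γ ⧸ (U ⊔ Subgroup.zpowers g.out)) = ⟨(γ : Γ ⧸ U), ((1 : Γ) : Γ ⧸ _)⟩
        congr 1
        rw [QuotientGroup.eq]
        obtain ⟨u, hu⟩ := QuotientGroup.mk_out_eq_mul U γ
        have h2 : (γ * 1)⁻¹ * 1 = (u : Γ) * ((γ : Γ ⧸ U).out)⁻¹ := by
          rw [hu]
          group
        rw [h2]
        exact Subgroup.mul_mem _ (Subgroup.mem_sup_left u.2)
          (Subgroup.inv_mem _ (Subgroup.mem_sup_right (Subgroup.mem_zpowers _)))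
      exact Nat.card_pos
    have h2 : fx πZ γ ≤ Fintype.card (Σ g : Γ ⧸ U, Γ ⧸ (U ⊔ Subgroup.zpowers g.out)) := by
      rw [← Nat.card_eq_fintype_card]
      exact Finite.card_subtype_le _
    have h3 := hfx γ
    rw [Finset.prod_eq_zero (i := fx πZ γ - 1) (Finset.mem_range.2 (by omega))
      (by rw [Nat.cast_sub h1]; push_cast; ring)] at h3
    have h4 : (fx πX γ : ℤ) = fx πY γ := by linarith
    exact_mod_cast h4
  have h5 := hlam ρ h
  rw [lam_eq_of_fix L h πX πY hX hY hfix, sub_self] at h5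
  obtain ⟨c, hc⟩ : ∃ c : ℤ, c = ∏ i ∈ Finset.range
    (Fintype.card (Σ g : Γ ⧸ U, Γ ⧸ (U ⊔ Subgroup.zpowers g.out))), (-((i : ℤ) + 1)) := ⟨_, rfl⟩
  have hc0 : c ≠ 0 := by
    rw [hc, Finset.prod_ne_zero_iff]
    intro i _
    omega
  rw [← hc] at h5
  apply htf c.natAbs (Int.natAbs_ne_zero.2 hc0)
  rcases Int.natAbs_eq c with h6 | h6
  · rw [← natCast_zsmul, ← h6, ← h5]
  · have h7 : ((c.natAbs : ℕ) : ℤ) = -c := by omega
    rw [← natCast_zsmul, h7, neg_smul, ← h5, neg_zero]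

end Fermat.Agent.S56.E
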