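import Mathlib

/-!
# S56 / E / key `S56/E-CYC` : linear algebra  (Mathlib only, helper7)

`B` a finite simple module over the cyclic group generated by `b` (`b ^ m = 1`, `p ∤ m`, `p B = 0`).
* `exists_pair` : there are `y : B` and `l : B →+ ZMod p` with `∑_{i < m} l (b⁻ⁱ x) • bⁱ y = x` for all `x`
  (`∑_r Tr (e_r ⊗ e_r^*) = m`, so some `Tr (y ⊗ l) ≠ 0`; it is an automorphism by Schur; correct `y`).
* `pow_eq_one_of_simple` : `b ^ (p ^ a * m) = 1` implies `b ^ m = 1`.
-/

set_option autoImplicit false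

namespace Fermat.Agent.S56.E.CycAux

open Finset

theorem sum_shift {M : Type*} [AddCommGroup M] (m : ℕ) (F : ℕ → M) (h : F m = F 0) :
    ∑ i ∈ range m, F (i + 1) = ∑ i ∈ range m, F i := by
  have h1 := Finset.sum_range_succ' F m
  have h2 := Finset.sum_range_succ F m
  rw [h1, h] at h2
  exact add_right_cancel h2

variable {p : ℕ} {B : Type*} [AddCommGroup B] [Module (ZMod p) B]

/-- `x ↦ ∑_{i < m} l (b'ⁱ x) • bⁱ y` -/
def trOp (m : ℕ) (b b' : AddMonoid.End B) (y : B) (l : B →+ ZMod p) : B →+ B where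
  toFun x := ∑ i ∈ range m, l ((b' ^ i) x) • (b ^ i) y
  map_zero' := by simp
  map_add' x x' := by simp [add_smul, sum_add_distrib]

theorem trOp_apply (m : ℕ) (b b' : AddMonoid.End B) (y : B) (l : B →+ ZMod p) (x : B) :
    trOp m b b' y l x = ∑ i ∈ range m, l ((b' ^ i) x) • (b ^ i) y := rfl

theorem trOp_comm {m : ℕ} {b b' : AddMonoid.End B} (hb : b ^ m = 1) (hb' : b' ^ m = 1)
    (hb'b : b' * b = 1) (y : B) (l : B →+ ZMod p) (x : B) :
    trOp m b b' y l (b x) = b (trOp m b b' y l x) := by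
  rw [trOp_apply, trOp_apply, map_sum]
  rw [← sum_shift m (fun i => l ((b' ^ i) (b x)) • (b ^ i) y) (by simp [hb, hb'])]
  refine Finset.sum_congr rfl fun i _ => ?_
  have h1 : (b' ^ (i + 1)) (b x) = (b' ^ i) x := by
    have : b' ^ (i + 1) * b = b' ^ i := by rw [pow_succ, mul_assoc, hb'b, mul_one]
    rw [← this]; rfl
  have h2 : (b ^ (i + 1)) y = b ((b ^ i) y) := by
    rw [pow_succ']; rfl
  rw [h1, h2, ZMod.map_smul]

theorem trOp_map {m : ℕ} {b b' : AddMonoid.End B} (e : B →+ B) (he : ∀ x, e (b x) = b (e x))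
    (y : B) (l : B →+ ZMod p) (x : B) :
    e (trOp m b b' y l x) = trOp m b b' (e y) l x := by
  rw [trOp_apply, trOp_apply, map_sum]
  refine Finset.sum_congr rfl fun i _ => ?_
  rw [ZMod.map_smul]
  congr 1
  clear * - he
  induction i with
  | zero => simp
  | succ i ih =>
    rw [pow_succ']
    change e (b ((b ^ i) y)) = b ((b ^ i) (e y))
    rw [he, ih]

theorem exists_pair [Fact p.Prime] [Finite B] [Nontrivial B] {m : ℕ} (hm : ¬ p ∣ m)
    {b b' : AddMonoid.End B} (hb : b ^ m = 1) (hb' : b' ^ m = 1) (hbb' : b * b' = 1)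
    (hb'b : b' * b = 1)
    (hs : ∀ S : AddSubgroup B, (∀ x ∈ S, b x ∈ S) → S = ⊥ ∨ S = ⊤) :
    ∃ (y : B) (l : B →+ ZMod p), ∀ x, ∑ i ∈ range m, l ((b' ^ i) x) • (b ^ i) y = x := by
  classical
  let bs := Module.finBasis (ZMod p) B
  -- the sum of the traces is `m`
  have hsum : ∀ x, ∑ r, trOp m b b' (bs r) (bs.coord r).toAddMonoidHom x = (m : ZMod p) • x := by
    intro x
    simp only [trOp_apply]
    rw [Finset.sum_comm]
    have h1 : ∀ i ∈ range m,
        ∑ r, (bs.coord r).toAddMonoidHom ((b' ^ i) x) • (b ^ i) (bs r) = x := by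
      intro i _
      have h2 : ∑ r, (bs.coord r).toAddMonoidHom ((b' ^ i) x) • (b ^ i) (bs r) =
          (b ^ i) (∑ r, bs.repr ((b' ^ i) x) r • bs r) := by
        rw [map_sum]
        refine Finset.sum_congr rfl fun r _ => ?_
        rw [ZMod.map_smul]
        rfl
      rw [h2, bs.sum_repr]
      have h3 : b ^ i * b' ^ i = 1 := by
        have hc : Commute b b' := by rw [Commute, SemiconjBy, hbb', hb'b]
        rw [← hc.mul_pow, hbb', one_pow]
      change (b ^ i * b' ^ i) x = x
      rw [h3]; rfl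
    rw [Finset.sum_congr rfl h1, Finset.sum_const, card_range, Nat.cast_smul_eq_nsmul]
  -- some trace is nonzero
  obtain ⟨x0, hx0⟩ := exists_ne (0 : B)
  have hm0 : (m : ZMod p) ≠ 0 := by
    rwa [Ne, ZMod.natCast_eq_zero_iff]
  obtain ⟨r, hr⟩ : ∃ r, trOp m b b' (bs r) (bs.coord r).toAddMonoidHom x0 ≠ 0 := by
    by_contra hcon
    push Not at hcon
    have := hsum x0
    rw [Finset.sum_eq_zero (fun r _ => hcon r)] at this
    exact smul_ne_zero hm0 hx0 this.symm
  obtain ⟨e, he⟩ : ∃ e, e = trOp m b b' (bs r) (bs.coord r).toAddMonoidHom := ⟨_, rfl⟩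
  have hcomm : ∀ x, e (b x) = b (e x) := fun x => by rw [he]; exact trOp_comm hb hb' hb'b _ _ x
  have hker : e.ker = ⊥ := by
    rcases hs e.ker (fun x hx => by
      rw [AddMonoidHom.mem_ker] at hx ⊢
      rw [hcomm, hx, map_zero]) with h | h
    · exact h
    · exfalso
      apply hr
      rw [← he, ← AddMonoidHom.mem_ker, h]
      trivial
  have hinj : Function.Injective e := (AddMonoidHom.ker_eq_bot_iff e).1 hker
  have hsurj : Function.Surjective e := Finite.injective_iff_surjective.1 hinj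
  obtain ⟨y, hy⟩ := hsurj (bs r)
  refine ⟨y, (bs.coord r).toAddMonoidHom, fun x => ?_⟩
  apply hinj
  rw [← trOp_apply, trOp_map e hcomm, hy, he]

theorem pow_eq_one_of_simple [Fact p.Prime] [Nontrivial B] {a m : ℕ} {b : AddMonoid.End B}
    (hb : b ^ (m * p ^ a) = 1)
    (hs : ∀ S : AddSubgroup B, (∀ x ∈ S, b x ∈ S) → S = ⊥ ∨ S = ⊤) : b ^ m = 1 := by
  have hnt : Nontrivial (AddMonoid.End B) := by
    obtain ⟨x0, hx0⟩ := exists_ne (0 : B)
    refine ⟨⟨1, 0, fun h => hx0 ?_⟩⟩
    have := DFunLike.congr_fun h x0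
    exact this
  have hchar : CharP (AddMonoid.End B) p := by
    rw [CharP.charP_iff_prime_eq_zero (Fact.out : p.Prime)]
    ext x
    rw [AddMonoid.End.natCast_apply, ← Nat.cast_smul_eq_nsmul (ZMod p), ZMod.natCast_self, zero_smul]
    rfl
  have hnil : (b ^ m - 1) ^ p ^ a = 0 := by
    rw [sub_pow_char_pow_of_commute _ _ (Commute.one_right _), ← pow_mul, hb, one_pow, sub_self]
  obtain ⟨N, hN⟩ : ∃ N : AddMonoid.End B, N = b ^ m - 1 := ⟨_, rfl⟩
  have hNb : ∀ x, N (b x) = b (N x) := by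
    intro x
    have : N * b = b * N := by
      rw [hN, sub_mul, mul_sub, one_mul, mul_one, ← pow_succ, ← pow_succ']
    exact DFunLike.congr_fun this x
  rcases hs (AddMonoidHom.ker (N : B →+ B)) (fun x hx => by
      have hx' : N x = 0 := hx
      change N (b x) = 0
      rw [hNb, hx', map_zero]) with h | h
  · exfalso
    have hinj : Function.Injective N := (AddMonoidHom.ker_eq_bot_iff (N : B →+ B)).1 h
    have hinj' : ∀ k : ℕ, Function.Injective (N ^ k) := by
      intro k
      induction k with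
      | zero => rw [pow_zero]; exact fun _ _ h => h
      | succ k ih => rw [pow_succ]; exact ih.comp hinj
    obtain ⟨x0, hx0⟩ := exists_ne (0 : B)
    apply hx0
    apply hinj' (p ^ a)
    rw [hN, hnil, map_zero]
    rfl
  · have : N = 0 := by
      ext x
      have : x ∈ AddMonoidHom.ker (N : B →+ B) := by rw [h]; trivial
      exact this
    rw [hN, sub_eq_zero] at this
    exact this

end Fermat.Agent.S56.E.CycAux
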