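import Fermat.Agent.S56.E.Abs.Basic
import Fermat.Agent.S55.A.CoInd
import Fermat.Agent.S56.E.Abs.CycAux

/-!
# S56 / E / key `S56/E-CYC` : reduction of `Ind_{U⟨g⟩}^Γ ρ` to the modules `ker P(D) ⊆ Map(Γ/U₁, T)`     (S55 formalism only)

`U ⊴ Γ` of finite index, `χ` trivial on `U`, `T = rhoChi χ`, `L` additive.  HYPOTHESIS `hker`: for all `U₁ ⊇ U` on which `χ` is trivial, all `g` normalising `U₁`
with `g^m ∈ U₁`, `p ∤ m`, and all `P ∈ ℤ[X]`: `lam (ker P(D)) = 0`, `D = Dop U₁ g` (`(D φ)(x U₁) = φ (x g U₁)`) on `Map(Γ/U₁, T)`.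
CLAIM: `lam (Map(Γ/C, ρ)) = 0`, `C = U ⊔ zpowers g`, for every module `ρ`.

PROOF.  Let `n` = order of `g` in `Γ/U`, `n = p^a m`, `p ∤ m`; `h := g^m`; `U₁ := U ⊔ zpowers h`.  `g` normalises `U₁`; `g^m ∈ U₁`; `χ(h)^(p^a) = 1` in `𝔽_p^×` ⇒ `χ(h) = 1`, so `χ = 1` on `U₁`.
(0) `Map(Γ/C, ρ) ≅ CoInd C (ρ|C)` : `φ ↦ (x ↦ ρ(x⁻¹) φ(xC))` (equivariant bijection; `lam_iso`).
(1) CLAIM' : for every finite `p`-torsion `β : C →* End B` trivial on `U` (i.e. on `U.subgroupOf C`): `lam (coindRho C β) = 0`.  Strong induction on `#B`.  `B = 0`: `lam_of_subsingleton`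
 (`subsingleton_coind`).  Otherwise the cyclic `p`-group generated by `β h` has a fixed vector `y ≠ 0` (`LA.exists_fixed_ne_zero`, S55/A/LinAlg).  `Y₁ :=` the subgroup generated by the `β(g)^i y`;
 it is `C`-stable, and `U₁` acts trivially on it (`C/U` is commutative).  `ses_coind` for `0 → Y₁ → B → B/Y₁ → 0` + induction for `B/Y₁` reduce to `B = Y₁` (`IsMod` of `coindRho`: as in `finMod_coind`).
(2) `B = Y₁` generated by `y`.  Put `θ := χ(g)⁻¹ • β(g)` (an automorphism of `B` commuting with everything); `θ^m = χ(g^m)⁻¹ β(g^m) = 1` on `B` (`g^m = h ∈ U₁`).   Define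
      `Ψ : Map(Γ/U₁, 𝔽_p) → CoInd C β`,   `Ψ(φ)(x) = ∑_{i < m} (χ(x)⁻¹ φ(x g^i U₁)).val • θ^i y`.
 * `Ψ φ ∈ CoInd`: `Ψ(φ)(x u) = Ψ(φ)(x)` for `u ∈ U` (`x u g^i U₁ = x g^i U₁` as `U` is normal, `χ(u) = 1`, `β u = 1`);
   `Ψ(φ)(x g) = χ(g)⁻¹ θ⁻¹ Ψ(φ)(x) = β(g)⁻¹ Ψ(φ)(x)` (shift `i`; the term `i = m` equals the term `i = 0` because `g^m ∈ U₁`, `θ^m = 1`).  `C` is generated by `U` and `g`.
 * equivariant: `(γ φ)(s) = χ(γ) φ(γ⁻¹ s)`, so `Ψ(γ φ)(x) = Ψ(φ)(γ⁻¹ x) = (γ Ψ(φ))(x)`.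
 * `Ψ(D φ)(x) = θ⁻¹ (Ψ(φ)(x))`, hence `Ψ(Q(D) φ)(x) = Q(θ⁻¹)(Ψ(φ)(x))` for `Q ∈ ℤ[X]`;  `D^m = 1`.
 * surjective: `f ∈ CoInd` is determined by the `f(x)`, `x` in a set of representatives of `Γ/C`; `f(x) = ∑_i c_i θ^i y`; the cosets `x g^i U₁` (`x` representative, `i < m`) are pairwise distinct because `m` is the exact
   order of `g` mod `U₁` (`g^j = u g^{mk}` ⇒ `n ∣ j - mk` ⇒ `m ∣ j`).
 * `ker Ψ = ker ν(D)`: let `μ ∈ ℤ[X]` lift the minimal polynomial of `θ⁻¹` on `B` (over `𝔽_p`), `X^m - 1 ≡ μ ν` mod `p`; `μ, ν` are coprime mod `p` (`X^m - 1` is separable, `p ∤ m`): `a μ + b ν ≡ 1`.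
   `⊇`: `ν(D)φ = 0` ⇒ `φ = μ(D)(a(D)φ)` ⇒ `Ψ φ = μ(θ⁻¹) Ψ(..) = 0`.
   `⊆`: `Ψ φ = 0` ⇒ for each `x`: `∑_i χ(x)⁻¹ φ(x g^i U₁) θ^i y = 0` ⇒ the polynomial `F_x = ∑_i φ(x g^i U₁) t^{m-i}` kills `y` at `t = θ⁻¹`, hence kills `B` ⇒ `μ ∣ F_x` mod `p` ⇒ `X^m - 1 ∣ ν F_x`; and
   `(ν(D) φ)(x g^k U₁)` is a coefficient of `ν F_x` mod `(X^m - 1)`.   (Alternative: count.  `#N₁ = p^{[Γ:C] m}`, `#CoInd = p^{[Γ:C] deg μ}` (`B ≅ 𝔽_p[t]/μ`), `#ker ν(D) = p^{[Γ:C] deg ν}` as `N₁` is free over `𝔽_p[t]/(t^m-1)`.)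
 * conclusion: `SES (ker ν(D)) N₁ (CoInd C β)`, `lam N₁ = lam (ker 0(D)) = 0` (`P = 0`, `lam_iso` with `⊤`) and `lam (ker ν(D)) = 0` by `hker` ⇒ `lam (CoInd C β) = 0`.
PROOF ACTUALLY USED (helper7): induction on `#B` reduces to `B` SIMPLE; then `g` acts through an order `m` prime to `p`; `U₁ := ker β ∩ ker χ|C`; by `CycAux.exists_pair` there are `y`, `l : B →+ 𝔽_p` with
`∑_{i<m} l(g⁻ⁱ x) gⁱ y = x`; then `f ↦ (x U₁ ↦ χ(x) l(f x))` is an isomorphism `CoInd C β ≅ ker (Q - 1)(D)`, `Q = ∑_i χ(g)⁻ⁱ l(gⁱ y) Xⁱ`.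
If you find a simpler argument for (2) (e.g. decompose `N₁ = ⊕ ker P_i(D)` and identify `CoInd C (𝔽_p[t]/P_i)`), use it: only the STATEMENT below matters.
-/

set_option autoImplicit false

noncomputable section

namespace Fermat.Agent.S56.E

open Fermat.Agent.S55

variable {Γ : Type} [Group Γ] {U : Subgroup Γ} {p : ℕ} {V : Type} [AddCommGroup V]

section Aux

/-- coinduced modules are modules -/
theorem cycAux_isMod [U.Normal] [Finite (Γ ⧸ U)] {C : Subgroup Γ} (hUC : U ≤ C) {B : Type}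
    [AddCommGroup B] [Finite B] {β : C →* AddMonoid.End B} (hp : ∀ b : B, p • b = 0)
    (ht : ∀ c : C, (c : Γ) ∈ U → ∀ b, β c b = b) : IsMod U p (coindRho C β) where
  fin := by
    have : U.FiniteIndex := Subgroup.finiteIndex_of_finite_quotient
    have hfi : C.FiniteIndex := Subgroup.finiteIndex_of_le hUC
    have : Finite (Γ ⧸ C) := Subgroup.finite_quotient_of_finiteIndex
    refine Finite.of_injective (fun (f : CoInd C β) (s : Γ ⧸ C) => f.1 s.out) ?_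
    intro f f' hff
    apply Subtype.ext
    funext g
    have hmem : ((g : Γ ⧸ C).out)⁻¹ * g ∈ C :=
      QuotientGroup.eq.1 (QuotientGroup.out_eq' (g : Γ ⧸ C))
    have hg : g = (g : Γ ⧸ C).out * ((⟨_, hmem⟩ : C) : Γ) := by
      change g = (g : Γ ⧸ C).out * ((g : Γ ⧸ C).out⁻¹ * g)
      rw [mul_inv_cancel_left]
    have h1 := congrFun hff (g : Γ ⧸ C)
    rw [hg, f.2, f'.2]
    exact congrArg _ h1
  tors f := by
    apply Subtype.ext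
    funext g
    exact hp _
  triv := by
    intro n hn' f
    apply Subtype.ext
    funext g
    have h1 : g⁻¹ * n⁻¹ * g ∈ U := by
      have := (inferInstance : U.Normal).conj_mem n⁻¹ (U.inv_mem hn') g⁻¹
      simpa using this
    have h2 : n⁻¹ * g = g * ((⟨g⁻¹ * n⁻¹ * g, hUC h1⟩ : C) : Γ) := by
      change n⁻¹ * g = g * (g⁻¹ * n⁻¹ * g)
      group
    rw [coindRho_apply, h2, f.2]
    exact ht _ (U.inv_mem h1) _

/-- `CoInd C (ρ|C) ≅ Map(Γ/C, ρ)` -/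
def cycAux_e0 (C : Subgroup Γ) {A : Type} [AddCommGroup A] (ρ : Γ →* AddMonoid.End A) :
    CoInd C (ρ.comp C.subtype) ≃+ (Γ ⧸ C → A) where
  toFun f s := ρ s.out (f.1 s.out)
  invFun φ := ⟨fun x => ρ x⁻¹ (φ (x : Γ ⧸ C)), fun x c => by
    have h1 : ((x * c : Γ) : Γ ⧸ C) = (x : Γ ⧸ C) := QuotientGroup.mk_mul_of_mem x c.2
    change ρ (x * c)⁻¹ (φ ((x * c : Γ) : Γ ⧸ C)) = ρ ((c⁻¹ : C) : Γ) (ρ x⁻¹ (φ (x : Γ ⧸ C)))
    rw [h1, mul_inv_rev, map_mul]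
    rfl⟩
  left_inv f := by
    apply Subtype.ext
    funext x
    change ρ x⁻¹ (ρ (x : Γ ⧸ C).out (f.1 (x : Γ ⧸ C).out)) = f.1 x
    rw [coind_smul_out, ← End_mul_apply, ← map_mul, inv_mul_cancel, map_one]
    rfl
  right_inv φ := by
    funext s
    change ρ s.out (ρ s.out⁻¹ (φ (s.out : Γ ⧸ C))) = φ s
    rw [← End_mul_apply, ← map_mul, mul_inv_cancel, map_one, QuotientGroup.out_eq']
    rfl
  map_add' a b := by
    funext s
    change ρ s.out (a.1 s.out + b.1 s.out) = ρ s.out (a.1 s.out) + ρ s.out (b.1 s.out)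
    rw [map_add]

theorem cycAux_e0_mk (C : Subgroup Γ) {A : Type} [AddCommGroup A] (ρ : Γ →* AddMonoid.End A)
    (f : CoInd C (ρ.comp C.subtype)) (x : Γ) : cycAux_e0 C ρ f (x : Γ ⧸ C) = ρ x (f.1 x) :=
  coind_smul_out C ρ f x

theorem cycAux_isHom_e0 (C : Subgroup Γ) {A : Type} [AddCommGroup A] (ρ : Γ →* AddMonoid.End A) :
    IsHom (coindRho C (ρ.comp C.subtype)) (Fn (cosetPerm C) ρ) (cycAux_e0 C ρ).toAddMonoidHom := by
  intro γ f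
  funext s
  obtain ⟨x, rfl⟩ := QuotientGroup.mk_surjective s
  change cycAux_e0 C ρ (coindRho C (ρ.comp C.subtype) γ f) (x : Γ ⧸ C) =
    ρ γ (cycAux_e0 C ρ f ((cosetPerm C γ)⁻¹ (x : Γ ⧸ C)))
  rw [cosetPerm_inv_mk, cycAux_e0_mk, cycAux_e0_mk, coindRho_apply, ← End_mul_apply, ← map_mul,
    mul_inv_cancel_left]

/-- `C` is generated by `U` and `g` -/
theorem cycAux_top {g : Γ} {C : Subgroup Γ} (hUC : U ≤ C) (hgC : g ∈ C)
    (hC : C ≤ U ⊔ Subgroup.zpowers g) (S : Subgroup C) (hU : ∀ c : C, (c : Γ) ∈ U → c ∈ S)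
    (hg : (⟨g, hgC⟩ : C) ∈ S) (c : C) : c ∈ S := by
  have h1 : U ⊔ Subgroup.zpowers g ≤ S.map C.subtype := by
    rw [sup_le_iff]
    constructor
    · intro u hu
      exact ⟨⟨u, hUC hu⟩, hU _ hu, rfl⟩
    · rw [Subgroup.zpowers_le]
      exact ⟨⟨g, hgC⟩, hg, rfl⟩
  obtain ⟨c', hc', hcc⟩ := h1 (hC c.2)
  have : c' = c := Subtype.ext hcc
  exact this ▸ hc'

/-- `C` acts through the powers of `g` -/
theorem cycAux_pow {g : Γ} {C : Subgroup Γ} (hUC : U ≤ C) (hgC : g ∈ C)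
    (hC : C ≤ U ⊔ Subgroup.zpowers g) {B : Type} [AddCommGroup B] (β : C →* AddMonoid.End B)
    (ht : ∀ c : C, (c : Γ) ∈ U → ∀ b, β c b = b) {n : ℕ} (hn : 0 < n)
    (hbn : β ⟨g, hgC⟩ ^ n = 1) (c : C) : ∃ k : ℕ, β c = β ⟨g, hgC⟩ ^ k := by
  obtain ⟨n', rfl⟩ : ∃ n', n = n' + 1 := ⟨n - 1, by omega⟩
  let S : Subgroup C :=
    { carrier := {c | ∃ k : ℕ, β c = β ⟨g, hgC⟩ ^ k}
      one_mem' := ⟨0, by simp⟩
      mul_mem' := by
        rintro c c' ⟨k, hk⟩ ⟨k', hk'⟩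
        exact ⟨k + k', by rw [map_mul, hk, hk', pow_add]⟩
      inv_mem' := by
        rintro c ⟨k, hk⟩
        refine ⟨k * n', ?_⟩
        have h1 : (β ⟨g, hgC⟩ ^ k) ^ (n' + 1) = 1 := by
          rw [← pow_mul, mul_comm, pow_mul, hbn, one_pow]
        have h2 : β c⁻¹ * β c = 1 := by rw [← map_mul, inv_mul_cancel, map_one]
        calc β c⁻¹ = β c⁻¹ * (β ⟨g, hgC⟩ ^ k) ^ (n' + 1) := by rw [h1, mul_one]
          _ = (β c⁻¹ * β c) * (β ⟨g, hgC⟩ ^ k) ^ n' := by rw [pow_succ', ← hk, mul_assoc]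
          _ = β ⟨g, hgC⟩ ^ (k * n') := by rw [h2, one_mul, pow_mul] }
  exact cycAux_top hUC hgC hC S (fun c hc => ⟨0, by ext b; simpa using ht c hc b⟩) ⟨1, by simp⟩ c

theorem cycAux_end_sum_apply {M ι : Type*} [AddCommGroup M] (s : Finset ι)
    (F : ι → AddMonoid.End M) (x : M) : (∑ i ∈ s, F i) x = ∑ i ∈ s, F i x :=
  map_sum (AddMonoidHom.eval x : (M →+ M) →+ M) F s

theorem cycAux_Dpow (U₁ : Subgroup Γ) (g : Γ) (hg : ∀ u ∈ U₁, g⁻¹ * u * g ∈ U₁) {A : Type}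
    [AddCommGroup A] (i : ℕ) (φ : Γ ⧸ U₁ → A) (x : Γ) :
    (Dop U₁ g hg A ^ i) φ (x : Γ ⧸ U₁) = φ ((x * g ^ i : Γ) : Γ ⧸ U₁) := by
  induction i generalizing φ with
  | zero => simp
  | succ i ih =>
    rw [pow_succ]
    change (Dop U₁ g hg A ^ i) (Dop U₁ g hg A φ) (x : Γ ⧸ U₁) = _
    rw [ih]
    change φ (rmul U₁ g hg ((x * g ^ i : Γ) : Γ ⧸ U₁)) = _
    rw [rmul_mk, pow_succ, mul_assoc]

end Aux

section Core

open Finset

variable [Fact p.Prime] {g : Γ} {C : Subgroup Γ} {B : Type} [AddCommGroup B] [Module (ZMod p) B]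

/-- `f ↦ (x U₁ ↦ χ(x) l(f x))` -/
def cycAux_Phi (χ : Γ →* (ZMod p)ˣ) (U₁ : Subgroup Γ) (β : C →* AddMonoid.End B)
    (l : B →+ ZMod p) : CoInd C β →+ (Γ ⧸ U₁ → ZMod p) where
  toFun f s := (χ s.out : ZMod p) * l (f.1 s.out)
  map_zero' := by
    funext s
    simp
  map_add' a b := by
    funext s
    simp [mul_add]

omit [Module (ZMod p) B] in
theorem cycAux_Phi_mk {χ : Γ →* (ZMod p)ˣ} {U₁ : Subgroup Γ} {β : C →* AddMonoid.End B}
    (hU₁C : U₁ ≤ C) (hχ₁ : ∀ u ∈ U₁, χ u = 1) (hβ₁ : ∀ c : C, (c : Γ) ∈ U₁ → ∀ x, β c x = x)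
    (l : B →+ ZMod p) (f : CoInd C β) (x : Γ) :
    cycAux_Phi χ U₁ β l f (x : Γ ⧸ U₁) = (χ x : ZMod p) * l (f.1 x) := by
  obtain ⟨h, hh⟩ := QuotientGroup.mk_out_eq_mul U₁ x
  change (χ (x : Γ ⧸ U₁).out : ZMod p) * l (f.1 (x : Γ ⧸ U₁).out) = _
  have h1 : f.1 (x * (h : Γ)) = f.1 x := by
    have := f.2 x ⟨h, hU₁C h.2⟩
    rw [hβ₁ _ (U₁.inv_mem h.2)] at this
    exact this
  rw [hh, h1, map_mul, hχ₁ h h.2, mul_one]

theorem cycAux_val_pow {β : C →* AddMonoid.End B} (hgC : g ∈ C) (f : CoInd C β) (x : Γ) (i : ℕ) :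
    f.1 (x * g ^ i) = (β (⟨g, hgC⟩ : C)⁻¹ ^ i) (f.1 x) := by
  have := f.2 x ((⟨g, hgC⟩ : C) ^ i)
  rw [← inv_pow, map_pow] at this
  exact this

theorem cycAux_core [U.Normal] [Finite (Γ ⧸ U)] [Finite B] (L : LamData U p V)
    (χ : Γ →* (ZMod p)ˣ)
    (hker : ∀ (U₁ : Subgroup Γ) (g : Γ) (hg : ∀ u ∈ U₁, g⁻¹ * u * g ∈ U₁) (m : ℕ), U ≤ U₁ →
      (∀ u ∈ U₁, χ u = 1) → g ^ m ∈ U₁ → 0 < m → ¬ p ∣ m → ∀ P : Polynomial ℤ,
        L.lam _ (kerRho (isHom_Dop U₁ g hg (rhoChi χ)) P) = 0)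
    (hUC : U ≤ C) (hgC : g ∈ C) (hC : C ≤ U ⊔ Subgroup.zpowers g) (β : C →* AddMonoid.End B)
    (hp : ∀ b : B, p • b = 0) (ht : ∀ c : C, (c : Γ) ∈ U → ∀ b, β c b = b)
    (U₁ : Subgroup Γ) (hUU₁ : U ≤ U₁) (hU₁C : U₁ ≤ C) (hχ₁ : ∀ u ∈ U₁, χ u = 1)
    (hβ₁ : ∀ c : C, (c : Γ) ∈ U₁ → ∀ x, β c x = x) (hgn : ∀ u ∈ U₁, g⁻¹ * u * g ∈ U₁) {m : ℕ}
    (hgm : g ^ m ∈ U₁) (hm0 : 0 < m) (hpm : ¬ p ∣ m) (y : B) (l : B →+ ZMod p)
    (hyl : ∀ x, ∑ i ∈ range m, l ((β (⟨g, hgC⟩ : C)⁻¹ ^ i) x) • (β (⟨g, hgC⟩ : C) ^ i) y = x) :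
    L.lam _ (coindRho C β) = 0 := by
  classical
  obtain ⟨b, hb⟩ : ∃ b, b = β (⟨g, hgC⟩ : C) := ⟨_, rfl⟩
  obtain ⟨b', hb'⟩ : ∃ b', b' = β (⟨g, hgC⟩ : C)⁻¹ := ⟨_, rfl⟩
  rw [← hb, ← hb'] at hyl
  have hb'b : b' * b = 1 := by rw [hb, hb', ← map_mul, inv_mul_cancel, map_one]
  have hbm : b ^ m = 1 := by
    rw [hb, ← map_pow]
    ext x
    exact hβ₁ _ hgm x
  -- the units
  have hcc : ∀ x : Γ, ((χ x : (ZMod p)ˣ) : ZMod p) * (((χ x)⁻¹ : (ZMod p)ˣ) : ZMod p) = 1 :=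
    fun x => Units.mul_inv _
  have hcm : ∀ x z : Γ, ((χ (x * z) : (ZMod p)ˣ) : ZMod p) = (χ x : ZMod p) * (χ z : ZMod p) :=
    fun x z => by rw [map_mul, Units.val_mul]
  have hcim : ∀ x z : Γ, (((χ (x * z))⁻¹ : (ZMod p)ˣ) : ZMod p) =
      (((χ x)⁻¹ : (ZMod p)ˣ) : ZMod p) * (((χ z)⁻¹ : (ZMod p)ˣ) : ZMod p) :=
    fun x z => by rw [map_mul, mul_inv, Units.val_mul]
  -- the polynomial
  choose q hq using fun i : ℕ => ZMod.intCast_surjective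
    ((((χ (g ^ i))⁻¹ : (ZMod p)ˣ) : ZMod p) * l ((b ^ i) y))
  obtain ⟨P, hPdef⟩ : ∃ P : Polynomial ℤ, P = ∑ i ∈ range m, Polynomial.monomial i (q i) - 1 :=
    ⟨_, rfl⟩
  obtain ⟨D, hD⟩ : ∃ D, D = Dop U₁ g hgn (ZMod p) := ⟨_, rfl⟩
  have hP : ∀ (φ : Γ ⧸ U₁ → ZMod p) (x : Γ),
      (Polynomial.aeval D P : AddMonoid.End (Γ ⧸ U₁ → ZMod p)) φ (x : Γ ⧸ U₁) =
        ∑ i ∈ range m, (q i : ZMod p) * φ ((x * g ^ i : Γ) : Γ ⧸ U₁) - φ (x : Γ ⧸ U₁) := by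
    intro φ x
    rw [hPdef, map_sub, map_sum, map_one]
    change ((∑ i ∈ range m, Polynomial.aeval D (Polynomial.monomial i (q i))) φ - φ)
      (x : Γ ⧸ U₁) = _
    rw [cycAux_end_sum_apply, Pi.sub_apply, Finset.sum_apply]
    congr 1
    refine Finset.sum_congr rfl fun i _ => ?_
    rw [Polynomial.aeval_monomial, eq_intCast]
    change ((q i : AddMonoid.End (Γ ⧸ U₁ → ZMod p)) ((D ^ i) φ)) (x : Γ ⧸ U₁) = _
    rw [AddMonoid.End.intCast_apply, Pi.smul_apply, hD, cycAux_Dpow, zsmul_eq_mul]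
  have hmk := cycAux_Phi_mk (χ := χ) (β := β) hU₁C hχ₁ hβ₁ l
  have hlsum : ∀ (c : ℕ → ZMod p), l (∑ i ∈ range m, c i • (b ^ i) y) =
      ∑ i ∈ range m, c i * l ((b ^ i) y) := by
    intro c
    rw [map_sum]
    refine Finset.sum_congr rfl fun i _ => ?_
    rw [ZMod.map_smul, smul_eq_mul]
  -- the image lies in the kernel
  have hmem : ∀ f : CoInd C β, cycAux_Phi χ U₁ β l f ∈
      AddMonoidHom.ker (Polynomial.aeval D P : AddMonoid.End (Γ ⧸ U₁ → ZMod p)) := by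
    intro f
    change (Polynomial.aeval D P : AddMonoid.End (Γ ⧸ U₁ → ZMod p)) (cycAux_Phi χ U₁ β l f) = 0
    funext s
    obtain ⟨x, rfl⟩ := QuotientGroup.mk_surjective s
    rw [hP, hmk, Pi.zero_apply, sub_eq_zero]
    conv_rhs => rw [← hyl (f.1 x), hlsum, Finset.mul_sum]
    refine Finset.sum_congr rfl fun i _ => ?_
    rw [hmk, hq, hcm, cycAux_val_pow hgC, ← hb']
    linear_combination ((χ x : ZMod p) * l ((b' ^ i) (f.1 x)) * l ((b ^ i) y)) * hcc (g ^ i)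
  -- injectivity
  have hinj : ∀ f : CoInd C β, cycAux_Phi χ U₁ β l f = 0 → f = 0 := by
    intro f hf
    have h0 : ∀ x, l (f.1 x) = 0 := by
      intro x
      have h1 := congrFun hf (x : Γ ⧸ U₁)
      rw [hmk, Pi.zero_apply] at h1
      exact (Units.mul_right_eq_zero _).1 h1
    apply Subtype.ext
    funext x
    rw [← hyl (f.1 x)]
    refine Finset.sum_eq_zero fun i _ => ?_
    rw [hb', ← cycAux_val_pow hgC, h0, zero_smul]
  -- surjectivity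
  have hsurj : ∀ φ : Γ ⧸ U₁ → ZMod p,
      (Polynomial.aeval D P : AddMonoid.End (Γ ⧸ U₁ → ZMod p)) φ = 0 →
      ∃ f : CoInd C β, cycAux_Phi χ U₁ β l f = φ := by
    intro φ hφ
    obtain ⟨F, hF⟩ : ∃ F : Γ → B, F = fun x => ∑ i ∈ range m,
        ((((χ (x * g ^ i))⁻¹ : (ZMod p)ˣ) : ZMod p) * φ ((x * g ^ i : Γ) : Γ ⧸ U₁)) • (b ^ i) y :=
      ⟨_, rfl⟩
    let S : Subgroup C :=
      { carrier := {c | ∀ x, F (x * c) = β c⁻¹ (F x)}
        one_mem' := by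
          intro x
          simp
        mul_mem' := by
          intro c c' hc hc' x
          rw [Subgroup.coe_mul, ← mul_assoc, hc', hc, mul_inv_rev, map_mul]
          rfl
        inv_mem' := by
          intro c hc x
          have h1 := hc (x * ((c⁻¹ : C) : Γ))
          rw [Subgroup.coe_inv, inv_mul_cancel_right] at h1
          rw [h1, Subgroup.coe_inv, inv_inv, ← End_mul_apply, ← map_mul, mul_inv_cancel, map_one]
          rfl }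
    have hS : ∀ c : C, c ∈ S := by
      refine cycAux_top hUC hgC hC S ?_ ?_
      · intro c hc x
        rw [ht _ (U.inv_mem hc), hF]
        refine Finset.sum_congr rfl fun i _ => ?_
        have h1 : ((x * c * g ^ i : Γ) : Γ ⧸ U₁) = ((x * g ^ i : Γ) : Γ ⧸ U₁) := by
          rw [eq_comm, QuotientGroup.eq]
          have h2 := (inferInstance : U.Normal).conj_mem _ hc (g ^ i)⁻¹
          have h3 : (x * g ^ i)⁻¹ * (x * c * g ^ i) = (g ^ i)⁻¹ * c * (g ^ i)⁻¹⁻¹ := by group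
          rw [h3]
          exact hUU₁ h2
        have h4 : χ (x * c * g ^ i) = χ (x * g ^ i) := by
          rw [map_mul, map_mul, hχ₁ _ (hUU₁ hc), mul_one, map_mul]
        rw [h1, h4]
      · intro x
        rw [← hb']
        change F (x * g) = b' (F x)
        rw [hF]
        change ∑ i ∈ range m, ((((χ (x * g * g ^ i))⁻¹ : (ZMod p)ˣ) : ZMod p) *
            φ ((x * g * g ^ i : Γ) : Γ ⧸ U₁)) • (b ^ i) y =
          b' (∑ i ∈ range m, ((((χ (x * g ^ i))⁻¹ : (ZMod p)ˣ) : ZMod p) *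
            φ ((x * g ^ i : Γ) : Γ ⧸ U₁)) • (b ^ i) y)
        rw [map_sum]
        have hsh := CycAux.sum_shift m (fun i => ((((χ (x * g ^ i))⁻¹ : (ZMod p)ˣ) : ZMod p) *
            φ ((x * g ^ i : Γ) : Γ ⧸ U₁)) • b' ((b ^ i) y)) (by
          have h1 : ((x * g ^ m : Γ) : Γ ⧸ U₁) = (x : Γ ⧸ U₁) := QuotientGroup.mk_mul_of_mem x hgm
          have h2 : χ (x * g ^ m) = χ x := by rw [map_mul, hχ₁ _ hgm, mul_one]
          simp only [h1, h2, hbm, pow_zero, mul_one])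
        refine Eq.trans ?_ (hsh.trans ?_)
        · refine Finset.sum_congr rfl fun i _ => ?_
          have h1 : x * g * g ^ i = x * g ^ (i + 1) := by rw [pow_succ', mul_assoc]
          have h2 : b' ((b ^ (i + 1)) y) = (b ^ i) y := by
            rw [pow_succ']
            change (b' * b) ((b ^ i) y) = _
            rw [hb'b]
            rfl
          rw [h1, h2]
        · refine Finset.sum_congr rfl fun i _ => ?_
          rw [ZMod.map_smul]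
    refine ⟨⟨F, fun x c => hS c x⟩, ?_⟩
    funext s
    obtain ⟨x, rfl⟩ := QuotientGroup.mk_surjective s
    rw [hmk]
    change (χ x : ZMod p) * l (F x) = φ (x : Γ ⧸ U₁)
    have h1 := hP φ x
    rw [hφ, Pi.zero_apply, eq_comm, sub_eq_zero] at h1
    rw [← h1, hF, hlsum, Finset.mul_sum]
    refine Finset.sum_congr rfl fun i _ => ?_
    rw [hq, hcim]
    linear_combination ((((χ (g ^ i))⁻¹ : (ZMod p)ˣ) : ZMod p) * φ ((x * g ^ i : Γ) : Γ ⧸ U₁) *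
      l ((b ^ i) y)) * hcc x
  -- the isomorphism
  subst hD
  let e : CoInd C β ≃+ AddMonoidHom.ker
      (Polynomial.aeval (Dop U₁ g hgn (ZMod p)) P : AddMonoid.End (Γ ⧸ U₁ → ZMod p)) :=
    AddEquiv.ofBijective ((cycAux_Phi χ U₁ β l).codRestrict _ hmem) ⟨by
      rw [injective_iff_map_eq_zero]
      intro f hf
      exact hinj f (congrArg Subtype.val hf), by
      intro φ
      obtain ⟨f, hf⟩ := hsurj φ.1 φ.2
      exact ⟨f, Subtype.ext hf⟩⟩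
  have he : IsHom (coindRho C β) (kerRho (isHom_Dop U₁ g hgn (rhoChi χ)) P) e.toAddMonoidHom := by
    intro γ f
    apply Subtype.ext
    funext s
    obtain ⟨x, rfl⟩ := QuotientGroup.mk_surjective s
    change cycAux_Phi χ U₁ β l (coindRho C β γ f) (x : Γ ⧸ U₁) =
      (χ γ : ZMod p) * cycAux_Phi χ U₁ β l f ((cosetPerm U₁ γ)⁻¹ (x : Γ ⧸ U₁))
    rw [cosetPerm_inv_mk, hmk, hmk, coindRho_apply, ← mul_assoc, ← hcm, mul_inv_cancel_left]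
  rw [lam_iso L e he (cycAux_isMod hUC hp ht)]
  exact hker U₁ g hgn m hUU₁ hχ₁ hgm hm0 hpm P

end Core

section Main

variable [Fact p.Prime] {g : Γ} {C : Subgroup Γ}

theorem cycAux_simple [U.Normal] [Finite (Γ ⧸ U)] (L : LamData U p V) (χ : Γ →* (ZMod p)ˣ)
    (hχ : ∀ u ∈ U, χ u = 1)
    (hker : ∀ (U₁ : Subgroup Γ) (g : Γ) (hg : ∀ u ∈ U₁, g⁻¹ * u * g ∈ U₁) (m : ℕ), U ≤ U₁ →
      (∀ u ∈ U₁, χ u = 1) → g ^ m ∈ U₁ → 0 < m → ¬ p ∣ m → ∀ P : Polynomial ℤ,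
        L.lam _ (kerRho (isHom_Dop U₁ g hg (rhoChi χ)) P) = 0)
    (hUC : U ≤ C) (hgC : g ∈ C) (hC : C ≤ U ⊔ Subgroup.zpowers g) {B : Type} [AddCommGroup B]
    [Finite B] [Nontrivial B] (β : C →* AddMonoid.End B)
    (hp : ∀ b : B, p • b = 0) (ht : ∀ c : C, (c : Γ) ∈ U → ∀ b, β c b = b)
    (hs : ∀ S : AddSubgroup B, Stable β S → S = ⊥ ∨ S = ⊤) :
    L.lam _ (coindRho C β) = 0 := by
  classical
  let _ : Module (ZMod p) B := AddCommGroup.zmodModule hp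
  have hpp : p.Prime := Fact.out
  obtain ⟨n, hn0, hn⟩ : ∃ n, 0 < n ∧ g ^ n ∈ U := by
    refine ⟨orderOf (g : Γ ⧸ U), orderOf_pos _, ?_⟩
    rw [← QuotientGroup.eq_one_iff, QuotientGroup.mk_pow, pow_orderOf_eq_one]
  have hbn : β (⟨g, hgC⟩ : C) ^ n = 1 := by
    rw [← map_pow]
    ext x
    exact ht _ hn x
  obtain ⟨a, m, hpm, hnam⟩ := Nat.exists_eq_pow_mul_and_not_dvd hn0.ne' p hpp.ne_one
  have hm0 : 0 < m := by
    rcases Nat.eq_zero_or_pos m with h | h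
    · exact absurd (h ▸ dvd_zero p) hpm
    · exact h
  have hs' : ∀ S : AddSubgroup B, (∀ x ∈ S, β (⟨g, hgC⟩ : C) x ∈ S) → S = ⊥ ∨ S = ⊤ := by
    intro S hS
    refine hs S fun c x hx => ?_
    obtain ⟨k, hk⟩ := cycAux_pow hUC hgC hC β ht hn0 hbn c
    rw [hk]
    clear hk
    induction k with
    | zero => simpa using hx
    | succ k ih =>
      rw [pow_succ']
      exact hS _ ih
  have hbm : β (⟨g, hgC⟩ : C) ^ m = 1 :=
    CycAux.pow_eq_one_of_simple (p := p) (a := a) (by rw [mul_comm, ← hnam]; exact hbn) hs'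
  have hb'm : β (⟨g, hgC⟩ : C)⁻¹ ^ m = 1 := by
    have h1 : β ((⟨g, hgC⟩ : C) ^ m)⁻¹ * β ((⟨g, hgC⟩ : C) ^ m) = 1 := by
      rw [← map_mul, inv_mul_cancel, map_one]
    rw [map_pow β, hbm, mul_one] at h1
    rw [← map_pow, inv_pow, h1]
  have hχm : χ g ^ m = 1 := by
    have h1 : (χ g ^ m) ^ (p ^ a) = 1 := by
      rw [← pow_mul, mul_comm, ← hnam, ← map_pow]
      exact hχ _ hn
    have h2 : (χ g ^ m) ^ (p - 1) = 1 := ZMod.units_pow_card_sub_one_eq_one p _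
    have h3 := pow_gcd_eq_one.2 ⟨h1, h2⟩
    have h4 : Nat.gcd (p ^ a) (p - 1) = 1 := by
      apply Nat.Coprime.pow_left
      rw [hpp.coprime_iff_not_dvd]
      have := hpp.two_le
      exact Nat.not_dvd_of_pos_of_lt (by omega) (by omega)
    rwa [h4, pow_one] at h3
  obtain ⟨y, l, hyl⟩ := CycAux.exists_pair (p := p) hpm hbm hb'm
    (by rw [← map_mul, mul_inv_cancel, map_one]) (by rw [← map_mul, inv_mul_cancel, map_one]) hs'
  -- the subgroup `U₁`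
  let K : Subgroup C := β.ker ⊓ (χ.comp C.subtype).ker
  have hKn : K.Normal := inferInstance
  refine cycAux_core L χ hker hUC hgC hC β hp ht (K.map C.subtype) ?_ ?_ ?_ ?_ ?_ (m := m) ?_ hm0 hpm
    y l hyl
  · intro u hu
    refine ⟨⟨u, hUC hu⟩, ⟨?_, ?_⟩, rfl⟩
    · change β _ = 1
      ext x
      exact ht _ hu x
    · exact hχ u hu
  · rintro _ ⟨c, _, rfl⟩
    exact c.2
  · rintro _ ⟨c, hc, rfl⟩
    exact hc.2
  · rintro c ⟨c', hc', hcc⟩ x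
    have : c' = c := Subtype.ext hcc
    subst this
    have h1 : β c' = 1 := hc'.1
    rw [h1]
    rfl
  · rintro _ ⟨c, hc, rfl⟩
    refine ⟨(⟨g, hgC⟩ : C)⁻¹ * c * (⟨g, hgC⟩ : C), ?_, rfl⟩
    have := hKn.conj_mem c hc (⟨g, hgC⟩ : C)⁻¹
    rwa [inv_inv] at this
  · refine ⟨(⟨g, hgC⟩ : C) ^ m, ⟨?_, ?_⟩, rfl⟩
    · change β _ = 1
      rw [map_pow, hbm]
    · change χ (g ^ m) = 1
      rw [map_pow, hχm]

theorem cycAux_ind [U.Normal] [Finite (Γ ⧸ U)] (L : LamData U p V) (χ : Γ →* (ZMod p)ˣ)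
    (hχ : ∀ u ∈ U, χ u = 1)
    (hker : ∀ (U₁ : Subgroup Γ) (g : Γ) (hg : ∀ u ∈ U₁, g⁻¹ * u * g ∈ U₁) (m : ℕ), U ≤ U₁ →
      (∀ u ∈ U₁, χ u = 1) → g ^ m ∈ U₁ → 0 < m → ¬ p ∣ m → ∀ P : Polynomial ℤ,
        L.lam _ (kerRho (isHom_Dop U₁ g hg (rhoChi χ)) P) = 0)
    (hUC : U ≤ C) (hgC : g ∈ C) (hC : C ≤ U ⊔ Subgroup.zpowers g) (n : ℕ) :
    ∀ (B : Type) [AddCommGroup B] [Finite B] (β : C →* AddMonoid.End B), Nat.card B ≤ n →
      (∀ b : B, p • b = 0) → (∀ c : C, (c : Γ) ∈ U → ∀ b, β c b = b) →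
      L.lam _ (coindRho C β) = 0 := by
  induction n with
  | zero =>
    intro B _ _ β hn _ _
    exact absurd hn (by have := Nat.card_pos (α := B); omega)
  | succ n ih =>
    intro B _ _ β hn hp ht
    rcases subsingleton_or_nontrivial B with hB | hB
    · have := subsingleton_coind C (β := β)
      exact lam_of_subsingleton L _
    by_cases hs : ∀ S : AddSubgroup B, Stable β S → S = ⊥ ∨ S = ⊤
    · exact cycAux_simple L χ hχ hker hUC hgC hC β hp ht hs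
    · push Not at hs
      obtain ⟨S, hS, hbot, htop⟩ := hs
      have hcard : Nat.card B = Nat.card (B ⧸ S) * Nat.card S :=
        AddSubgroup.card_eq_card_quotient_mul_card_addSubgroup S
      have h1 : 1 < Nat.card S := (AddSubgroup.one_lt_card_iff_ne_bot S).2 hbot
      have h2 : 1 < Nat.card (B ⧸ S) := by
        have h3 : Nat.card (B ⧸ S) ≠ 1 := fun h => htop (AddSubgroup.index_eq_one.1 h)
        have h4 : 0 < Nat.card (B ⧸ S) := Nat.card_pos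
        omega
      have hlt1 : Nat.card S ≤ n := by nlinarith
      have hlt2 : Nat.card (B ⧸ S) ≤ n := by nlinarith
      have hadd := L.add (ses_coind C (ses_subQuot hS)) (cycAux_isMod hUC hp ht)
      rw [hadd, ih S (subRho hS) hlt1 (fun b => Subtype.ext (by simpa using hp b))
        (fun c hc b => Subtype.ext (ht c hc b)),
        ih (B ⧸ S) (quotRho hS) hlt2 (fun b => by
          obtain ⟨b, rfl⟩ := QuotientAddGroup.mk'_surjective S b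
          rw [← map_nsmul, hp, map_zero]) (fun c hc b => by
          obtain ⟨b, rfl⟩ := QuotientAddGroup.mk'_surjective S b
          change ((β c b : B) : B ⧸ S) = _
          rw [ht c hc b]
          rfl), add_zero]

end Main

theorem cyc [Fact p.Prime] [U.Normal] [Finite (Γ ⧸ U)] (L : LamData U p V) (χ : Γ →* (ZMod p)ˣ)
    (hχ : ∀ u ∈ U, χ u = 1)
    (hker : ∀ (U₁ : Subgroup Γ) (g : Γ) (hg : ∀ u ∈ U₁, g⁻¹ * u * g ∈ U₁) (m : ℕ), U ≤ U₁ →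
      (∀ u ∈ U₁, χ u = 1) → g ^ m ∈ U₁ → 0 < m → ¬ p ∣ m → ∀ P : Polynomial ℤ,
        L.lam _ (kerRho (isHom_Dop U₁ g hg (rhoChi χ)) P) = 0)
    (g : Γ) {A : Type} [AddCommGroup A] (ρ : Γ →* AddMonoid.End A) (h : IsMod U p ρ) :
    L.lam _ (Fn (cosetPerm (U ⊔ Subgroup.zpowers g)) ρ) = 0 := by
  have := h.fin
  have hUC : U ≤ U ⊔ Subgroup.zpowers g := le_sup_left
  have hgC : g ∈ U ⊔ Subgroup.zpowers g :=
    (le_sup_right : Subgroup.zpowers g ≤ U ⊔ Subgroup.zpowers g) (Subgroup.mem_zpowers g)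
  have ht : ∀ c : ↥(U ⊔ Subgroup.zpowers g), (c : Γ) ∈ U → ∀ b,
      (ρ.comp (U ⊔ Subgroup.zpowers g).subtype) c b = b := fun c hc b => h.triv c hc b
  rw [← lam_iso L (cycAux_e0 (U ⊔ Subgroup.zpowers g) ρ) (cycAux_isHom_e0 _ ρ)
    (cycAux_isMod hUC h.tors ht)]
  exact cycAux_ind L χ hχ hker hUC hgC le_rfl (Nat.card A) A _ le_rfl h.tors ht

end Fermat.Agent.S56.E
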