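import Fermat.Agent.S56.E.Defs

/-!
# S56 / E / key `S56/E-BASIC` : formal consequences of additivity   (S55 formalism only, no arithmetic)

`L : LamData U p V` (an additive function on finite `𝔽_p[Γ/U]`-modules).  All proofs are one or two applications of `L.add`:
* `lam_of_subsingleton` : `SES 0 0 0` gives `x = x + x`.
* `lam_iso` : `SES ρA ρB (0 on PUnit) e 0`.
* `lam_prod` : `SES ρA (prodRho) ρB inl snd`;  `lam_sub_add_quot` : `ses_subQuot`.
* `lam_Fn_sigma` : induction on the finite index type (e.g. `Finset.induction` on the statement for functions supported on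
  `Σ i ∈ s`), or: `Fn (sigmaPerm π) ρ ≅ Π i, Fn (π i) ρ` and induction with `lam_prod`; choose what is shortest
  (an alternative: prove `lam_Fn_sum` for `X ⊕ Y` first and use `Fintype.induction_empty_option` / `Fin n`).
* `lam_Fn_prod` : `curryFn` / `uncurryFn` (S55/A/Tw) + `lam_iso`.
* `lam_Fn_congr` : `pull` along the bijection + `lam_iso`.
-/

set_option autoImplicit false

noncomputable section

namespace Fermat.Agent.S56.E

open Fermat.Agent.S55

variable {Γ : Type} [Group Γ] {U : Subgroup Γ} {p : ℕ} {V : Type} [AddCommGroup V]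

section IsModLemmas

variable {A B C : Type} [AddCommGroup A] [AddCommGroup B] [AddCommGroup C]
  {ρA : Γ →* AddMonoid.End A} {ρB : Γ →* AddMonoid.End B} {ρC : Γ →* AddMonoid.End C}

theorem IsMod.sub (h : IsMod U p ρA) {S : AddSubgroup A} (hS : Stable ρA S) : IsMod U p (subRho hS) :=
  ⟨by have := h.fin; infer_instance, fun a => Subtype.ext (h.tors a.1),
    fun u hu a => Subtype.ext (h.triv u hu a.1)⟩

theorem IsMod.quot (h : IsMod U p ρA) {S : AddSubgroup A} (hS : Stable ρA S) :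
    IsMod U p (quotRho hS) := by
  refine ⟨by have := h.fin; infer_instance, fun a => ?_, fun u hu a => ?_⟩
  · obtain ⟨a, rfl⟩ := QuotientAddGroup.mk'_surjective S a
    rw [← map_nsmul, h.tors, map_zero]
  · obtain ⟨a, rfl⟩ := QuotientAddGroup.mk'_surjective S a
    show quotRho hS u (a : A ⧸ S) = _
    rw [quotRho_mk, h.triv u hu a]
    rfl

theorem IsMod.prod (hA : IsMod U p ρA) (hB : IsMod U p ρB) : IsMod U p (prodRho ρA ρB) :=
  ⟨by have := hA.fin; have := hB.fin; infer_instance,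
    fun x => by ext <;> simp [hA.tors, hB.tors],
    fun u hu x => by rw [prodRho_apply, hA.triv u hu, hB.triv u hu]⟩

theorem IsMod.ofSES_A {i : A →+ B} {j : B →+ C} (S : SES ρA ρB ρC i j) (h : IsMod U p ρB) :
    IsMod U p ρA :=
  ⟨by have := h.fin; exact Finite.of_injective i S.inj,
    fun a => S.inj (by rw [map_nsmul, h.tors, map_zero]),
    fun u hu a => S.inj (by rw [S.hi u a, h.triv u hu])⟩

theorem IsMod.ofSES_C {i : A →+ B} {j : B →+ C} (S : SES ρA ρB ρC i j) (h : IsMod U p ρB) :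
    IsMod U p ρC := by
  refine ⟨by have := h.fin; exact Finite.of_surjective j S.surj, fun c => ?_, fun u hu c => ?_⟩
  · obtain ⟨b, rfl⟩ := S.surj c
    rw [← map_nsmul, h.tors, map_zero]
  · obtain ⟨b, rfl⟩ := S.surj c
    rw [← S.hj u b, h.triv u hu]

theorem IsMod.fn (h : IsMod U p ρA) {X : Type} [Finite X] {π : Γ →* Equiv.Perm X}
    (hπ : ∀ u ∈ U, π u = 1) : IsMod U p (Fn π ρA) :=
  ⟨by have := h.fin; infer_instance, fun f => by ext s; simp [h.tors],
    fun u hu f => by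
      ext s
      rw [Fn_apply, hπ u hu, h.triv u hu]
      rfl⟩

theorem IsMod.of_equiv (h : IsMod U p ρA) (e : A ≃+ B) (he : IsHom ρA ρB e.toAddMonoidHom) :
    IsMod U p ρB := by
  refine ⟨by have := h.fin; exact Finite.of_equiv _ e.toEquiv, fun b => ?_, fun u hu b => ?_⟩
  · obtain ⟨a, rfl⟩ := e.surjective b
    rw [← map_nsmul, h.tors, map_zero]
  · obtain ⟨a, rfl⟩ := e.surjective b
    have := he u a
    rw [h.triv u hu] at this
    exact this.symm

theorem isMod_rhoTriv [Fact p.Prime] : IsMod U p (rhoTriv Γ (ZMod p)) :=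
  ⟨inferInstance, fun a => by rw [nsmul_eq_mul, ZMod.natCast_self, zero_mul], fun _ _ _ => rfl⟩

theorem isMod_rhoChi [Fact p.Prime] {χ : Γ →* (ZMod p)ˣ} (hχ : ∀ u ∈ U, χ u = 1) :
    IsMod U p (rhoChi χ) :=
  ⟨inferInstance, fun a => by rw [nsmul_eq_mul, ZMod.natCast_self, zero_mul],
    fun u hu a => by rw [rhoChi_apply, hχ u hu, Units.val_one, one_mul]⟩

end IsModLemmas

/-- the action on a disjoint union -/
def sigmaPerm {ι : Type} {X : ι → Type} (π : ∀ i, Γ →* Equiv.Perm (X i)) :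
    Γ →* Equiv.Perm (Σ i, X i) where
  toFun g := Equiv.sigmaCongrRight (fun i => π i g)
  map_one' := by
    refine Equiv.ext fun x => ?_
    obtain ⟨i, x⟩ := x
    show (⟨i, π i 1 x⟩ : Σ i, X i) = ⟨i, x⟩
    rw [map_one]; rfl
  map_mul' g h := by
    refine Equiv.ext fun x => ?_
    obtain ⟨i, x⟩ := x
    show (⟨i, π i (g * h) x⟩ : Σ i, X i) = ⟨i, π i g (π i h x)⟩
    rw [map_mul]; rfl

@[simp] theorem sigmaPerm_apply {ι : Type} {X : ι → Type} (π : ∀ i, Γ →* Equiv.Perm (X i)) (g : Γ)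
    (x : Σ i, X i) : sigmaPerm π g x = ⟨x.1, π x.1 g x.2⟩ := rfl

/-- the diagonal action on `ι → X` -/
def powPerm (ι : Type) {X : Type} (π : Γ →* Equiv.Perm X) : Γ →* Equiv.Perm (ι → X) where
  toFun g := Equiv.piCongrRight (fun _ => π g)
  map_one' := by ext x; simp
  map_mul' g h := by ext x; simp

@[simp] theorem powPerm_apply (ι : Type) {X : Type} (π : Γ →* Equiv.Perm X) (g : Γ) (x : ι → X)
    (i : ι) : powPerm ι π g x i = π g (x i) := rfl

theorem Equiv.Perm.apply_inv_self' {α : Type*} (f : Equiv.Perm α) (x : α) : f (f⁻¹ x) = x :=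
  f.apply_symm_apply x

variable (L : LamData U p V)

variable {A B : Type} [AddCommGroup A] [AddCommGroup B]
  {ρA : Γ →* AddMonoid.End A} {ρB : Γ →* AddMonoid.End B}

theorem lam_of_subsingleton [Subsingleton A] (ρ : Γ →* AddMonoid.End A) : L.lam A ρ = 0 := by
  have hS : SES ρ ρ ρ (AddMonoidHom.id A) 0 :=
    ⟨fun _ _ => rfl, fun _ _ => Subsingleton.elim _ _, fun _ _ h => h,
      fun c => ⟨c, Subsingleton.elim _ _⟩, fun b => ⟨fun _ => ⟨b, rfl⟩, fun _ => rfl⟩⟩
  have hM : IsMod U p ρ :=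
    ⟨inferInstance, fun _ => Subsingleton.elim _ _, fun _ _ _ => Subsingleton.elim _ _⟩
  have := L.add hS hM
  exact left_eq_add.mp this

theorem lam_iso (e : A ≃+ B) (he : IsHom ρA ρB e.toAddMonoidHom) (hA : IsMod U p ρA) :
    L.lam A ρA = L.lam B ρB := by
  have hS : SES ρA ρB (1 : Γ →* AddMonoid.End PUnit) e.toAddMonoidHom 0 :=
    ⟨he, fun _ _ => rfl, e.injective, fun c => ⟨0, Subsingleton.elim _ _⟩,
      fun b => ⟨fun _ => ⟨e.symm b, e.apply_symm_apply b⟩, fun _ => rfl⟩⟩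
  rw [L.add hS (hA.of_equiv e he), lam_of_subsingleton L (1 : Γ →* AddMonoid.End PUnit), add_zero]

theorem lam_prod (hA : IsMod U p ρA) (hB : IsMod U p ρB) :
    L.lam (A × B) (prodRho ρA ρB) = L.lam A ρA + L.lam B ρB := by
  refine L.add (i := AddMonoidHom.inl A B) (j := AddMonoidHom.snd A B)
    ⟨isHom_inl ρA ρB, isHom_snd ρA ρB, fun a b h => (Prod.ext_iff.1 h).1,
      fun c => ⟨(0, c), rfl⟩, fun b => ⟨fun h => ⟨b.1, Prod.ext rfl h.symm⟩, ?_⟩⟩ (hA.prod hB)
  rintro ⟨a, rfl⟩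
  rfl

theorem lam_sub_add_quot (h : IsMod U p ρA) {S : AddSubgroup A} (hS : Stable ρA S) :
    L.lam A ρA = L.lam S (subRho hS) + L.lam (A ⧸ S) (quotRho hS) :=
  L.add (ses_subQuot hS) h

theorem lam_Fn_congr (h : IsMod U p ρA) {X Y : Type} [Finite X] [Finite Y] {π : Γ →* Equiv.Perm X}
    {π' : Γ →* Equiv.Perm Y} (hπ : ∀ u ∈ U, π u = 1) (e : X ≃ Y) (he : ∀ g x, e (π g x) = π' g (e x)) :
    L.lam _ (Fn π ρA) = L.lam _ (Fn π' ρA) := by
  have hinv : ∀ g y, e.symm ((π' g)⁻¹ y) = (π g)⁻¹ (e.symm y) := by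
    intro g y
    rw [Equiv.Perm.eq_inv_iff_eq, ← e.apply_eq_iff_eq, he, e.apply_symm_apply,
      e.apply_symm_apply, Equiv.Perm.apply_inv_self']
  let E : (X → A) ≃+ (Y → A) :=
    { toFun := fun f y => f (e.symm y)
      invFun := fun f x => f (e x)
      left_inv := fun f => by ext x; simp
      right_inv := fun f => by ext y; simp
      map_add' := fun _ _ => rfl }
  refine lam_iso L E (fun g f => ?_) (h.fn hπ)
  ext y
  show Fn π ρA g f (e.symm y) = ρA g (f (e.symm ((π' g)⁻¹ y)))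
  rw [Fn_apply, hinv]

theorem lam_Fn_prod (h : IsMod U p ρA) {X Y : Type} [Finite X] [Finite Y] (π : Γ →* Equiv.Perm X)
    (π' : Γ →* Equiv.Perm Y) (hπ : ∀ u ∈ U, π u = 1) (hπ' : ∀ u ∈ U, π' u = 1) :
    L.lam _ (Fn (prodPerm π π') ρA) = L.lam _ (Fn π (Fn π' ρA)) := by
  let E : (X × Y → A) ≃+ (X → Y → A) :=
    { toFun := curryFn X Y A
      invFun := uncurryFn X Y A
      left_inv := fun f => uncurryFn_curryFn f
      right_inv := fun f => curryFn_uncurryFn f
      map_add' := fun a b => map_add _ a b }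
  refine lam_iso L E (isHom_curryFn π π' ρA) (h.fn fun u hu => ?_)
  refine Equiv.ext fun x => ?_
  show (π u x.1, π' u x.2) = x
  rw [hπ u hu, hπ' u hu]
  rfl

theorem lam_Fn_unique (h : IsMod U p ρA) {X : Type} [Unique X] (π : Γ →* Equiv.Perm X) :
    L.lam _ (Fn π ρA) = L.lam A ρA := by
  let E : (X → A) ≃+ A :=
    { toFun := fun f => f default
      invFun := fun a _ => a
      left_inv := fun f => by ext x; rw [Subsingleton.elim x default]
      right_inv := fun a => rfl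
      map_add' := fun _ _ => rfl }
  refine lam_iso L E (fun g f => ?_) (h.fn fun u _ => Subsingleton.elim _ _)
  show Fn π ρA g f default = ρA g (f default)
  rw [Fn_apply, Subsingleton.elim ((π g)⁻¹ default) default]

/-- a decomposition of a `Γ`-set into two stable parts -/
theorem lam_Fn_split (h : IsMod U p ρA) {X Y Z : Type} [Finite X] [Finite Y] [Finite Z]
    {πX : Γ →* Equiv.Perm X} {πY : Γ →* Equiv.Perm Y} {πZ : Γ →* Equiv.Perm Z}
    (hX : ∀ u ∈ U, πX u = 1) (hY : ∀ u ∈ U, πY u = 1) (hZ : ∀ u ∈ U, πZ u = 1) (e : X ⊕ Y ≃ Z)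
    (h1 : ∀ g x, e (Sum.inl (πX g x)) = πZ g (e (Sum.inl x)))
    (h2 : ∀ g y, e (Sum.inr (πY g y)) = πZ g (e (Sum.inr y))) :
    L.lam _ (Fn πZ ρA) = L.lam _ (Fn πX ρA) + L.lam _ (Fn πY ρA) := by
  rw [← lam_prod L (h.fn hX) (h.fn hY)]
  have i1 : ∀ g x, (πZ g)⁻¹ (e (Sum.inl x)) = e (Sum.inl ((πX g)⁻¹ x)) := by
    intro g x
    rw [Equiv.Perm.inv_eq_iff_eq, ← h1, Equiv.Perm.apply_inv_self']
  have i2 : ∀ g y, (πZ g)⁻¹ (e (Sum.inr y)) = e (Sum.inr ((πY g)⁻¹ y)) := by
    intro g y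
    rw [Equiv.Perm.inv_eq_iff_eq, ← h2, Equiv.Perm.apply_inv_self']
  let E : (Z → A) ≃+ (X → A) × (Y → A) :=
    { toFun := fun f => (fun x => f (e (Sum.inl x)), fun y => f (e (Sum.inr y)))
      invFun := fun F z => Sum.elim F.1 F.2 (e.symm z)
      left_inv := fun f => by
        ext z
        obtain ⟨w, rfl⟩ := e.surjective z
        show Sum.elim _ _ (e.symm (e w)) = f (e w)
        rw [e.symm_apply_apply]
        cases w <;> rfl
      right_inv := fun F => by
        ext x <;> simp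
      map_add' := fun _ _ => rfl }
  refine lam_iso L E (fun g f => ?_) (h.fn hZ)
  refine Prod.ext ?_ ?_
  · ext x
    show Fn πZ ρA g f (e (Sum.inl x)) = ρA g (f (e (Sum.inl ((πX g)⁻¹ x))))
    rw [Fn_apply, i1]
  · ext y
    show Fn πZ ρA g f (e (Sum.inr y)) = ρA g (f (e (Sum.inr ((πY g)⁻¹ y))))
    rw [Fn_apply, i2]

theorem sigmaPerm_eq_one {ι : Type} {X : ι → Type} (π : ∀ i, Γ →* Equiv.Perm (X i)) {u : Γ}
    (hu : ∀ i, π i u = 1) : sigmaPerm π u = 1 := by
  refine Equiv.ext fun x => ?_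
  rw [sigmaPerm_apply, hu]
  rfl

theorem lam_Fn_sigma (h : IsMod U p ρA) {ι : Type} [Fintype ι] {X : ι → Type} [∀ i, Finite (X i)]
    (π : ∀ i, Γ →* Equiv.Perm (X i)) (hπ : ∀ i, ∀ u ∈ U, π i u = 1) :
    L.lam _ (Fn (sigmaPerm π) ρA) = ∑ i, L.lam _ (Fn (π i) ρA) := by
  revert X
  refine Fintype.induction_empty_option
    (P := fun ι _ => ∀ {X : ι → Type} [∀ i, Finite (X i)] (π : ∀ i, Γ →* Equiv.Perm (X i)),
      (∀ i, ∀ u ∈ U, π i u = 1) → L.lam _ (Fn (sigmaPerm π) ρA) = ∑ i, L.lam _ (Fn (π i) ρA))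
    ?_ ?_ ?_ ι
  · intro α β _ e ih X _ π hπ
    letI := Fintype.ofEquiv β e.symm
    have h1 := ih (X := fun a => X (e a)) (fun a => π (e a)) (fun a => hπ (e a))
    rw [← Equiv.sum_comp e (fun i => L.lam _ (Fn (π i) ρA)), ← h1]
    refine (lam_Fn_congr L h (fun u hu => sigmaPerm_eq_one _ fun a => hπ (e a) u hu)
      (Equiv.sigmaCongrLeft (β := X) e) (fun g x => ?_)).symm
    rfl
  · intro X _ π _
    rw [Finset.univ_eq_empty, Finset.sum_empty]
    haveI : IsEmpty (Σ i : PEmpty, X i) := ⟨fun x => x.1.elim⟩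
    exact lam_of_subsingleton L _
  · intro α _ ih X _ π hπ
    rw [Fintype.sum_option, ← ih (X := fun a => X (some a)) (fun a => π (some a))
      (fun a => hπ (some a))]
    let e : X none ⊕ (Σ a : α, X (some a)) ≃ Σ o : Option α, X o :=
      { toFun := fun w => Sum.elim (fun x => ⟨none, x⟩) (fun x => ⟨some x.1, x.2⟩) w
        invFun := fun w => match w with
          | ⟨none, x⟩ => Sum.inl x
          | ⟨some a, x⟩ => Sum.inr ⟨a, x⟩
        left_inv := fun w => by cases w <;> rfl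
        right_inv := fun w => by
          obtain ⟨o, x⟩ := w
          cases o <;> rfl }
    exact lam_Fn_split L h (hπ none) (fun u hu => sigmaPerm_eq_one _ fun a => hπ (some a) u hu)
      (fun u hu => sigmaPerm_eq_one _ fun o => hπ o u hu) e (fun g x => rfl) (fun g x => rfl)

/-- `n` copies -/
theorem lam_Fn_fin_prod (h : IsMod U p ρA) (n : ℕ) {X : Type} [Finite X] (π : Γ →* Equiv.Perm X)
    (hπ : ∀ u ∈ U, π u = 1) :
    L.lam _ (Fn (prodPerm (1 : Γ →* Equiv.Perm (Fin n)) π) ρA) = n • L.lam _ (Fn π ρA) := by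
  have h1 := lam_Fn_sigma L h (ι := Fin n) (X := fun _ => X) (fun _ => π) (fun _ => hπ)
  rw [Finset.sum_const, Finset.card_univ, Fintype.card_fin] at h1
  rw [← h1]
  refine lam_Fn_congr L h (fun u hu => ?_) (Equiv.sigmaEquivProd (Fin n) X).symm (fun g x => rfl)
  refine Equiv.ext fun x => ?_
  show (x.1, π u x.2) = x
  rw [hπ u hu]
  rfl

end Fermat.Agent.S56.E
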