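import Fermat.Agent.S56.E.Abs.Basic

/-!
# S56 / E / key `S56/E-HOMF` : the exact functor `W ↦ Hom(W, N)`     (S55 formalism only)

`homRho ρW ρN` : `(g φ)(w) = g (φ (g⁻¹ w))` on `W →+ N`.
* `SES ρA ρB ρC i j` of `p`-torsion groups gives `SES (hom C) (hom B) (hom A) (· ∘ j) (· ∘ i)`:
  injectivity: `j` surjective; exactness in the middle: `φ ∘ i = 0` ⇒ `φ` factors through `j` (as in `SES.exists_factor_aux`,
  S55/A/DualMod); surjectivity: every additive `A → N` extends to `B`: `B` is an `𝔽_p`-vector space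
  (`LA.exists_extend_of_injective` in S55/A/LinAlg is the case `N = ZMod p`; general `N`: `AddCommGroup.zmodModule`,
  `LinearMap.exists_leftInverse_of_injective` for `i`, i.e. a retraction `r : B →+ A`, then `φ ∘ r`).
* `W →+ N` is finite, `p`-torsion, `U` acts trivially.
* `Hom(Map(X, 𝔽_p), N) ≅ Map(X, N)` : `φ ↦ (x ↦ φ (Pi.single x 1))`, inverse `f ↦ (a ↦ ∑ x, (a x).val • f x)`.
-/

set_option autoImplicit false

noncomputable section

namespace Fermat.Agent.S56.E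

open Fermat.Agent.S55

variable {Γ : Type} [Group Γ] {U : Subgroup Γ} {p : ℕ} {V : Type} [AddCommGroup V]

/-- the action on `Hom(W, N)` -/
def homRho {W N : Type} [AddCommGroup W] [AddCommGroup N] (ρW : Γ →* AddMonoid.End W)
    (ρN : Γ →* AddMonoid.End N) : Γ →* AddMonoid.End (W →+ N) where
  toFun g :=
    { toFun := fun φ => (ρN g).comp (φ.comp (ρW g⁻¹))
      map_zero' := by ext; simp
      map_add' := fun a b => by ext; simp }
  map_one' := by
    ext φ w
    show ρN 1 (φ (ρW 1⁻¹ w)) = φ w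
    simp
  map_mul' g h := by
    ext φ w
    show ρN (g * h) (φ (ρW (g * h)⁻¹ w)) = ρN g (ρN h (φ (ρW h⁻¹ (ρW g⁻¹ w))))
    simp [mul_inv_rev]

@[simp] theorem homRho_apply {W N : Type} [AddCommGroup W] [AddCommGroup N]
    (ρW : Γ →* AddMonoid.End W) (ρN : Γ →* AddMonoid.End N) (g : Γ) (φ : W →+ N) (w : W) :
    homRho ρW ρN g φ w = ρN g (φ (ρW g⁻¹ w)) := rfl

variable {N : Type} [AddCommGroup N] {ρN : Γ →* AddMonoid.End N}

theorem isMod_homRho [Fact p.Prime] (hN : IsMod U p ρN) {W : Type} [AddCommGroup W]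
    {ρW : Γ →* AddMonoid.End W} (hW : IsMod U p ρW) : IsMod U p (homRho ρW ρN) := by
  have := hN.fin
  have := hW.fin
  refine ⟨Finite.of_injective (fun φ : W →+ N => (φ : W → N)) DFunLike.coe_injective, fun φ => ?_,
    fun u hu φ => ?_⟩
  · ext w
    rw [AddMonoidHom.nsmul_apply, hN.tors, AddMonoidHom.zero_apply]
  · ext w
    rw [homRho_apply, hN.triv u hu, hW.triv u⁻¹ (U.inv_mem hu)]

theorem ses_homRho [Fact p.Prime] {A B C : Type} [AddCommGroup A] [AddCommGroup B] [AddCommGroup C]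
    {ρA : Γ →* AddMonoid.End A} {ρB : Γ →* AddMonoid.End B} {ρC : Γ →* AddMonoid.End C}
    {i : A →+ B} {j : B →+ C} (S : SES ρA ρB ρC i j) (hB : IsMod U p ρB) (ρN : Γ →* AddMonoid.End N) :
    SES (homRho ρC ρN) (homRho ρB ρN) (homRho ρA ρN)
      (AddMonoidHom.compHom.flip j) (AddMonoidHom.compHom.flip i) := by
  have hC : ∀ c : C, p • c = 0 := fun c => by
    obtain ⟨b, rfl⟩ := S.surj c
    rw [← map_nsmul, hB.tors, map_zero]
  have hA : ∀ a : A, p • a = 0 := fun a => S.inj (by rw [map_nsmul, hB.tors, map_zero])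
  obtain ⟨s, hs⟩ := LA.exists_section hB.tors hC j S.surj
  obtain ⟨r, hr⟩ : ∃ r : B →+ A, ∀ a, r (i a) = a := by
    obtain ⟨_⟩ : Nonempty (Module (ZMod p) B) := ⟨AddCommGroup.zmodModule hB.tors⟩
    obtain ⟨_⟩ : Nonempty (Module (ZMod p) A) := ⟨AddCommGroup.zmodModule hA⟩
    obtain ⟨g, hg⟩ := LinearMap.exists_leftInverse_of_injective (i.toZModLinearMap p)
      (LinearMap.ker_eq_bot.2 S.inj)
    exact ⟨g.toAddMonoidHom, fun a => LinearMap.congr_fun hg a⟩
  refine ⟨fun g φ => ?_, fun g φ => ?_, fun φ ψ h => ?_, fun ψ => ?_, fun φ => ⟨fun h => ?_, ?_⟩⟩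
  · ext b
    show ρN g (φ (ρC g⁻¹ (j b))) = ρN g (φ (j (ρB g⁻¹ b)))
    rw [S.hj]
  · ext a
    show ρN g (φ (ρB g⁻¹ (i a))) = ρN g (φ (i (ρA g⁻¹ a)))
    rw [S.hi]
  · ext c
    obtain ⟨b, rfl⟩ := S.surj c
    exact DFunLike.congr_fun h b
  · refine ⟨ψ.comp r, ?_⟩
    ext a
    show ψ (r (i a)) = ψ a
    rw [hr]
  · refine ⟨φ.comp s, ?_⟩
    ext b
    show φ (s (j b)) = φ b
    obtain ⟨a, ha⟩ := (S.exact (b - s (j b))).1 (by rw [map_sub, hs, sub_self])
    have h0 : φ (i a) = 0 := DFunLike.congr_fun h a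
    rw [ha, map_sub, sub_eq_zero] at h0
    exact h0.symm
  · rintro ⟨ψ, rfl⟩
    ext a
    show ψ (j (i a)) = 0
    rw [S.comp_eq_zero, map_zero]

/-- `W ↦ lam (Hom(W, N))` -/
def LamData.hom [Fact p.Prime] (L : LamData U p V) (ρN : Γ →* AddMonoid.End N) (hN : IsMod U p ρN) :
    LamData U p V where
  lam W _ ρW := L.lam (W →+ N) (homRho ρW ρN)
  add := fun {A B C} _ _ _ {ρA ρB ρC i j} S hB => by
    rw [L.add (ses_homRho S hB ρN) (isMod_homRho hN hB), add_comm]

theorem lam_hom_Fn [Fact p.Prime] (L : LamData U p V) (hN : IsMod U p ρN) {X : Type} [Finite X]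
    (π : Γ →* Equiv.Perm X) (hπ : ∀ u ∈ U, π u = 1) :
    (L.hom ρN hN).lam _ (Fn π (rhoTriv Γ (ZMod p))) = L.lam _ (Fn π ρN) := by
  classical
  have := Fintype.ofFinite X
  obtain ⟨_⟩ : Nonempty (Module (ZMod p) N) := ⟨AddCommGroup.zmodModule hN.tors⟩
  let E0 : ((X → ZMod p) →+ N) →+ (X → N) :=
    { toFun := fun φ x => φ (Pi.single x 1)
      map_zero' := rfl
      map_add' := fun _ _ => rfl }
  have hinj : Function.Injective E0 := by
    intro φ ψ h
    refine AddMonoidHom.functions_ext _ _ _ fun x a => ?_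
    have h1 : (Pi.single x a : X → ZMod p) = a.val • Pi.single x 1 := by
      rw [← Pi.single_smul, nsmul_eq_mul, mul_one, ZMod.natCast_zmod_val]
    rw [h1, map_nsmul, map_nsmul]
    exact congrArg _ (congrFun h x)
  have hsurj : Function.Surjective E0 := by
    intro F
    refine ⟨(∑ x, (LinearMap.toSpanSingleton (ZMod p) N (F x)).comp
      (LinearMap.proj x : (X → ZMod p) →ₗ[ZMod p] ZMod p)).toAddMonoidHom, ?_⟩
    funext x
    show (∑ y, (LinearMap.toSpanSingleton (ZMod p) N (F y)).comp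
      (LinearMap.proj y : (X → ZMod p) →ₗ[ZMod p] ZMod p)) (Pi.single x 1) = F x
    rw [LinearMap.sum_apply, Finset.sum_eq_single x]
    · simp
    · intro y _ hy
      simp [Pi.single_eq_of_ne hy]
    · intro h
      exact absurd (Finset.mem_univ x) h
  let E : ((X → ZMod p) →+ N) ≃+ (X → N) := AddEquiv.ofBijective E0 ⟨hinj, hsurj⟩
  refine lam_iso L E (fun g φ => ?_) (isMod_homRho hN (isMod_rhoTriv.fn hπ))
  funext x
  show ρN g (φ (Fn π (rhoTriv Γ (ZMod p)) g⁻¹ (Pi.single x 1))) = ρN g (φ (Pi.single ((π g)⁻¹ x) 1))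
  congr 2
  funext y
  rw [Fn_apply]
  show (Pi.single x 1 : X → ZMod p) ((π g⁻¹)⁻¹ y) = _
  rw [map_inv, inv_inv]
  by_cases h : y = (π g)⁻¹ x
  · subst h
    simp
  · rw [Pi.single_eq_of_ne h, Pi.single_eq_of_ne]
    intro h2
    exact h (by rw [← h2]; simp)

end Fermat.Agent.S56.E
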