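import Fermat.Agent.S56.E.Abs.Basic

/-!
# S56 / E : abstract lemmas for `S56/E-JANTZEN`      (helper21)

`Rd p A = A ⧸ pA`.  `jz_hex` : an exact hexagon `Ā ⇄ B̄` gives `lam Ā = lam B̄`.
`jz_step` : `φ : A ↪ B` equivariant with `pB ⊆ φ A`, `B` without `p`-torsion ⟹ `lam (A/p) = lam (B/p)` (and `B/p` is finite if `A/p` is).
`jz_prime` : `φ : A ↪ B` with `D' B ⊆ φ A`, `D'` prime to `p` ⟹ `A/p ≅ B/p`.
-/

set_option autoImplicit false

noncomputable section

namespace Fermat.Agent.S56.E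

open Fermat.Agent.S55

variable {Γ : Type} [Group Γ] {U : Subgroup Γ} {p : ℕ} {V : Type} [AddCommGroup V]

section Hex

variable {A B : Type} [AddCommGroup A] [AddCommGroup B]
  {ρA : Γ →* AddMonoid.End A} {ρB : Γ →* AddMonoid.End B}

theorem jz_ses {φ : A →+ B} {ψ : B →+ A} (hφ : IsHom ρA ρB φ) (hψ : IsHom ρB ρA ψ)
    (h1 : ∀ a, φ a = 0 ↔ ∃ b, ψ b = a) :
    SES (subRho (stable_range hψ)) ρA (subRho (stable_range hφ)) ψ.range.subtype φ.rangeRestrict where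
  hi := isHom_subtype _
  hj := fun g a => Subtype.ext (hφ g a)
  inj := Subtype.val_injective
  surj := φ.rangeRestrict_surjective
  exact a := by
    constructor
    · intro h
      have h2 : φ a = 0 := congrArg Subtype.val h
      obtain ⟨b, hb⟩ := (h1 a).1 h2
      exact ⟨⟨a, ⟨b, hb⟩⟩, rfl⟩
    · rintro ⟨⟨a', ⟨b, hb⟩⟩, rfl⟩
      exact Subtype.ext ((h1 a').2 ⟨b, hb⟩)

theorem jz_hex (L : LamData U p V) (hA : IsMod U p ρA) (hB : IsMod U p ρB)
    {φ : A →+ B} {ψ : B →+ A} (hφ : IsHom ρA ρB φ) (hψ : IsHom ρB ρA ψ)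
    (h1 : ∀ a, φ a = 0 ↔ ∃ b, ψ b = a) (h2 : ∀ b, ψ b = 0 ↔ ∃ a, φ a = b) :
    L.lam A ρA = L.lam B ρB := by
  rw [L.add (jz_ses hφ hψ h1) hA, L.add (jz_ses hψ hφ h2) hB, add_comm]

theorem jz_finite [Finite A] {φ : A →+ B} {ψ : B →+ A}
    (h2 : ∀ b, ψ b = 0 ↔ ∃ a, φ a = b) : Finite B := by
  classical
  -- `b ↦ (ψ b, a preimage under φ of b - s (ψ b))`
  have hs : ∀ x : ψ.range, ∃ b, ψ b = x := fun x => x.2
  choose s hs using hs
  have hk : ∀ b : B, ∃ a, φ a = b - s ⟨ψ b, ⟨b, rfl⟩⟩ := by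
    intro b
    apply (h2 _).1
    rw [map_sub, hs, sub_self]
  choose t ht using hk
  refine Finite.of_injective (fun b : B => ((ψ b, t b) : A × A)) ?_
  intro b b' h
  have e1 : ψ b = ψ b' := congrArg Prod.fst h
  have e2 : t b = t b' := congrArg Prod.snd h
  have e3 := ht b
  have e4 := ht b'
  rw [e2] at e3
  have e5 : (⟨ψ b, ⟨b, rfl⟩⟩ : ψ.range) = ⟨ψ b', ⟨b', rfl⟩⟩ := Subtype.ext e1
  rw [e5] at e3
  have e6 : b - s ⟨ψ b', ⟨b', rfl⟩⟩ = b' - s ⟨ψ b', ⟨b', rfl⟩⟩ := by rw [← e3, ← e4]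
  exact sub_left_injective e6

end Hex

section Rd

variable (p) in
/-- `pA` -/
def pS (A : Type) [AddCommGroup A] : AddSubgroup A := (nsmulAddMonoidHom p : A →+ A).range

variable {A B : Type} [AddCommGroup A] [AddCommGroup B]
  {ρA : Γ →* AddMonoid.End A} {ρB : Γ →* AddMonoid.End B}

theorem mem_pS {a : A} : a ∈ pS p A ↔ ∃ a', p • a' = a := Iff.rfl

variable (p) in
theorem stable_pS (ρ : Γ →* AddMonoid.End A) : Stable ρ (pS p A) := by
  rintro g _ ⟨a, rfl⟩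
  exact ⟨ρ g a, (map_nsmul (ρ g) p a).symm⟩

variable (p) in
/-- the action on `A / pA` -/
abbrev rdRho (ρ : Γ →* AddMonoid.End A) : Γ →* AddMonoid.End (A ⧸ pS p A) := quotRho (stable_pS p ρ)

variable (p) in
/-- the map induced on `A / pA` -/
def rdMap (f : A →+ B) : A ⧸ pS p A →+ B ⧸ pS p B :=
  QuotientAddGroup.map _ _ f (by
    rintro _ ⟨a, rfl⟩
    exact ⟨f a, (map_nsmul f p a).symm⟩)

@[simp] theorem rdMap_mk (f : A →+ B) (a : A) :
    rdMap p f (a : A ⧸ pS p A) = ((f a : B) : B ⧸ pS p B) := rfl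

theorem isHom_rdMap {f : A →+ B} (hf : IsHom ρA ρB f) :
    IsHom (rdRho p ρA) (rdRho p ρB) (rdMap p f) := by
  intro g a
  obtain ⟨a, rfl⟩ := QuotientAddGroup.mk'_surjective _ a
  show (((f (ρA g a) : B)) : B ⧸ pS p B) = ((ρB g (f a) : B) : B ⧸ pS p B)
  rw [hf]

theorem mk_eq_zero_pS {a : A} : ((a : A) : A ⧸ pS p A) = 0 ↔ ∃ a', p • a' = a := by
  rw [QuotientAddGroup.eq_zero_iff]; rfl

theorem isMod_rd (htriv : TrivOn U ρA) [Finite (A ⧸ pS p A)] : IsMod U p (rdRho p ρA) where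
  fin := inferInstance
  tors a := by
    obtain ⟨a, rfl⟩ := QuotientAddGroup.mk'_surjective _ a
    show ((p • a : A) : A ⧸ pS p A) = 0
    exact mk_eq_zero_pS.2 ⟨a, rfl⟩
  triv u hu a := by
    obtain ⟨a, rfl⟩ := QuotientAddGroup.mk'_surjective _ a
    show ((ρA u a : A) : A ⧸ pS p A) = a
    rw [htriv u hu]

/-- the inverse-up-to-`p` of `φ` -/
theorem jz_exists_psi {φ : A →+ B} (hφ : IsHom ρA ρB φ) (hinj : Function.Injective φ)
    (hp : ∀ b, ∃ a, φ a = p • b) : ∃ ψ : B →+ A, IsHom ρB ρA ψ ∧ ∀ b, φ (ψ b) = p • b := by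
  choose ψ hψ using hp
  refine ⟨⟨⟨ψ, ?_⟩, ?_⟩, ?_, hψ⟩
  · apply hinj
    rw [hψ, smul_zero, map_zero]
  · intro b b'
    apply hinj
    rw [map_add, hψ, hψ, hψ, smul_add]
  · intro g b
    apply hinj
    show φ (ψ (ρB g b)) = φ (ρA g (ψ b))
    rw [hψ, hφ, hψ, map_nsmul]

theorem jz_step_aux {φ : A →+ B} (hinj : Function.Injective φ) {ψ : B →+ A}
    (hψ : ∀ b, φ (ψ b) = p • b) (htf : ∀ b : B, p • b = 0 → b = 0) :
    (∀ a, rdMap p φ a = 0 ↔ ∃ b, rdMap p ψ b = a) ∧ (∀ b, rdMap p ψ b = 0 ↔ ∃ a, rdMap p φ a = b) := by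
  have hψφ : ∀ a, ψ (φ a) = p • a := by
    intro a
    apply hinj
    rw [hψ, map_nsmul]
  constructor
  · intro a
    obtain ⟨a, rfl⟩ := QuotientAddGroup.mk'_surjective _ a
    show ((φ a : B) : B ⧸ pS p B) = 0 ↔ _
    rw [mk_eq_zero_pS]
    constructor
    · rintro ⟨b, hb⟩
      refine ⟨(b : B ⧸ pS p B), ?_⟩
      show ((ψ b : A) : A ⧸ pS p A) = (a : A ⧸ pS p A)
      congr 1
      apply hinj
      rw [hψ, hb]
    · rintro ⟨b, hb⟩
      obtain ⟨b, rfl⟩ := QuotientAddGroup.mk'_surjective _ b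
      have h3 : ((ψ b - a : A) : A ⧸ pS p A) = 0 := by
        rw [QuotientAddGroup.mk_sub, sub_eq_zero]
        exact hb
      obtain ⟨a', ha'⟩ := mk_eq_zero_pS.1 h3
      refine ⟨b - φ a', ?_⟩
      have h4 : a = ψ b - p • a' := by rw [ha']; abel
      rw [h4, map_sub, hψ, map_nsmul, smul_sub]
  · intro b
    obtain ⟨b, rfl⟩ := QuotientAddGroup.mk'_surjective _ b
    show ((ψ b : A) : A ⧸ pS p A) = 0 ↔ _
    rw [mk_eq_zero_pS]
    constructor
    · rintro ⟨a, ha⟩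
      refine ⟨(a : A ⧸ pS p A), ?_⟩
      show ((φ a : B) : B ⧸ pS p B) = (b : B ⧸ pS p B)
      congr 1
      have h3 : p • (φ a - b) = 0 := by
        rw [smul_sub, ← map_nsmul, ha, hψ, sub_self]
      exact sub_eq_zero.1 (htf _ h3)
    · rintro ⟨a, ha⟩
      obtain ⟨a, rfl⟩ := QuotientAddGroup.mk'_surjective _ a
      have h3 : ((φ a - b : B) : B ⧸ pS p B) = 0 := by
        rw [QuotientAddGroup.mk_sub, sub_eq_zero]
        exact ha
      obtain ⟨b', hb'⟩ := mk_eq_zero_pS.1 h3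
      refine ⟨a - ψ b', ?_⟩
      have h4 : b = φ a - p • b' := by rw [hb']; abel
      rw [h4, map_sub, hψφ, map_nsmul, smul_sub]

/-- **one step** -/
theorem jz_step (L : LamData U p V) (hUA : TrivOn U ρA) (hUB : TrivOn U ρB)
    [Finite (A ⧸ pS p A)] {φ : A →+ B} (hφ : IsHom ρA ρB φ) (hinj : Function.Injective φ)
    (hp : ∀ b, ∃ a, φ a = p • b) (htf : ∀ b : B, p • b = 0 → b = 0) :
    Finite (B ⧸ pS p B) ∧ L.lam _ (rdRho p ρA) = L.lam _ (rdRho p ρB) := by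
  obtain ⟨ψ, hψ1, hψ2⟩ := jz_exists_psi hφ hinj hp
  obtain ⟨h1, h2⟩ := jz_step_aux hinj hψ2 htf
  have hfin : Finite (B ⧸ pS p B) := jz_finite h2
  exact ⟨hfin, jz_hex L (isMod_rd hUA) (isMod_rd hUB) (isHom_rdMap hφ) (isHom_rdMap hψ1) h1 h2⟩

/-- **index prime to `p`** -/
theorem jz_prime (L : LamData U p V) (hUA : TrivOn U ρA)
    [Finite (A ⧸ pS p A)] {φ : A →+ B} (hφ : IsHom ρA ρB φ) (hinj : Function.Injective φ)
    (D : ℕ) (hD : Nat.Coprime D p) (hp : ∀ b, ∃ a, φ a = D • b) :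
    L.lam _ (rdRho p ρA) = L.lam _ (rdRho p ρB) := by
  -- Bezout
  have hbez : ∃ u v : ℤ, u * D + v * p = 1 := by
    have := Int.isCoprime_iff_gcd_eq_one.2 (by exact_mod_cast hD : Int.gcd (D : ℤ) (p : ℤ) = 1)
    obtain ⟨u, v, h⟩ := this
    exact ⟨u, v, h⟩
  obtain ⟨u, v, huv⟩ := hbez
  have hdec : ∀ {C : Type} [AddCommGroup C] (c : C), c = u • (D • c) + p • (v • c) := by
    intro C _ c
    have h1 : u • (D • c) = (u * D) • c := by rw [mul_smul, natCast_zsmul]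
    have h2 : p • (v • c) = (v * p) • c := by
      rw [mul_comm, mul_smul, natCast_zsmul]
    rw [h1, h2, ← add_smul, huv, one_smul]
  have hbij : Function.Bijective (rdMap p φ) := by
    constructor
    · rw [injective_iff_map_eq_zero]
      intro a ha
      obtain ⟨a, rfl⟩ := QuotientAddGroup.mk'_surjective _ a
      have ha' : ((φ a : B) : B ⧸ pS p B) = 0 := ha
      obtain ⟨b, hb⟩ := mk_eq_zero_pS.1 ha'
      obtain ⟨a', ha2⟩ := hp b
      have h3 : D • a = p • a' := by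
        apply hinj
        rw [map_nsmul, map_nsmul, ha2, ← hb, smul_comm]
      show ((a : A) : A ⧸ pS p A) = 0
      rw [mk_eq_zero_pS]
      refine ⟨u • a' + v • a, ?_⟩
      conv_rhs => rw [hdec a]
      rw [h3, smul_add, smul_comm p u a']
    · intro b
      obtain ⟨b, rfl⟩ := QuotientAddGroup.mk'_surjective _ b
      obtain ⟨a, ha⟩ := hp b
      refine ⟨((u • a : A) : A ⧸ pS p A), ?_⟩
      show ((φ (u • a) : B) : B ⧸ pS p B) = (b : B ⧸ pS p B)
      rw [← sub_eq_zero, ← QuotientAddGroup.mk_sub, mk_eq_zero_pS]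
      refine ⟨-(v • b), ?_⟩
      conv_rhs => rw [hdec b]
      rw [map_zsmul, ha, smul_neg]
      abel
  exact lam_iso L (AddEquiv.ofBijective (rdMap p φ) hbij) (isHom_rdMap hφ) (isMod_rd hUA)

/-- a reduction map identifies `A / pA` -/
theorem jz_red (L : LamData U p V) (hB : IsMod U p ρB) {r : A →+ B} (hr : IsHom ρA ρB r)
    (hsurj : Function.Surjective r) (hker : ∀ a, r a = 0 → ∃ a', p • a' = a) :
    Finite (A ⧸ pS p A) ∧ L.lam _ (rdRho p ρA) = L.lam B ρB := by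
  have hle : pS p A ≤ r.ker := by
    rintro _ ⟨a, rfl⟩
    show r (p • a) = 0
    rw [map_nsmul, hB.tors]
  let f : A ⧸ pS p A →+ B := QuotientAddGroup.lift (pS p A) r hle
  have hbij : Function.Bijective f := by
    constructor
    · rw [injective_iff_map_eq_zero]
      intro a ha
      obtain ⟨a, rfl⟩ := QuotientAddGroup.mk'_surjective _ a
      exact mk_eq_zero_pS.2 (hker a ha)
    · intro b
      obtain ⟨a, rfl⟩ := hsurj b
      exact ⟨(a : A ⧸ pS p A), rfl⟩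
  have hf : IsHom (rdRho p ρA) ρB f := by
    intro g a
    obtain ⟨a, rfl⟩ := QuotientAddGroup.mk'_surjective _ a
    exact hr g a
  let e : (A ⧸ pS p A) ≃+ B := AddEquiv.ofBijective f hbij
  have hfin : Finite (A ⧸ pS p A) := by
    have := hB.fin
    exact Finite.of_equiv B e.symm.toEquiv
  have he' : IsHom ρB (rdRho p ρA) e.symm.toAddMonoidHom := by
    intro g b
    apply e.injective
    show e (e.symm (ρB g b)) = e (rdRho p ρA g (e.symm b))
    rw [AddEquiv.apply_symm_apply]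
    have := hf g (e.symm b)
    show _ = f _
    rw [this]
    show _ = ρB g (e (e.symm b))
    rw [AddEquiv.apply_symm_apply]
  exact ⟨hfin, (lam_iso L e.symm he' hB).symm⟩

end Rd

end Fermat.Agent.S56.E
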