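import Fermat.Agent.S56.E.Abs.Basic
import Fermat.Agent.S56.E.Abs.JzAbs

/-!
# S56 / E / key `S56/E-JANTZEN` : two permutation lattices with an injective equivariant map between them have reductions mod `p`
with the same value of every additive function (Brauer-Nesbitt for permutation modules)   (S55 formalism + linear algebra)

`T : X → Y → ℤ` invariant, `T̃ : (Y → ℤ) → (X → ℤ)`, `T̃ f x = ∑ y, T x y * f y` injective, `#X = #Y`.
Let `Dt = det ≠ 0` (reindex by `Fintype.equivOfCardEq`; `Matrix.mulVec` injective ⇒ `det ≠ 0`, e.g. over `ℚ`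
`Matrix.mulVec_injective_iff_isUnit`/`Matrix.exists_mulVec_eq_zero_iff`), adjugate: `Dt • (X → ℤ) ⊆ range T̃`, and `T̃ f ∈ p^k` ⇒ `p^k ∣ Dt • f`.
Write `Dt = p^a * D'`, `p ∤ D'`.  `red : (· → ℤ) → (· → ZMod p)` the reduction.
  `Lk k = {f : Y → ℤ | ∀ x, p^k ∣ T̃ f x}`,   `F k = red (Lk k) ≤ (Y → ZMod p)`   (decreasing, `F 0 = ⊤`, `F (a+1) = ⊥`),
  `Mk k = {h : X → ℤ | p^k • h ∈ range T̃}`,  `G k = red (Mk k) ≤ (X → ZMod p)`   (increasing, `G a = ⊤`); put `G' 0 = ⊥`, `G' (k+1) = G k`.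
All are `Γ`-stable.  For each `k` the rule `red f ↦ [red (p^{-k} T̃ f)]` (`f ∈ Lk k`) is a well defined surjective equivariant hom
`F k → G k / G' k` with kernel `F (k+1)`:
  well defined/kernel ⊇: `f ∈ Lk (k+1)` ⇒ `p^{-k} T̃ f ∈ p(X → ℤ)`;  `f = p f' ∈ Lk k` ⇒ `f' ∈ Lk (k-1)`, `p^{-k} T̃ f = p^{-(k-1)} T̃ f' ∈ Mk (k-1)` (for `k = 0`: `T̃ f ∈ p(..)`);
  kernel ⊆: `p^{-k} T̃ f = h' + p h''`, `p^{k-1} h' = T̃ f'` ⇒ `T̃ (f - p f') = p^{k+1} h''` ⇒ `f ∈ Lk (k+1) + p (Y → ℤ)`.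
Hence (`L.add`, `lam_sub_add_quot`) `lam (F k) - lam (F (k+1)) = lam (G k / G' k) = lam (G k) - lam (G' k)`; sum over `k = 0..a`:
`lam (F 0) - lam (F (a+1)) = lam (G a) - lam ⊥`, i.e. `lam (Y → ZMod p) = lam (X → ZMod p)` (`lam_iso` for `⊤`, `lam_of_subsingleton` for `⊥`).
Suggestion: construct the hom on the integral level (`↥(Lk k) →+ ↥(G k) ⧸ _`) and descend with `QuotientAddGroup.lift`/first iso theorem, or avoid the
hom altogether: use `L.add` for a SES whose third term is any model of the common quotient, e.g. `↥(Lk k) ⧸ (Lk (k+1) ⊔ p(Y→ℤ) ⊓ Lk k)`.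
-/

set_option autoImplicit false
set_option linter.unusedSectionVars false

noncomputable section

namespace Fermat.Agent.S56.E

open Fermat.Agent.S55

variable {Γ : Type} [Group Γ] {U : Subgroup Γ} {p : ℕ} {V : Type} [AddCommGroup V]

/-! PROOF ACTUALLY USED (helper21): chain of lattices `N i = {m | p^i m ∈ range T̃}`, `(Y → ℤ) ↪ N 1 ⊆ N 2 ⊆ .. ⊆ N (a+1) ⊆ (X → ℤ)`;
each step `A ↪ B` has `pB ⊆ A` (`jz_step`: exact hexagon `A/p ⇄ B/p`), the last one has index prime to `p` (`jz_prime`). -/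

section Lat

variable {X Y : Type} [Fintype X] [Fintype Y]

/-- `T̃` -/
def jzT (T : X → Y → ℤ) : (Y → ℤ) →+ (X → ℤ) where
  toFun f x := ∑ y, T x y * f y
  map_zero' := by ext x; simp
  map_add' f f' := by ext x; simp [mul_add, Finset.sum_add_distrib]

@[simp] theorem jzT_apply (T : X → Y → ℤ) (f : Y → ℤ) (x : X) : jzT T f x = ∑ y, T x y * f y := rfl

theorem isHom_jzT (πX : Γ →* Equiv.Perm X) (πY : Γ →* Equiv.Perm Y) (T : X → Y → ℤ)
    (hT : ∀ g x y, T (πX g x) (πY g y) = T x y) :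
    IsHom (Fn πY (rhoTriv Γ ℤ)) (Fn πX (rhoTriv Γ ℤ)) (jzT T) := by
  intro g f
  ext x
  show ∑ y, T x y * f ((πY g)⁻¹ y) = ∑ y, T ((πX g)⁻¹ x) y * f y
  rw [← Equiv.sum_comp (πY g)]
  refine Finset.sum_congr rfl fun y _ => ?_
  have h1 := hT g ((πX g)⁻¹ x) y
  have e1 : (πX g) ((πX g)⁻¹ x) = x := (πX g).apply_symm_apply x
  have e2 : (πY g)⁻¹ ((πY g) y) = y := (πY g).symm_apply_apply y
  rw [e1] at h1
  rw [h1, e2]

/-- the adjugate -/
theorem jz_exists_det (T : X → Y → ℤ) (hcard : Fintype.card X = Fintype.card Y)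
    (hinj : Function.Injective (jzT T)) :
    ∃ n : ℕ, n ≠ 0 ∧ ∀ m : X → ℤ, ∃ f, jzT T f = n • m := by
  classical
  let e : X ≃ Y := Fintype.equivOfCardEq hcard
  let Mx : Matrix X X ℤ := Matrix.of fun x x' => T x (e x')
  have hM : ∀ v : X → ℤ, Mx.mulVec v = jzT T (v ∘ e.symm) := by
    intro v
    ext x
    show ∑ x', T x (e x') * v x' = ∑ y, T x y * v (e.symm y)
    rw [← Equiv.sum_comp e]
    simp
  have hdet : Mx.det ≠ 0 := by
    intro h0
    obtain ⟨v, hv, hv0⟩ := Matrix.exists_mulVec_eq_zero_iff.2 h0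
    apply hv
    rw [hM] at hv0
    have h1 : v ∘ e.symm = 0 := hinj (by rw [hv0, map_zero])
    ext x
    have := congrFun h1 (e x)
    simpa using this
  have hadj : ∀ m : X → ℤ, jzT T ((Mx.adjugate.mulVec m) ∘ e.symm) = Mx.det • m := by
    intro m
    rw [← hM, Matrix.mulVec_mulVec, Matrix.mul_adjugate, Matrix.smul_mulVec, Matrix.one_mulVec]
  refine ⟨Mx.det.natAbs, Int.natAbs_ne_zero.2 hdet, fun m => ?_⟩
  rcases Int.natAbs_eq Mx.det with h | h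
  · refine ⟨_, (hadj m).trans ?_⟩
    rw [← natCast_zsmul, ← h]
  · refine ⟨-((Mx.adjugate.mulVec m) ∘ e.symm), ?_⟩
    rw [map_neg, hadj m, ← natCast_zsmul]
    conv_lhs => rw [h]
    rw [neg_smul, neg_neg]

variable (p) in
/-- `N i = {m | p^i m ∈ range T̃}` -/
def jzN (T : X → Y → ℤ) (i : ℕ) : AddSubgroup (X → ℤ) where
  carrier := {m | ∃ f, jzT T f = p ^ i • m}
  add_mem' := by
    rintro m m' ⟨f, hf⟩ ⟨f', hf'⟩
    exact ⟨f + f', by rw [map_add, hf, hf', smul_add]⟩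
  zero_mem' := ⟨0, by rw [map_zero, smul_zero]⟩
  neg_mem' := by
    rintro m ⟨f, hf⟩
    exact ⟨-f, by rw [map_neg, hf, smul_neg]⟩

theorem mem_jzN {T : X → Y → ℤ} {i : ℕ} {m : X → ℤ} : m ∈ jzN p T i ↔ ∃ f, jzT T f = p ^ i • m :=
  Iff.rfl

theorem stable_jzN {πX : Γ →* Equiv.Perm X} {πY : Γ →* Equiv.Perm Y} {T : X → Y → ℤ}
    (hT : IsHom (Fn πY (rhoTriv Γ ℤ)) (Fn πX (rhoTriv Γ ℤ)) (jzT T)) (i : ℕ) :
    Stable (Fn πX (rhoTriv Γ ℤ)) (jzN p T i) := by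
  rintro g m ⟨f, hf⟩
  exact ⟨Fn πY (rhoTriv Γ ℤ) g f, by rw [hT, hf, map_nsmul]⟩

theorem jzN_le_succ (T : X → Y → ℤ) (i : ℕ) : jzN p T i ≤ jzN p T (i + 1) := by
  rintro m ⟨f, hf⟩
  exact ⟨p • f, by rw [map_nsmul, hf, smul_smul, pow_succ']⟩

theorem trivOn_Fn_int {π : Γ →* Equiv.Perm X} (hπ : ∀ u ∈ U, π u = 1) :
    TrivOn U (Fn π (rhoTriv Γ ℤ)) := by
  intro u hu f
  ext x
  show f ((π u)⁻¹ x) = f x
  rw [hπ u hu]
  rfl

theorem jz_tf (hp : p ≠ 0) (m : X → ℤ) (h : p • m = 0) : m = 0 := by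
  ext x
  have := congrFun h x
  simpa [hp] using this

/-- reduction mod `p` -/
def jzRed (p : ℕ) (X : Type) : (X → ℤ) →+ (X → ZMod p) where
  toFun f x := (f x : ZMod p)
  map_zero' := by ext x; simp
  map_add' f f' := by ext x; simp

theorem jz_lam_red [Fact p.Prime] (L : LamData U p V) (π : Γ →* Equiv.Perm X) (hπ : ∀ u ∈ U, π u = 1) :
    Finite ((X → ℤ) ⧸ pS p (X → ℤ)) ∧
      L.lam _ (rdRho p (Fn π (rhoTriv Γ ℤ))) = L.lam _ (Fn π (rhoTriv Γ (ZMod p))) := by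
  refine jz_red L (isMod_rhoTriv.fn hπ) (r := jzRed p X) (fun g f => rfl) ?_ ?_
  · intro f
    refine ⟨fun x => ((f x).val : ℤ), ?_⟩
    ext x
    show (((f x).val : ℤ) : ZMod p) = f x
    simp
  · intro f hf
    have h1 : ∀ x, (p : ℤ) ∣ f x := fun x =>
      (ZMod.intCast_zmod_eq_zero_iff_dvd (f x) p).1 (congrFun hf x)
    choose g hg using h1
    refine ⟨g, ?_⟩
    ext x
    rw [hg x]
    simp

end Lat

theorem jantzen [Fact p.Prime] (L : LamData U p V) {X Y : Type} [Fintype X] [Fintype Y]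
    (πX : Γ →* Equiv.Perm X) (πY : Γ →* Equiv.Perm Y) (hX : ∀ u ∈ U, πX u = 1)
    (hY : ∀ u ∈ U, πY u = 1) (T : X → Y → ℤ) (hT : ∀ g x y, T (πX g x) (πY g y) = T x y)
    (hcard : Fintype.card X = Fintype.card Y)
    (hinj : Function.Injective (fun (f : Y → ℤ) (x : X) => ∑ y, T x y * f y)) :
    L.lam _ (Fn πX (rhoTriv Γ (ZMod p))) = L.lam _ (Fn πY (rhoTriv Γ (ZMod p))) := by
  have hpp : p.Prime := Fact.out
  have hp0 : p ≠ 0 := hpp.ne_zero
  have hinj' : Function.Injective (jzT T) := hinj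
  have hTh := isHom_jzT πX πY T hT
  obtain ⟨n, hn0, hn⟩ := jz_exists_det T hcard hinj'
  obtain ⟨a, D, hD, hnD⟩ := Nat.exists_eq_pow_mul_and_not_dvd hn0 p hpp.ne_one
  obtain ⟨hfY, hlY⟩ := jz_lam_red L πY hY
  obtain ⟨hfX, hlX⟩ := jz_lam_red L πX hX
  have hUX := trivOn_Fn_int (U := U) hX
  have hUY := trivOn_Fn_int (U := U) hY
  have hUN : ∀ i, TrivOn U (subRho (stable_jzN (p := p) hTh i)) := fun i u hu m =>
    Subtype.ext (hUX u hu m.1)
  have htfN : ∀ i, ∀ b : ↥(jzN p T i), p • b = 0 → b = 0 := fun i b hb =>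
    Subtype.ext (jz_tf hp0 b.1 (congrArg Subtype.val hb))
  -- the chain
  have hchain : ∀ i : ℕ, Finite (↥(jzN p T (i + 1)) ⧸ pS p ↥(jzN p T (i + 1))) ∧
      L.lam _ (rdRho p (Fn πY (rhoTriv Γ ℤ))) =
        L.lam _ (rdRho p (subRho (stable_jzN (p := p) hTh (i + 1)))) := by
    intro i
    induction i with
    | zero =>
      let φ : (Y → ℤ) →+ ↥(jzN p T (0 + 1)) :=
        (jzT T).codRestrict (jzN p T (0 + 1)) (fun f => ⟨p • f, by rw [map_nsmul]; simp⟩)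
      refine jz_step L hUY (hUN _) (φ := φ) (fun g f => Subtype.ext (hTh g f))
        (fun f f' h => hinj' (congrArg Subtype.val h)) ?_ (htfN _)
      rintro ⟨m, f, hf⟩
      refine ⟨f, Subtype.ext ?_⟩
      show jzT T f = p • m
      rw [hf]; simp
    | succ i ih =>
      obtain ⟨hfin, hl⟩ := ih
      have hstep := jz_step L (hUN (i + 1)) (hUN (i + 1 + 1))
        (φ := AddSubgroup.inclusion (jzN_le_succ (p := p) T (i + 1))) (fun g m => rfl)
        (AddSubgroup.inclusion_injective _) ?_ (htfN _)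
      · exact ⟨hstep.1, hl.trans hstep.2⟩
      · rintro ⟨m, f, hf⟩
        refine ⟨⟨p • m, ⟨f, ?_⟩⟩, rfl⟩
        rw [hf, smul_smul, pow_succ]
  obtain ⟨hfin, hl⟩ := hchain a
  have hlast := jz_prime L (hUN (a + 1)) (ρB := Fn πX (rhoTriv Γ ℤ))
    (φ := (jzN p T (a + 1)).subtype) (fun g m => rfl) Subtype.val_injective D
    ((Nat.Coprime.symm ((Nat.Prime.coprime_iff_not_dvd hpp).2 hD))) ?_
  · rw [← hlX, ← hlY, hl, hlast]
  · intro m
    obtain ⟨f, hf⟩ := hn m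
    refine ⟨⟨D • m, ⟨p • f, ?_⟩⟩, rfl⟩
    rw [map_nsmul, hf, hnD, smul_smul, smul_smul]
    congr 1
    ring

end Fermat.Agent.S56.E
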