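import Mathlib

/-!
# S56 / E : "rational" `𝔽_p[δ]`-modules : definitions     (Mathlib only)
`W` an abelian group killed by `p`, `δ : AddMonoid.End W`.  Integer polynomials act by `Polynomial.aeval δ P : AddMonoid.End W` (`AddMonoid.End W` is a ring, hence a `ℤ`-algebra).
-/

set_option autoImplicit false

noncomputable section

namespace Fermat.Agent.S56.E

open Polynomial

/-- `log_p # ker f` -/
def dimK (p : ℕ) {W : Type*} [AddCommGroup W] (f : AddMonoid.End W) : ℕ :=
  padicValNat p (Nat.card (AddMonoidHom.ker (f : W →+ W)))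

/-- `ker P(δ)` (use this generic definition for concrete `W` such as `H1 𝓛 ρ`, where `Algebra ℤ (AddMonoid.End W)` is not found directly) -/
def kerP {W : Type*} [AddCommGroup W] (δ : AddMonoid.End W) (P : ℤ[X]) : AddSubgroup W :=
  AddMonoidHom.ker (aeval δ P : AddMonoid.End W)

theorem dimK_aeval (p : ℕ) {W : Type*} [AddCommGroup W] (δ : AddMonoid.End W) (P : ℤ[X]) :
    dimK p (aeval δ P) = padicValNat p (Nat.card (kerP δ P)) := rfl

/-- reduction mod `p` of an integer polynomial -/
abbrev redP (p : ℕ) (P : ℤ[X]) : (ZMod p)[X] := P.map (Int.castRingHom (ZMod p))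

/-- the multiplicities of the irreducible factors of `Φ_d mod p` in `(W, δ)` are all equal -/
def IsRat (p m : ℕ) {W : Type*} [AddCommGroup W] (δ : AddMonoid.End W) : Prop :=
  ∀ d, d ∣ m → ∀ P : ℤ[X], redP p P ∣ cyclotomic d (ZMod p) →
    d.totient * dimK p (aeval δ P) = (redP p P).natDegree * dimK p (aeval δ (cyclotomic d ℤ))

/-- the same for the virtual module `W₁ - W₀` -/
def IsRatDiff (p m : ℕ) {W₁ W₀ : Type*} [AddCommGroup W₁] [AddCommGroup W₀] (δ₁ : AddMonoid.End W₁)
    (δ₀ : AddMonoid.End W₀) : Prop :=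
  ∀ d, d ∣ m → ∀ P : ℤ[X], redP p P ∣ cyclotomic d (ZMod p) →
    d.totient * dimK p (aeval δ₁ P) + (redP p P).natDegree * dimK p (aeval δ₀ (cyclotomic d ℤ)) =
      (redP p P).natDegree * dimK p (aeval δ₁ (cyclotomic d ℤ)) + d.totient * dimK p (aeval δ₀ P)

end Fermat.Agent.S56.E
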