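import Fermat.Agent.S56.E.Abs.Basic
import Fermat.Agent.S56.E.Abs.RatDefs

/-!
# S56 / E / key `S56/E-POLY` : from `X^j - 1` and rationality to all polynomials      (~400 lines; polynomials over `𝔽_p` + Basic.lean)

`L` additive with torsion free values, `(ρ, D)` a module with an equivariant endomorphism, `D^m = 1`, `p ∤ m`.  `Λ(P) := lam (ker P(D))`.
 (1) `ker P(D)` depends only on `redP p P` (`P - P' = p R` ⇒ `P(D) - P'(D) = p R(D) = 0` as `pA = 0`; `Polynomial` lemma: `redP p P = redP p P'` ⇒ `∃ R, P - P' = C p * R`), and equal kernels give equal `Λ` (`lam_iso` along `AddSubgroup` equality/`AddEquiv.addSubgroupCongr`).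
 (2) `redP P`, `redP Q` coprime ⇒ `ker (PQ)(D) = ker P(D) ⊕ ker Q(D)` ⇒ `Λ(PQ) = Λ(P) + Λ(Q)` (SES `ker P(D) → ker (PQ)(D) --P(D)--> ker Q(D)`, surjective by Bezout; `L.add`).
 (3) `redP P ∣ redP Q`-type facts: `ker P(D) = ker G(D)` if `redP G = gcd(redP P, X^m - 1)` (Bezout + `D^m = 1`).
 (4) `Φ̄_e` (`e ∣ m`) pairwise coprime (`X^m - 1` separable mod `p`: `Polynomial.separable_X_pow_sub_C`, `prod_cyclotomic_eq_X_pow_sub_one`, squarefree ⇒ coprime factors; or `Polynomial.cyclotomic.isCoprime_rat`-like lemma over `ZMod p`: search `isCoprime_cyclotomic`/`ZMod.separable_cyclotomic`).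
 (5) strong induction on `d ∣ m`: `0 = Λ(X^d - 1) = ∑_{e ∣ d} Λ(Φ_e)` ⇒ `Λ(Φ_d) = 0`.   (6) `hb` + `htf` (`φ(d) ≠ 0`) ⇒ `Λ(P) = 0` whenever `redP P ∣ Φ̄_d`.
 (7) general `P`: `gcd(redP P, X^m-1) = ∏_{d ∣ m} gcd(redP P, Φ̄_d)`; lift each factor to `ℤ[X]` (`Polynomial.map_surjective`/`ZMod.intCast_surjective`); (1)-(3),(2),(6).
-/

set_option autoImplicit false

noncomputable section

namespace Fermat.Agent.S56.E

open Fermat.Agent.S55 Polynomial

variable {Γ : Type} [Group Γ] {U : Subgroup Γ} {p : ℕ} {V : Type} [AddCommGroup V]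

section KKsec

variable [Fact p.Prime] {A : Type} [AddCommGroup A] [Module (ZMod p) A] {ρ : Γ →* AddMonoid.End A}
  (T : A →ₗ[ZMod p] A)

/-- `ker f(T)` as an additive subgroup -/
def KerT (f : (ZMod p)[X]) : AddSubgroup A := (LinearMap.ker (aeval T f)).toAddSubgroup

theorem mem_KerT {f : (ZMod p)[X]} {a : A} : a ∈ KerT T f ↔ aeval T f a = 0 := Iff.rfl

variable {T}

theorem polyAux_smul (φ : AddMonoid.End A) (c : ZMod p) (a : A) : φ (c • a) = c • φ a :=
  (AddMonoidHom.toZModLinearMap p (φ : A →+ A)).map_smul c a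

theorem polyAux_pow (hT : ∀ g a, T (ρ g a) = ρ g (T a)) (g : Γ) (n : ℕ) (a : A) :
    (T ^ n) (ρ g a) = ρ g ((T ^ n) a) := by
  induction n generalizing a with
  | zero => rfl
  | succ n ih => rw [pow_succ, Module.End.mul_apply, Module.End.mul_apply, hT, ih]

theorem polyAux_comm (hT : ∀ g a, T (ρ g a) = ρ g (T a)) (g : Γ) (f : (ZMod p)[X]) (a : A) :
    aeval T f (ρ g a) = ρ g (aeval T f a) := by
  induction f using Polynomial.induction_on' with
  | add f f' h h' => rw [map_add, LinearMap.add_apply, LinearMap.add_apply, h, h', map_add]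
  | monomial n c =>
    rw [aeval_monomial, Module.End.mul_apply, Module.End.mul_apply, Module.algebraMap_end_apply,
      Module.algebraMap_end_apply, polyAux_pow hT, polyAux_smul]

theorem stable_KerT (hT : ∀ g a, T (ρ g a) = ρ g (T a)) (f : (ZMod p)[X]) : Stable ρ (KerT T f) := by
  intro g a ha
  rw [mem_KerT] at ha ⊢
  rw [polyAux_comm hT, ha, map_zero]

theorem KerT_mono {f g : (ZMod p)[X]} (h : f ∣ g) : KerT T f ≤ KerT T g := by
  obtain ⟨c, rfl⟩ := h
  intro a ha
  rw [mem_KerT] at ha ⊢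
  rw [mul_comm, map_mul, Module.End.mul_apply, ha, map_zero]

theorem KerT_eq_of_dvd {f g : (ZMod p)[X]} (h : f ∣ g) (h' : g ∣ f) : KerT T f = KerT T g :=
  le_antisymm (KerT_mono h) (KerT_mono h')

/-- integer polynomials act through their reduction -/
theorem aeval_redP {D : AddMonoid.End A} (hD : ∀ a, D a = T a) (P : ℤ[X]) (a : A) :
    (aeval D P : AddMonoid.End A) a = aeval T (redP p P) a := by
  have hpow : ∀ (n : ℕ) (a : A), (D ^ n) a = (T ^ n) a := by
    intro n
    induction n with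
    | zero => intro a; rfl
    | succ n ih =>
      intro a
      rw [pow_succ, pow_succ, Module.End.mul_apply, ← hD, ← ih]
      rfl
  induction P using Polynomial.induction_on' with
  | add f f' h h' =>
    rw [map_add, redP, Polynomial.map_add, map_add, LinearMap.add_apply, ← h, ← h']
    rfl
  | monomial n c =>
    rw [aeval_monomial, redP, Polynomial.map_monomial, aeval_monomial, Module.End.mul_apply,
      Module.algebraMap_end_apply, ← hpow]
    show (algebraMap ℤ (AddMonoid.End A) c) ((D ^ n) a) = _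
    rw [eq_intCast, Int.coe_castRingHom, Int.cast_smul_eq_zsmul]
    simp

theorem KerT_redP {D : AddMonoid.End A} (hD : ∀ a, D a = T a) (P : ℤ[X]) :
    AddMonoidHom.ker (aeval D P : AddMonoid.End A) = KerT T (redP p P) := by
  ext a
  rw [AddMonoidHom.mem_ker, mem_KerT, ← aeval_redP hD]
  exact Iff.rfl

omit [Fact p.Prime] [Module (ZMod p) A] in
theorem lam_congr_sub (L : LamData U p V) {S S' : AddSubgroup A} (h : S = S') (hS : Stable ρ S)
    (hS' : Stable ρ S') : L.lam S (subRho hS) = L.lam S' (subRho hS') := by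
  subst h
  rfl

/-- `λ(f) = lam (ker f(T))` -/
def lamK (L : LamData U p V) (hT : ∀ g a, T (ρ g a) = ρ g (T a)) (f : (ZMod p)[X]) : V :=
  L.lam (KerT T f) (subRho (stable_KerT hT f))

theorem lamK_congr (L : LamData U p V) (hT : ∀ g a, T (ρ g a) = ρ g (T a)) {f g : (ZMod p)[X]}
    (h : KerT T f = KerT T g) : lamK L hT f = lamK L hT g :=
  lam_congr_sub L h _ _

theorem lamK_mul (L : LamData U p V) (hmod : IsMod U p ρ) (hT : ∀ g a, T (ρ g a) = ρ g (T a))
    {f g : (ZMod p)[X]} (hfg : IsCoprime f g) : lamK L hT (f * g) = lamK L hT f + lamK L hT g := by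
  obtain ⟨u, v, huv⟩ := hfg
  let i : KerT T f →+ KerT T (f * g) := AddSubgroup.inclusion (KerT_mono (Dvd.intro g rfl))
  let j : KerT T (f * g) →+ KerT T g :=
    ((aeval T f).toAddMonoidHom.comp (KerT T (f * g)).subtype).codRestrict (KerT T g) (fun a => by
      have ha : aeval T (f * g) (a : A) = 0 := a.2
      rw [mem_KerT]
      show aeval T g (aeval T f (a : A)) = 0
      rw [← Module.End.mul_apply, ← map_mul, mul_comm g f, ha])
  refine L.add (i := i) (j := j) ⟨fun γ a => rfl, fun γ a => ?_, ?_, ?_, ?_⟩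
    (hmod.sub (stable_KerT hT (f * g)))
  · apply Subtype.ext
    exact polyAux_comm hT γ f (a : A)
  · exact AddSubgroup.inclusion_injective _
  · intro y
    have hy : aeval T g (y : A) = 0 := y.2
    have h1 : aeval T (f * g) (aeval T u (y : A)) = 0 := by
      rw [← Module.End.mul_apply, ← map_mul, show f * g * u = (f * u) * g by ring, map_mul,
        Module.End.mul_apply, hy, map_zero]
    refine ⟨⟨aeval T u (y : A), h1⟩, Subtype.ext ?_⟩
    show aeval T f (aeval T u (y : A)) = y
    have h2 : aeval T (u * f + v * g) (y : A) = y := by rw [huv, map_one]; rfl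
    rw [map_add, LinearMap.add_apply, map_mul, map_mul, Module.End.mul_apply, Module.End.mul_apply, hy,
      map_zero, add_zero] at h2
    rw [← Module.End.mul_apply, ← map_mul, mul_comm, map_mul, Module.End.mul_apply]
    exact h2
  · intro b
    constructor
    · intro hb
      have hb' : aeval T f (b : A) = 0 := congrArg Subtype.val hb
      exact ⟨⟨b, hb'⟩, rfl⟩
    · rintro ⟨a, rfl⟩
      exact Subtype.ext a.2

end KKsec


section Cyc

variable [Fact p.Prime]

theorem polyAux_coprime {m : ℕ} (hm : 0 < m) (hpm : ¬ p ∣ m) {d e : ℕ} (hd : d ∣ m) (he : e ∣ m)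
    (hde : d ≠ e) : IsCoprime (cyclotomic d (ZMod p)) (cyclotomic e (ZMod p)) := by
  have hsq : Squarefree (X ^ m - 1 : (ZMod p)[X]) := by
    have := separable_X_pow_sub_C' p m (1 : ZMod p) hpm one_ne_zero
    rw [map_one] at this
    exact this.squarefree
  have h1 : cyclotomic d (ZMod p) * cyclotomic e (ZMod p) ∣ X ^ m - 1 := by
    have e := Finset.prod_pair (f := fun i => cyclotomic i (ZMod p)) hde
    rw [← prod_cyclotomic_eq_X_pow_sub_one hm, ← e]
    refine Finset.prod_dvd_prod_of_subset _ _ _ ?_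
    intro x hx
    rw [Finset.mem_insert, Finset.mem_singleton] at hx
    rcases hx with rfl | rfl
    · exact Nat.mem_divisors.2 ⟨hd, hm.ne'⟩
    · exact Nat.mem_divisors.2 ⟨he, hm.ne'⟩
  exact (squarefree_mul_iff.1 (hsq.squarefree_of_dvd h1)).1.isCoprime

end Cyc

theorem lam_ker_of_rat_aux [Fact p.Prime] (htf : ∀ (n : ℕ), n ≠ 0 → ∀ v : V, n • v = 0 → v = 0)
    (L : LamData U p V) {A : Type} [AddCommGroup A] [Module (ZMod p) A] {ρ : Γ →* AddMonoid.End A}
    (h : IsMod U p ρ) {D : AddMonoid.End A} (hD : IsHom ρ ρ D) (T : A →ₗ[ZMod p] A)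
    (hDT : ∀ a, D a = T a) {m : ℕ} (hm : 0 < m) (hpm : ¬ p ∣ m) (hDm : D ^ m = 1)
    (ha : ∀ j, j ∣ m → L.lam _ (kerRho hD (X ^ j - 1)) = 0)
    (hb : ∀ d, d ∣ m → ∀ P : ℤ[X], redP p P ∣ cyclotomic d (ZMod p) →
      d.totient • L.lam _ (kerRho hD P) =
        (redP p P).natDegree • L.lam _ (kerRho hD (cyclotomic d ℤ)))
    (P : ℤ[X]) : L.lam _ (kerRho hD P) = 0 := by
  have hT : ∀ g a, T (ρ g a) = ρ g (T a) := fun g a => by rw [← hDT, ← hDT]; exact hD g a
  -- dictionary
  have hdict : ∀ Q : ℤ[X], L.lam _ (kerRho hD Q) = lamK L hT (redP p Q) := fun Q =>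
    lam_congr_sub L (KerT_redP hDT Q) _ _
  have hsurj : ∀ f : (ZMod p)[X], ∃ Q : ℤ[X], redP p Q = f := fun f =>
    Polynomial.map_surjective _ (ZMod.intCast_surjective) f
  have hcyc : ∀ d, redP p (cyclotomic d ℤ) = cyclotomic d (ZMod p) := fun d => map_cyclotomic_int d _
  have ha' : ∀ j, j ∣ m → lamK L hT (X ^ j - 1) = 0 := by
    intro j hj
    have := ha j hj
    rw [hdict] at this
    simpa [redP] using this
  have hb' : ∀ d, d ∣ m → ∀ f : (ZMod p)[X], f ∣ cyclotomic d (ZMod p) →
      d.totient • lamK L hT f = f.natDegree • lamK L hT (cyclotomic d (ZMod p)) := by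
    intro d hd f hf
    obtain ⟨Q, rfl⟩ := hsurj f
    have := hb d hd Q hf
    rwa [hdict, hdict, hcyc] at this
  -- products of cyclotomic polynomials
  have hprod : ∀ s : Finset ℕ, (∀ d ∈ s, d ∣ m) →
      lamK L hT (∏ d ∈ s, cyclotomic d (ZMod p)) = ∑ d ∈ s, lamK L hT (cyclotomic d (ZMod p)) := by
    intro s
    induction s using Finset.induction_on with
    | empty =>
      intro _
      rw [Finset.prod_empty, Finset.sum_empty]
      have := ha' 1 (one_dvd m)
      have h2 := hb' 1 (one_dvd m) 1 (one_dvd _)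
      rw [natDegree_one, zero_smul, Nat.totient_one, one_smul] at h2
      exact h2
    | insert d s hds ih =>
      intro hs
      rw [Finset.prod_insert hds, Finset.sum_insert hds,
        lamK_mul L h hT (IsCoprime.prod_right fun e he => polyAux_coprime hm hpm
          (hs d (Finset.mem_insert_self d s)) (hs e (Finset.mem_insert_of_mem he))
          (fun hde => hds (hde ▸ he))), ih fun e he => hs e (Finset.mem_insert_of_mem he)]
  -- `λ(Φ_d) = 0`
  have hPhi : ∀ d, d ∣ m → lamK L hT (cyclotomic d (ZMod p)) = 0 := by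
    intro d
    induction d using Nat.strong_induction_on with
    | _ d ih =>
      intro hd
      have hd0 : 0 < d := Nat.pos_of_dvd_of_pos hd hm
      have h1 := ha' d hd
      rw [← prod_cyclotomic_eq_X_pow_sub_one hd0, hprod _ (fun e he =>
        (Nat.dvd_of_mem_divisors he).trans hd), ← Nat.cons_self_properDivisors hd0.ne',
        Finset.sum_cons, Finset.sum_eq_zero (fun e he => ih e (Nat.mem_properDivisors.1 he).2
          ((Nat.mem_properDivisors.1 he).1.trans hd)), add_zero] at h1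
      exact h1
  have hdiv : ∀ d, d ∣ m → ∀ f : (ZMod p)[X], f ∣ cyclotomic d (ZMod p) → lamK L hT f = 0 := by
    intro d hd f hf
    have h1 := hb' d hd f hf
    rw [hPhi d hd, smul_zero] at h1
    exact htf _ (Nat.totient_pos.2 (Nat.pos_of_dvd_of_pos hd hm)).ne' _ h1
  -- gcd with products
  have hgcd : ∀ (f : (ZMod p)[X]) (s : Finset ℕ), (∀ d ∈ s, d ∣ m) →
      lamK L hT (EuclideanDomain.gcd f (∏ d ∈ s, cyclotomic d (ZMod p))) = 0 := by
    intro f s
    induction s using Finset.induction_on with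
    | empty =>
      intro _
      rw [Finset.prod_empty]
      exact hdiv 1 (one_dvd m) _ ((EuclideanDomain.gcd_dvd_right f 1).trans (one_dvd _))
    | insert d s hds ih =>
      intro hs
      rw [Finset.prod_insert hds]
      set q1 := cyclotomic d (ZMod p) with hq1
      set q2 := ∏ e ∈ s, cyclotomic e (ZMod p) with hq2
      have hcop : IsCoprime q1 q2 := IsCoprime.prod_right fun e he => polyAux_coprime hm hpm
          (hs d (Finset.mem_insert_self d s)) (hs e (Finset.mem_insert_of_mem he))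
          (fun hde => hds (hde ▸ he))
      set G1 := EuclideanDomain.gcd f q1 with hG1
      set G2 := EuclideanDomain.gcd f q2 with hG2
      have hc12 : IsCoprime G1 G2 :=
        (hcop.of_isCoprime_of_dvd_left (EuclideanDomain.gcd_dvd_right f q1)).of_isCoprime_of_dvd_right
          (EuclideanDomain.gcd_dvd_right f q2)
      have e1 : G1 * G2 ∣ EuclideanDomain.gcd f (q1 * q2) :=
        EuclideanDomain.dvd_gcd (hc12.mul_dvd (EuclideanDomain.gcd_dvd_left f q1)
          (EuclideanDomain.gcd_dvd_left f q2))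
          (mul_dvd_mul (EuclideanDomain.gcd_dvd_right f q1) (EuclideanDomain.gcd_dvd_right f q2))
      have e2 : EuclideanDomain.gcd f (q1 * q2) ∣ G1 * G2 := by
        have b1 := EuclideanDomain.gcd_eq_gcd_ab f q1
        have b2 := EuclideanDomain.gcd_eq_gcd_ab f q2
        rw [hG1, hG2, b1, b2]
        have d1 := EuclideanDomain.gcd_dvd_left f (q1 * q2)
        have d2 := EuclideanDomain.gcd_dvd_right f (q1 * q2)
        set a1 := EuclideanDomain.gcdA f q1
        set c1 := EuclideanDomain.gcdB f q1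
        set a2 := EuclideanDomain.gcdA f q2
        set c2 := EuclideanDomain.gcdB f q2
        have e3 : (f * a1 + q1 * c1) * (f * a2 + q2 * c2) =
            f * (a1 * (f * a2 + q2 * c2) + q1 * c1 * a2) + (q1 * q2) * (c1 * c2) := by ring
        rw [e3]
        exact dvd_add (d1.mul_right _) (d2.mul_right _)
      rw [lamK_congr L hT (KerT_eq_of_dvd e2 e1), lamK_mul L h hT hc12,
        hdiv d (hs d (Finset.mem_insert_self d s)) G1 (EuclideanDomain.gcd_dvd_right f q1),
        ih fun e he => hs e (Finset.mem_insert_of_mem he), add_zero]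
  -- conclusion
  rw [hdict]
  set f := redP p P with hf
  have hTm : ∀ a, aeval T (X ^ m - 1 : (ZMod p)[X]) a = 0 := by
    intro a
    have h1 := aeval_redP (p := p) hDT (X ^ m - 1 : ℤ[X]) a
    have h2 : (aeval D (X ^ m - 1 : ℤ[X]) : AddMonoid.End A) = 0 := by
      rw [map_sub, map_pow, aeval_X, map_one, hDm, sub_self]
    rw [h2] at h1
    have h3 : redP p (X ^ m - 1 : ℤ[X]) = X ^ m - 1 := by simp [redP]
    rw [h3] at h1
    exact h1.symm
  have hK : KerT T f = KerT T (EuclideanDomain.gcd f (X ^ m - 1)) := by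
    refine le_antisymm ?_ (KerT_mono (EuclideanDomain.gcd_dvd_left _ _))
    intro a ha
    rw [mem_KerT] at ha ⊢
    rw [EuclideanDomain.gcd_eq_gcd_ab, map_add, LinearMap.add_apply, mul_comm f, mul_comm (X ^ m - 1),
      map_mul, map_mul, Module.End.mul_apply, Module.End.mul_apply, ha, hTm, map_zero, map_zero, add_zero]
  rw [lamK_congr L hT hK, ← prod_cyclotomic_eq_X_pow_sub_one hm]
  exact hgcd f _ fun d hd => Nat.dvd_of_mem_divisors hd

theorem lam_ker_of_rat [Fact p.Prime] (htf : ∀ (n : ℕ), n ≠ 0 → ∀ v : V, n • v = 0 → v = 0)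
    (L : LamData U p V) {A : Type} [AddCommGroup A] {ρ : Γ →* AddMonoid.End A} (h : IsMod U p ρ)
    {D : AddMonoid.End A} (hD : IsHom ρ ρ D) {m : ℕ} (hm : 0 < m) (hpm : ¬ p ∣ m) (hDm : D ^ m = 1)
    (ha : ∀ j, j ∣ m → L.lam _ (kerRho hD (X ^ j - 1)) = 0)
    (hb : ∀ d, d ∣ m → ∀ P : ℤ[X], redP p P ∣ cyclotomic d (ZMod p) →
      d.totient • L.lam _ (kerRho hD P) =
        (redP p P).natDegree • L.lam _ (kerRho hD (cyclotomic d ℤ)))
    (P : ℤ[X]) : L.lam _ (kerRho hD P) = 0 := by
  obtain ⟨_⟩ : Nonempty (Module (ZMod p) A) := ⟨AddCommGroup.zmodModule h.tors⟩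
  exact lam_ker_of_rat_aux htf L h hD (AddMonoidHom.toZModLinearMap p (D : A →+ A)) (fun _ => rfl)
    hm hpm hDm ha hb P

end Fermat.Agent.S56.E
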