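import Fermat.Agent.S56.E.Abs.RatDefs

/-!
# S56 / E / key `S56/E-RAT` : proof of `isRat_lattice` (`ratAux_lattice`)   (Mathlib only)   (lead)
-/

set_option autoImplicit false

noncomputable section

namespace Fermat.Agent.S56.E

open Polynomial Module TensorProduct

section LinAlg

variable {K : Type*} [Field K] {V : Type*} [AddCommGroup V] [Module K V] [FiniteDimensional K V]

/-- (C) -/
theorem ratAux_coprime (φ : Module.End K V) {g s : K[X]} (hg : aeval φ g = 0) (hgs : IsCoprime g s) :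
    IsCoprime φ.charpoly s := by
  refine (Polynomial.isCoprime_iff_aeval_ne_zero_of_isAlgClosed K (AlgebraicClosure K) _ _).mpr ?_
  intro a
  by_cases ha : aeval a φ.charpoly = 0
  · right
    have h1 : (φ.baseChange (AlgebraicClosure K)).charpoly.IsRoot a := by
      rw [LinearMap.charpoly_baseChange, IsRoot.def, eval_map_algebraMap, ha]
    rw [← Module.End.hasEigenvalue_iff_isRoot_charpoly] at h1
    obtain ⟨v, hv⟩ := h1.exists_hasEigenvector
    have h2 : aeval (φ.baseChange (AlgebraicClosure K)) g = 0 := by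
      have := Polynomial.aeval_algHom_apply (Module.End.baseChangeHom K (AlgebraicClosure K) V) φ g
      rw [hg, map_zero] at this
      exact this
    have h3 := Module.End.aeval_apply_of_hasEigenvector (p := g.map (algebraMap K (AlgebraicClosure K))) hv
    rw [aeval_map_algebraMap, h2, LinearMap.zero_apply, eval_map_algebraMap] at h3
    have h4 : aeval a g = 0 := by
      rcases smul_eq_zero.mp h3.symm with h | h
      · exact h
      · exact absurd h hv.2
    rcases (Polynomial.isCoprime_iff_aeval_ne_zero_of_isAlgClosed K (AlgebraicClosure K) g s).mp hgs a with h | h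
    · exact absurd h4 h
    · exact h
  · left; exact ha

/-- (L1) -/
theorem ratAux_charpoly_mul (φ : Module.End K V) (V₁ V₂ : Submodule K V) (hc : IsCompl V₁ V₂)
    (h₁ : ∀ x ∈ V₁, φ x ∈ V₁) (h₂ : ∀ x ∈ V₂, φ x ∈ V₂) :
    φ.charpoly = (φ.restrict h₁).charpoly * (φ.restrict h₂).charpoly := by
  let e := Submodule.prodEquivOfIsCompl V₁ V₂ hc
  have hψ : (φ.restrict h₁).prodMap (φ.restrict h₂) = e.symm.conj φ := by
    apply LinearMap.ext
    intro z
    rw [LinearEquiv.conj_apply_apply, LinearEquiv.symm_symm, LinearEquiv.eq_symm_apply,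
      Submodule.coe_prodEquivOfIsCompl', Submodule.coe_prodEquivOfIsCompl', map_add]
    rfl
  rw [← e.symm.charpoly_conj φ, ← hψ, LinearMap.charpoly_prodMap]

omit [FiniteDimensional K V] in
theorem ratAux_aeval_restrict (φ : Module.End K V) (V₁ : Submodule K V) (h₁ : ∀ x ∈ V₁, φ x ∈ V₁)
    (P : K[X]) (x : V₁) : ((aeval (φ.restrict h₁) P x : V₁) : V) = aeval φ P (x : V) := by
  induction P using Polynomial.induction_on' generalizing x with
  | add P Q hP hQ => simp [hP, hQ]
  | monomial n a =>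
    rw [aeval_monomial, aeval_monomial]
    simp only [Module.algebraMap_end_eq_smul_id, LinearMap.smul_apply, Module.End.mul_apply, LinearMap.id_apply,
      Submodule.coe_smul]
    congr 1
    induction n generalizing x with
    | zero => simp
    | succ n ih =>
      rw [pow_succ, pow_succ, Module.End.mul_apply, Module.End.mul_apply, ih]
      rfl

omit [FiniteDimensional K V] in
theorem ratAux_ker_inv (φ : Module.End K V) (f : K[X]) :
    ∀ x ∈ LinearMap.ker (aeval φ f), φ x ∈ LinearMap.ker (aeval φ f) := by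
  intro x hx
  rw [LinearMap.mem_ker] at hx ⊢
  have h : aeval φ f * φ = φ * aeval φ f := by
    have : aeval φ (f * X) = aeval φ (X * f) := by rw [mul_comm]
    simpa [map_mul] using this
  have h2 := congrArg (fun g : Module.End K V => g x) h
  simp only [Module.End.mul_apply] at h2
  rw [h2, hx, map_zero]

/-- (L2) -/
theorem ratAux_finrank_ker (φ : Module.End K V) {f h S : K[X]} {n : ℕ} (hfh : IsCoprime f h)
    (hann : aeval φ (f * h) = 0) (hχ : φ.charpoly = f ^ n * S) (hfS : IsCoprime f S) :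
    finrank K (LinearMap.ker (aeval φ f)) = n * f.natDegree := by
  have hc : IsCompl (LinearMap.ker (aeval φ f)) (LinearMap.ker (aeval φ h)) := by
    refine ⟨Polynomial.disjoint_ker_aeval_of_isCoprime φ hfh, ?_⟩
    rw [codisjoint_iff, Polynomial.sup_ker_aeval_eq_ker_aeval_mul_of_coprime φ hfh, hann, LinearMap.ker_zero]
  have h₁ := ratAux_ker_inv φ f
  have h₂ := ratAux_ker_inv φ h
  have hmul := ratAux_charpoly_mul φ _ _ hc h₁ h₂
  set a := (φ.restrict h₁).charpoly with ha
  set b := (φ.restrict h₂).charpoly with hb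
  have ha0 : aeval (φ.restrict h₁) f = 0 := by
    ext x
    rw [ratAux_aeval_restrict]
    exact x.2
  have hb0 : aeval (φ.restrict h₂) h = 0 := by
    ext x
    rw [ratAux_aeval_restrict]
    exact x.2
  have haS : IsCoprime a S := ratAux_coprime _ ha0 hfS
  have hbf : IsCoprime b f := ratAux_coprime _ hb0 hfh.symm
  have e : a * b = f ^ n * S := by rw [← hmul, hχ]
  have d1 : f ^ n ∣ a := (hbf.symm.pow_left (m := n)).dvd_of_dvd_mul_right (e ▸ Dvd.intro _ rfl)
  have d2 : a ∣ f ^ n := haS.dvd_of_dvd_mul_right (e ▸ Dvd.intro _ rfl)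
  have ham : a.Monic := LinearMap.charpoly_monic _
  have hfn : f ^ n ≠ 0 := by
    intro h0
    rw [h0] at d1
    exact ham.ne_zero (zero_dvd_iff.mp d1)
  have hdeg : a.natDegree = (f ^ n).natDegree :=
    le_antisymm (natDegree_le_of_dvd d2 hfn) (natDegree_le_of_dvd d1 ham.ne_zero)
  rw [← natDegree_pow, ← hdeg, ha, LinearMap.charpoly_natDegree]

end LinAlg

/-- (U) -/
theorem ratAux_dvd_pow {K : Type*} [Field K] (g : K[X]) : ∀ (N : ℕ) (a : K[X]), a ≠ 0 → a.natDegree ≤ N →
    (∀ ρ : K[X], Irreducible ρ → ρ ∣ a → ρ ∣ g) → a ∣ g ^ N := by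
  intro N
  induction N with
  | zero =>
    intro a ha hN _
    rw [pow_zero]
    have : IsUnit a := by
      rw [Polynomial.isUnit_iff_degree_eq_zero, degree_eq_natDegree ha]
      simp [Nat.le_zero.mp hN]
    exact this.dvd
  | succ N ih =>
    intro a ha hN H
    by_cases hu : IsUnit a
    · exact hu.dvd
    obtain ⟨ρ, hρ, a', rfl⟩ := WfDvdMonoid.exists_irreducible_factor hu ha
    have ha' : a' ≠ 0 := right_ne_zero_of_mul ha
    have hρ0 : ρ ≠ 0 := hρ.ne_zero
    have hdeg : 0 < ρ.natDegree := hρ.natDegree_pos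
    rw [natDegree_mul hρ0 ha'] at hN
    have h1 := ih a' ha' (by omega) (fun σ hσ hd => H σ hσ (hd.mul_left _))
    rw [pow_succ']
    exact mul_dvd_mul (H ρ hρ (Dvd.intro _ rfl)) h1

/-- (A) the characteristic polynomial of an integral endomorphism of finite order -/
theorem ratAux_int {Λ : Type*} [AddCommGroup Λ] [Module.Free ℤ Λ] [Module.Finite ℤ Λ]
    (D : Module.End ℤ Λ) {m : ℕ} (hm : 0 < m) (hD : D ^ m = 1) {d : ℕ} (hd : d ∣ m) (G : ℤ[X])
    (hG : X ^ m - 1 = cyclotomic d ℤ * G) :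
    ∃ (n N : ℕ) (R : ℤ[X]), D.charpoly = cyclotomic d ℤ ^ n * R ∧ R ∣ G ^ N := by
  have hd0 : 0 < d := Nat.pos_of_dvd_of_pos hd hm
  have hχm : D.charpoly.Monic := LinearMap.charpoly_monic D
  have hΦm : (cyclotomic d ℤ).Monic := cyclotomic.monic d ℤ
  have hfin : FiniteMultiplicity (cyclotomic d ℤ) D.charpoly :=
    Polynomial.finiteMultiplicity_of_degree_pos_of_monic (degree_cyclotomic_pos d ℤ hd0) hΦm hχm.ne_zero
  obtain ⟨R, hR, hnd⟩ := hfin.exists_eq_pow_mul_and_not_dvd
  set n := multiplicity (cyclotomic d ℤ) D.charpoly with hn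
  have hRm : R.Monic := (hΦm.pow n).of_mul_monic_left (hR ▸ hχm)
  refine ⟨n, R.natDegree, R, hR, ?_⟩
  have hinj : Function.Injective (Int.castRingHom ℚ) := Int.cast_injective
  rw [← Polynomial.map_dvd_map (Int.castRingHom ℚ) hinj hRm, Polynomial.map_pow]
  have hRq0 : R.map (Int.castRingHom ℚ) ≠ 0 := (hRm.map _).ne_zero
  refine ratAux_dvd_pow _ _ _ hRq0 (natDegree_map_le) ?_
  intro ρ hρ hρR
  -- `ρ ∣ χ`
  have hχq : (D.baseChange ℚ).charpoly = D.charpoly.map (Int.castRingHom ℚ) := LinearMap.charpoly_baseChange D ℚ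
  have hρχ : ρ ∣ (D.baseChange ℚ).charpoly := by
    rw [hχq, hR, Polynomial.map_mul]
    exact hρR.mul_left _
  have hann : aeval (D.baseChange ℚ) (X ^ m - 1 : ℚ[X]) = 0 := by
    rw [map_sub, map_pow, aeval_X, map_one, ← LinearMap.baseChange_pow, hD]
    simp [Module.End.one_eq_id]
  have hρX : ρ ∣ (X ^ m - 1 : ℚ[X]) := by
    by_contra hnot
    have h1 : IsCoprime (X ^ m - 1 : ℚ[X]) ρ := ((hρ.coprime_iff_not_dvd).mpr hnot).symm
    have h2 := ratAux_coprime _ hann h1
    exact hρ.not_isUnit (h2.isUnit_of_dvd' hρχ dvd_rfl)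
  have hGq : (X ^ m - 1 : ℚ[X]) = cyclotomic d ℚ * G.map (Int.castRingHom ℚ) := by
    have := congrArg (Polynomial.map (Int.castRingHom ℚ)) hG
    simpa using this
  rw [hGq] at hρX
  rcases hρ.prime.dvd_or_dvd hρX with h | h
  · exfalso
    have hirr : Irreducible (cyclotomic d ℚ) := cyclotomic.irreducible_rat hd0
    have hass : Associated ρ (cyclotomic d ℚ) := hρ.associated_of_dvd hirr h
    have h3 : cyclotomic d ℚ ∣ R.map (Int.castRingHom ℚ) := hass.symm.dvd.trans hρR
    rw [← map_cyclotomic_int, Polynomial.map_dvd_map (Int.castRingHom ℚ) hinj hΦm] at h3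
    exact hnd h3
  · exact h

/-- every element of `ZMod p ⊗ Λ` is `1 ⊗ x` -/
theorem ratAux_tmul {p : ℕ} [Fact p.Prime] {Λ : Type*} [AddCommGroup Λ] (z : ZMod p ⊗[ℤ] Λ) :
    ∃ x : Λ, z = (1 : ZMod p) ⊗ₜ[ℤ] x := by
  induction z using TensorProduct.induction_on with
  | zero => exact ⟨0, by simp⟩
  | tmul c x =>
    refine ⟨(c.val : ℤ) • x, ?_⟩
    rw [← TensorProduct.smul_tmul]
    congr 1
    simp
  | add a b ha hb =>
    obtain ⟨x, rfl⟩ := ha
    obtain ⟨y, rfl⟩ := hb
    exact ⟨x + y, by rw [TensorProduct.tmul_add]⟩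

/-- the characteristic polynomial of the reduction -/
theorem ratAux_charpoly_red {p : ℕ} [Fact p.Prime] {Λ W : Type*}
    [AddCommGroup Λ] [Module.Free ℤ Λ] [Module.Finite ℤ Λ] [AddCommGroup W] [Module (ZMod p) W]
    (q : Λ →+ W)
    (hq : Function.Surjective q) (hker : ∀ x, q x = 0 ↔ ∃ y, p • y = x) (D : Module.End ℤ Λ)
    (T : Module.End (ZMod p) W) (hc : ∀ x, q (D x) = T (q x)) :
    ∃ _ : Module.Finite (ZMod p) W, T.charpoly = D.charpoly.map (Int.castRingHom (ZMod p)) := by
  let l : ZMod p ⊗[ℤ] Λ →ₗ[ZMod p] W := q.toIntLinearMap.liftBaseChange (ZMod p)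
  have hl : ∀ x : Λ, l ((1 : ZMod p) ⊗ₜ[ℤ] x) = q x := by
    intro x
    simp [l]
  have hsurj : Function.Surjective l := by
    intro w
    obtain ⟨x, rfl⟩ := hq w
    exact ⟨_, hl x⟩
  have hinj : Function.Injective l := by
    rw [injective_iff_map_eq_zero]
    intro z hz
    obtain ⟨x, rfl⟩ := ratAux_tmul z
    rw [hl] at hz
    obtain ⟨y, rfl⟩ := (hker x).mp hz
    rw [← Nat.cast_smul_eq_nsmul ℤ, ← TensorProduct.smul_tmul]
    simp
  let e : ZMod p ⊗[ℤ] Λ ≃ₗ[ZMod p] W := LinearEquiv.ofBijective l ⟨hinj, hsurj⟩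
  have hfin : Module.Finite (ZMod p) W := Module.Finite.of_surjective l hsurj
  refine ⟨hfin, ?_⟩
  have hconj : T = e.conj (D.baseChange (ZMod p)) := by
    apply LinearMap.ext
    intro w
    obtain ⟨z, rfl⟩ := e.surjective w
    rw [LinearEquiv.conj_apply_apply, LinearEquiv.symm_apply_apply]
    obtain ⟨x, rfl⟩ := ratAux_tmul z
    rw [LinearMap.baseChange_tmul]
    show T (l _) = l _
    rw [hl, hl, hc]
  rw [hconj, LinearEquiv.charpoly_conj, LinearMap.charpoly_baseChange]
  rfl

/-- `End_K W → End W` -/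
def ratAuxToEnd (K : Type*) [Field K] (W : Type*) [AddCommGroup W] [Module K W] :
    Module.End K W →+* AddMonoid.End W where
  toFun f := f.toAddMonoidHom
  map_one' := rfl
  map_mul' _ _ := rfl
  map_zero' := rfl
  map_add' _ _ := rfl

theorem ratAux_aeval {p : ℕ} [Fact p.Prime] {W : Type*} [AddCommGroup W] [Module (ZMod p) W]
    (δW : AddMonoid.End W) (T : Module.End (ZMod p) W) (hT : ∀ w, T w = δW w) (P : ℤ[X]) (w : W) :
    (aeval δW P : AddMonoid.End W) w = aeval T (P.map (Int.castRingHom (ZMod p))) w := by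
  have h : (aeval δW : ℤ[X] →ₐ[ℤ] AddMonoid.End W).toRingHom =
      (ratAuxToEnd (ZMod p) W).comp ((aeval T : (ZMod p)[X] →ₐ[ZMod p] _).toRingHom.comp
        (Polynomial.mapRingHom (Int.castRingHom (ZMod p)))) := by
    apply Polynomial.ringHom_ext'
    · exact RingHom.ext_int _ _
    · simp only [AlgHom.toRingHom_eq_coe, RingHom.coe_coe, aeval_X, RingHom.coe_comp, Function.comp_apply,
        coe_mapRingHom, Polynomial.map_X]
      ext w
      exact (hT w).symm
  have h2 := congrArg (fun f : ℤ[X] →+* AddMonoid.End W => f P w) h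
  exact h2

theorem ratAux_dimK {p : ℕ} [Fact p.Prime] {W : Type*} [AddCommGroup W] [Module (ZMod p) W]
    [Module.Finite (ZMod p) W]
    (δW : AddMonoid.End W) (T : Module.End (ZMod p) W) (hT : ∀ w, T w = δW w) (P : ℤ[X]) :
    padicValNat p (Nat.card (AddMonoidHom.ker ((aeval δW P : AddMonoid.End W) : W →+ W))) =
      finrank (ZMod p) (LinearMap.ker (aeval T (P.map (Int.castRingHom (ZMod p))))) := by
  have h1 : Nat.card (AddMonoidHom.ker ((aeval δW P : AddMonoid.End W) : W →+ W)) =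
      Nat.card (LinearMap.ker (aeval T (P.map (Int.castRingHom (ZMod p))))) := by
    apply Nat.card_congr
    refine Equiv.subtypeEquivRight ?_
    intro w
    show ((aeval δW P : AddMonoid.End W) w = 0) ↔ _
    rw [LinearMap.mem_ker, ratAux_aeval δW T hT]
  rw [h1, Module.natCard_eq_pow_finrank (K := ZMod p), Nat.card_zmod, padicValNat.prime_pow]


theorem ratAux_main {p m : ℕ} [Fact p.Prime] (hm : 0 < m) (hpm : ¬ p ∣ m) {Λ W : Type*}
    [AddCommGroup Λ] [Module.Free ℤ Λ] [Module.Finite ℤ Λ] [AddCommGroup W] [Module (ZMod p) W] (q : Λ →+ W)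
    (hq : Function.Surjective q) (hker : ∀ x, q x = 0 ↔ ∃ y, p • y = x) (δ : AddMonoid.End Λ)
    (δW : AddMonoid.End W) (hc : ∀ x, q (δ x) = δW (q x)) (hδ : δ ^ m = 1)
    (T : Module.End (ZMod p) W) (hT : ∀ w, T w = δW w) : IsRat p m δW := by
  intro d hd P hP
  let D : Module.End ℤ Λ := AddMonoidHom.toIntLinearMap δ
  have hDpow : ∀ (k : ℕ) (x : Λ), (D ^ k) x = (δ ^ k) x := by
    intro k
    induction k with
    | zero => intro x; rfl
    | succ k ih =>
      intro x
      rw [pow_succ, pow_succ, Module.End.mul_apply, ih]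
      rfl
  have hD : D ^ m = 1 := by
    ext x
    rw [hDpow, hδ]
    rfl
  obtain ⟨hfin, hχ⟩ := ratAux_charpoly_red q hq hker D T (fun x => (hc x).trans (hT _).symm)
  obtain ⟨G, hG⟩ : cyclotomic d ℤ ∣ X ^ m - 1 := by
    rw [← prod_cyclotomic_eq_X_pow_sub_one hm]
    exact Finset.dvd_prod_of_mem _ (Nat.mem_divisors.2 ⟨hd, hm.ne'⟩)
  obtain ⟨n, N, R, hR, hRG⟩ := ratAux_int D hm hD hd G hG
  -- reduction mod `p`
  set c := Int.castRingHom (ZMod p) with hcdef
  have hGp : (X ^ m - 1 : (ZMod p)[X]) = cyclotomic d (ZMod p) * G.map c := by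
    have := congrArg (Polynomial.map c) hG
    simpa using this
  have hsep : (X ^ m - 1 : (ZMod p)[X]).Separable := by
    have hm0 : (m : ZMod p) ≠ 0 := by
      rw [Ne, ZMod.natCast_eq_zero_iff]
      exact hpm
    have := Polynomial.separable_X_pow_sub_C (1 : ZMod p) hm0 one_ne_zero
    simpa using this
  have hΦG : IsCoprime (cyclotomic d (ZMod p)) (G.map c) := by
    rw [hGp] at hsep
    exact hsep.isCoprime
  have hΦR : IsCoprime (cyclotomic d (ZMod p)) (R.map c) := by
    have h1 : R.map c ∣ (G.map c) ^ N := by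
      rw [← Polynomial.map_pow]
      exact Polynomial.map_dvd c hRG
    exact (hΦG.pow_right (n := N)).of_isCoprime_of_dvd_right h1
  have hχ' : T.charpoly = cyclotomic d (ZMod p) ^ n * R.map c := by
    rw [hχ, hR, Polynomial.map_mul, Polynomial.map_pow, map_cyclotomic]
  have hann : aeval T (X ^ m - 1 : (ZMod p)[X]) = 0 := by
    ext w
    obtain ⟨x, rfl⟩ := hq w
    have h1 : ∀ (k : ℕ) (x : Λ), (T ^ k) (q x) = q ((δ ^ k) x) := by
      intro k
      induction k with
      | zero => intro x; rfl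
      | succ k ih =>
        intro x
        rw [pow_succ, pow_succ, Module.End.mul_apply, hT, ← hc, ih]
        rfl
    simp only [map_sub, map_pow, aeval_X, map_one, LinearMap.sub_apply, h1, hδ, LinearMap.zero_apply]
    simp
  -- the two dimensions
  have key1 : finrank (ZMod p) (LinearMap.ker (aeval T (cyclotomic d (ZMod p)))) =
      n * (cyclotomic d (ZMod p)).natDegree :=
    ratAux_finrank_ker T hΦG (by rw [← hGp]; exact hann) hχ' hΦR
  obtain ⟨f', hf'⟩ := hP
  have hsepΦ : (cyclotomic d (ZMod p)).Separable := by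
    rw [hGp] at hsep
    exact hsep.of_mul_left
  have hff' : IsCoprime (redP p P) f' := by
    rw [hf'] at hsepΦ
    exact hsepΦ.isCoprime
  have hfG : IsCoprime (redP p P) (G.map c) := hΦG.of_isCoprime_of_dvd_left ⟨f', hf'⟩
  have hfR : IsCoprime (redP p P) (R.map c) := hΦR.of_isCoprime_of_dvd_left ⟨f', hf'⟩
  have key2 : finrank (ZMod p) (LinearMap.ker (aeval T (redP p P))) = n * (redP p P).natDegree := by
    refine ratAux_finrank_ker T (h := f' * G.map c) (S := f' ^ n * R.map c) (hff'.mul_right hfG) ?_ ?_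
      ((hff'.pow_right).mul_right hfR)
    · rw [← mul_assoc, ← hf', ← hGp]; exact hann
    · rw [hχ', hf', mul_pow, mul_assoc]
  have e1 : dimK p (aeval δW P) = finrank (ZMod p) (LinearMap.ker (aeval T (redP p P))) :=
    ratAux_dimK δW T hT P
  have e2 : dimK p (aeval δW (cyclotomic d ℤ)) =
      finrank (ZMod p) (LinearMap.ker (aeval T (cyclotomic d (ZMod p)))) := by
    have := ratAux_dimK δW T hT (cyclotomic d ℤ)
    rw [map_cyclotomic] at this
    exact this
  rw [e1, e2, key1, key2, natDegree_cyclotomic]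
  ring

theorem ratAux_lattice {p m : ℕ} [Fact p.Prime] (hm : 0 < m) (hpm : ¬ p ∣ m) {Λ W : Type*}
    [AddCommGroup Λ] [Module.Free ℤ Λ] [Module.Finite ℤ Λ] [AddCommGroup W] (q : Λ →+ W)
    (hq : Function.Surjective q) (hker : ∀ x, q x = 0 ↔ ∃ y, p • y = x) (δ : AddMonoid.End Λ)
    (δW : AddMonoid.End W) (hc : ∀ x, q (δ x) = δW (q x)) (hδ : δ ^ m = 1) : IsRat p m δW := by
  have hpW : ∀ w : W, p • w = 0 := by
    intro w
    obtain ⟨x, rfl⟩ := hq w
    rw [← map_nsmul]
    exact (hker _).mpr ⟨x, rfl⟩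
  letI : Module (ZMod p) W := AddCommGroup.zmodModule hpW
  exact ratAux_main hm hpm q hq hker δ δW hc hδ (AddMonoidHom.toZModLinearMap p δW) (fun _ => rfl)

end Fermat.Agent.S56.E
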