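import Fermat.Agent.S56.E.Abs.RatDefs
import Fermat.Agent.S56.E.Abs.RatLat

/-!
# S56 / E / keys `S56/E-RAT`, `S56/E-RATFG`, `S56/E-PERM` : reductions of `ℤ[δ]`-lattices are rational      (MATHLIB ONLY)

## `isRat_lattice` (E-RAT, ~400 lines)
`Λ` a free `ℤ`-module of finite rank, `δ ∈ End Λ`, `δ^m = 1`, `p ∤ m`, `q : Λ ↠ W` with kernel `pΛ`, `q δ = δ_W q`.  Then `(W, δ_W)` is rational.
PROOF.  Choose a basis: `δ` = matrix `M ∈ M_r(ℤ)`, `M^m = 1`; `W ≅ 𝔽_p^r`, `δ_W = M̄`.  `χ := charpoly M ∈ ℤ[X]` monic.  Every irreducible factor of `χ` in `ℚ[X]` (or `ℤ[X]`) divides `X^m - 1 = ∏_{e∣m} Φ_e` (minpoly ∣ `X^m-1`, and `χ ∣ minpoly^r`: `Matrix.charpoly_dvd_pow_minpoly`?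
 search `minpoly_dvd_charpoly`, `LinearMap.charpoly_dvd..`, or: every root of `χ` in `ℂ` is an eigenvalue, hence an `m`-th root of unity, and `χ` is a product of minimal polynomials of its roots = cyclotomic polynomials `cyclotomic_eq_minpoly`).  So `χ = ∏_{e ∣ m} Φ_e^{n_e}` (UFD; `Φ_e` irreducible: `cyclotomic.irreducible`).
 Mod `p`: `charpoly M̄ = ∏ Φ̄_e^{n_e}` (`Matrix.charpoly_map`).  `X^m - 1` is separable mod `p` (`separable_X_pow_sub_C`), so the `Φ̄_e` are pairwise coprime and squarefree.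
 CLAIM: for `f ∣ X^m - 1` in `𝔽_p[X]`, `X^m - 1 = f g`: `𝔽_p^r = ker f(M̄) ⊕ ker g(M̄)` (`f, g` coprime), `charpoly M̄ = charpoly(M̄|ker f) * charpoly(M̄|ker g)`, the first factor is a product of irreducible factors of `f` (its minpoly divides `f`), the second of `g`; so `dim ker f(M̄) = deg charpoly(M̄|ker f) = deg` of the `f`-part of `charpoly M̄`.
 For `f ∣ Φ̄_d`: the `f`-part of `∏ Φ̄_e^{n_e}` is `f^{n_d}` (`Φ̄_d` squarefree).  So `dim ker f(M̄) = n_d deg f`, `dim ker Φ̄_d(M̄) = n_d φ(d)`.   `#ker = p^dim`; `aeval δ_W P` = `aeval M̄ (redP p P)` because `p W = 0`.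
 ALTERNATIVE for the CLAIM (maybe shorter): over a splitting field `k'` of `X^m-1` over `𝔽_p`, `M̄` is diagonalisable; `dim ker f(M̄) = ∑_{roots μ of f} dim E_μ`, `dim E_μ = rootMultiplicity μ (charpoly)`.
## `isRatDiff_fg` (E-RATFG, ~300 lines, uses `isRat_lattice`)
`A` a finitely generated abelian group, `δ ∈ End A`, `δ^m = 1`, `δ = a •` on the torsion subgroup for some integer `a` (true if the torsion is cyclic).  `q : A ↠ W₁` with kernel `pA`; `ι : W₀ ↪ A` with image `A[p]`; compatible `δ₁`, `δ₀`.  Then `W₁ - W₀` is rational.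
PROOF.  `B = torsion`, `Λ = A/B` free of finite rank.  `0 → B/pB → A/pA → Λ/pΛ → 0` is exact (`pA ∩ B = pB` since `Λ` is torsion free), `δ`-equivariant; as `X^m-1` is separable mod `p`, `ker P(δ)` is exact on such sequences for `P̄ ∣ X^m - 1` (projector `e = (bQ)(δ)`, `aP + bQ ≡ 1`): `dimK(A/p) = dimK(B/p) + dimK(Λ/p)`.
 On `B/pB` and `B[p] = A[p]`, `P(δ) = P(a)` is a scalar: the kernel is everything or `0` according to `p ∣ P(a)`, and `#B/pB = #B[p]` (`B` finite).  So `dimK_P(B/p) = dimK_P(W₀)`.  `Λ/p` is rational by `isRat_lattice`.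
## `isRat_perm` (E-PERM, ~200 lines, uses `isRat_lattice`)
`Ω` finite, `σ` a permutation with `σ^m = 1`, `E` a set of permutations commuting with `σ`.  `W = {f : Ω → ZMod p | f ∘ e = f ∀ e ∈ E}` with `δ f = f ∘ σ`.  `Λ = {f : Ω → ℤ | same}` (a submodule of a free module over a PID: free, finite), `q` = reduction (onto: lift by `ZMod.val`; kernel: `f = p h` ⇒ `h` invariant).
-/

set_option autoImplicit false

noncomputable section

namespace Fermat.Agent.S56.E

open Polynomial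

theorem isRat_lattice {p m : ℕ} [Fact p.Prime] (hm : 0 < m) (hpm : ¬ p ∣ m) {Λ W : Type*}
    [AddCommGroup Λ] [Module.Free ℤ Λ] [Module.Finite ℤ Λ] [AddCommGroup W] (q : Λ →+ W)
    (hq : Function.Surjective q) (hker : ∀ x, q x = 0 ↔ ∃ y, p • y = x) (δ : AddMonoid.End Λ)
    (δW : AddMonoid.End W) (hc : ∀ x, q (δ x) = δW (q x)) (hδ : δ ^ m = 1) : IsRat p m δW :=
  ratAux_lattice hm hpm q hq hker δ δW hc hδ

theorem fgAux_apply {V : Type*} [AddCommGroup V] (δ : AddMonoid.End V) (P : ℤ[X]) (x : V) :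
    (aeval δ P : AddMonoid.End V) x = ∑ i ∈ Finset.range (P.natDegree + 1), P.coeff i • (δ ^ i) x := by
  rw [aeval_eq_sum_range]
  have h : ∀ (s : Finset ℕ) (g : ℕ → AddMonoid.End V), (∑ i ∈ s, g i : AddMonoid.End V) x = ∑ i ∈ s, g i x := by
    intro s g
    exact map_sum (AddMonoidHom.eval x : (V →+ V) →+ V) g s
  rw [h]
  rfl

theorem fgAux_pow_comm {V V' : Type*} [AddCommGroup V] [AddCommGroup V'] (π : V →+ V')
    (δ : AddMonoid.End V) (δ' : AddMonoid.End V') (h : ∀ x, π (δ x) = δ' (π x)) (k : ℕ) (x : V) :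
    π ((δ ^ k) x) = (δ' ^ k) (π x) := by
  induction k generalizing x with
  | zero => rfl
  | succ k ih =>
    rw [pow_succ, pow_succ]
    show π ((δ ^ k) (δ x)) = (δ' ^ k) (δ' (π x))
    rw [ih, h]

theorem fgAux_comm {V V' : Type*} [AddCommGroup V] [AddCommGroup V'] (π : V →+ V')
    (δ : AddMonoid.End V) (δ' : AddMonoid.End V') (h : ∀ x, π (δ x) = δ' (π x)) (P : ℤ[X]) (x : V) :
    π ((aeval δ P : AddMonoid.End V) x) = (aeval δ' P : AddMonoid.End V') (π x) := by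
  rw [fgAux_apply, fgAux_apply, map_sum]
  refine Finset.sum_congr rfl fun i _ => ?_
  rw [map_zsmul, fgAux_pow_comm π δ δ' h]

theorem fgAux_scalar {V : Type*} [AddCommGroup V] (δ : AddMonoid.End V) (a : ℤ) (x : V)
    (h : δ x = a • x) (P : ℤ[X]) : (aeval δ P : AddMonoid.End V) x = P.eval a • x := by
  have hpow : ∀ k : ℕ, (δ ^ k) x = a ^ k • x := by
    intro k
    induction k with
    | zero => simp
    | succ k ih =>
      rw [pow_succ]
      show (δ ^ k) (δ x) = _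
      rw [h, map_zsmul, ih, smul_smul, pow_succ']
  rw [fgAux_apply, eval_eq_sum_range, Finset.sum_smul]
  refine Finset.sum_congr rfl fun i _ => ?_
  rw [hpow, smul_smul]

theorem fgAux_kill0 {p : ℕ} {V : Type*} [AddCommGroup V] (hp : ∀ v : V, p • v = 0)
    (δ : AddMonoid.End V) (R : ℤ[X]) (hR : redP p R = 0) (x : V) :
    (aeval δ R : AddMonoid.End V) x = 0 := by
  rw [fgAux_apply]
  refine Finset.sum_eq_zero fun i _ => ?_
  have h1 : ((R.coeff i : ℤ) : ZMod p) = 0 := by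
    have := congrArg (fun f => f.coeff i) hR
    simpa [redP, coeff_map] using this
  obtain ⟨k, hk⟩ := (ZMod.intCast_zmod_eq_zero_iff_dvd _ p).1 h1
  rw [hk, mul_comm, mul_smul, natCast_zsmul, hp, smul_zero]

theorem fgAux_mul {V : Type*} [AddCommGroup V] (δ : AddMonoid.End V) (P Q : ℤ[X]) (x : V) :
    (aeval δ (P * Q) : AddMonoid.End V) x = (aeval δ P : AddMonoid.End V) ((aeval δ Q : AddMonoid.End V) x) := by
  rw [map_mul]
  rfl

theorem fgAux_kill {p m : ℕ} {V : Type*} [AddCommGroup V] (hp : ∀ v : V, p • v = 0)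
    (δ : AddMonoid.End V) (hδ : δ ^ m = 1) (R : ℤ[X]) (G : (ZMod p)[X]) (hR : redP p R = (X ^ m - 1) * G) (x : V) :
    (aeval δ R : AddMonoid.End V) x = 0 := by
  obtain ⟨G', hG'⟩ := Polynomial.map_surjective (Int.castRingHom (ZMod p)) ZMod.intCast_surjective G
  have h1 : redP p (R - (X ^ m - 1) * G') = 0 := by
    simp only [redP, Polynomial.map_sub, Polynomial.map_mul, Polynomial.map_pow, Polynomial.map_X,
      Polynomial.map_one, hG']
    rw [← hR, sub_self]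
  have h2 := fgAux_kill0 hp δ _ h1 x
  have h3 : (aeval δ ((X ^ m - 1) * G') : AddMonoid.End V) = 0 := by
    rw [map_mul, map_sub, map_pow, aeval_X, hδ, map_one, sub_self, zero_mul]
  rw [map_sub, h3, sub_zero] at h2
  exact h2


theorem fgAux_card {G H : Type*} [AddCommGroup G] [AddCommGroup H] (g : G →+ H) :
    Nat.card g.ker * Nat.card g.range = Nat.card G := by
  rw [← AddSubgroup.index_ker, AddSubgroup.card_mul_index]

/-- exactness of `ker f` -/
theorem fgAux_exact {V V'' : Type*} [AddCommGroup V] [AddCommGroup V''] (π : V →+ V'')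
    (hπ : Function.Surjective π) (f e : AddMonoid.End V) (f'' e'' : AddMonoid.End V'')
    (hf : ∀ x, π (f x) = f'' (π x)) (he : ∀ x, π (e x) = e'' (π x)) (hfe : ∀ x, f (e x) = 0)
    (hid : ∀ y, f'' y = 0 → e'' y = y) :
    Nat.card (AddMonoidHom.ker (f : V →+ V)) =
      Nat.card (AddMonoidHom.ker (f'' : V'' →+ V'')) *
        Nat.card ↥(AddMonoidHom.ker (f : V →+ V) ⊓ π.ker) := by
  have h := fgAux_card (π.comp (AddMonoidHom.ker (f : V →+ V)).subtype)
  have h1 : (π.comp (AddMonoidHom.ker (f : V →+ V)).subtype).range = AddMonoidHom.ker (f'' : V'' →+ V'') := by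
    ext y
    constructor
    · rintro ⟨x, rfl⟩
      show f'' (π x.1) = 0
      rw [← hf, show f x.1 = 0 from x.2, map_zero]
    · intro hy
      obtain ⟨x, rfl⟩ := hπ y
      refine ⟨⟨e x, hfe x⟩, ?_⟩
      show π (e x) = π x
      rw [he, hid _ hy]
  have h2 : Nat.card (π.comp (AddMonoidHom.ker (f : V →+ V)).subtype).ker =
      Nat.card ↥(AddMonoidHom.ker (f : V →+ V) ⊓ π.ker) :=
    Nat.card_congr ⟨fun k => ⟨k.1.1, k.1.2, k.2⟩, fun v => ⟨⟨v.1, v.2.1⟩, v.2.2⟩, fun _ => rfl, fun _ => rfl⟩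
  rw [h1, h2] at h
  rw [← h, mul_comm]

/-- the scalar part -/
theorem fgAux_scalar_ker {p : ℕ} [Fact p.Prime] {V : Type*} [AddCommGroup V] (hp : ∀ v : V, p • v = 0)
    (δ : AddMonoid.End V) (a : ℤ) (U : AddSubgroup V) (h : ∀ u ∈ U, δ u = a • u) (P : ℤ[X]) :
    AddMonoidHom.ker ((aeval δ P : AddMonoid.End V) : V →+ V) ⊓ U =
      if (p : ℤ) ∣ P.eval a then U else ⊥ := by
  split_ifs with hd
  · apply le_antisymm inf_le_right
    intro u hu
    refine ⟨?_, hu⟩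
    show (aeval δ P : AddMonoid.End V) u = 0
    obtain ⟨k, hk⟩ := hd
    rw [fgAux_scalar δ a u (h u hu), hk, mul_comm, mul_smul, natCast_zsmul, hp, smul_zero]
  · rw [eq_bot_iff]
    rintro u ⟨hu0, hu⟩
    have h0 : (aeval δ P : AddMonoid.End V) u = 0 := hu0
    rw [fgAux_scalar δ a u (h u hu)] at h0
    obtain ⟨s, t, hst⟩ := (Prime.coprime_iff_not_dvd (Nat.prime_iff_prime_int.1 (Fact.out : p.Prime))).2 hd
    show u = 0
    have h1 : (s * (p : ℤ) + t * P.eval a) • u = 0 := by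
      rw [add_smul, mul_smul, mul_smul, h0, natCast_zsmul, hp, smul_zero, smul_zero, add_zero]
    rwa [hst, one_smul] at h1


/-- `#(B + pA)/pA = #A[p]` -/
theorem fgAux_card_tors {p : ℕ} (hp0 : 0 < p) {A W₁ W₀ : Type*}
    [AddCommGroup A] [AddCommGroup W₁] [AddCommGroup W₀] (q : A →+ W₁)
    (hker : ∀ x, q x = 0 ↔ ∃ y, p • y = x) (ι : W₀ →+ A)
    (hι : Function.Injective ι) (hrange : ∀ x, p • x = 0 ↔ ∃ y, ι y = x)
    (T : AddSubgroup A) [Finite T] (hT : ∀ x, x ∈ T ↔ ∃ n : ℕ, 0 < n ∧ n • x = 0) :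
    Nat.card (T.map q) = Nat.card W₀ := by
  have h1 := fgAux_card (q.comp T.subtype)
  have h2 := fgAux_card (nsmulAddMonoidHom p : T →+ T)
  have e1 : (q.comp T.subtype).range = T.map q := by
    ext y
    constructor
    · rintro ⟨x, rfl⟩
      exact ⟨x.1, x.2, rfl⟩
    · rintro ⟨x, hx, rfl⟩
      exact ⟨⟨x, hx⟩, rfl⟩
  have e2 : (q.comp T.subtype).ker = (nsmulAddMonoidHom p : T →+ T).range := by
    ext t
    constructor
    · intro ht
      obtain ⟨y, hy⟩ := (hker t.1).1 ht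
      obtain ⟨n, hn, hnt⟩ := (hT t.1).1 t.2
      have hyT : y ∈ T := (hT y).2 ⟨n * p, Nat.mul_pos hn hp0, by rw [mul_smul, hy, hnt]⟩
      exact ⟨⟨y, hyT⟩, Subtype.ext hy⟩
    · rintro ⟨s, rfl⟩
      exact (hker _).2 ⟨s.1, rfl⟩
  have e3 : Nat.card (nsmulAddMonoidHom p : T →+ T).ker = Nat.card W₀ := by
    symm
    have hmem : ∀ w : W₀, ι w ∈ T := fun w => (hT _).2 ⟨p, hp0, (hrange _).2 ⟨w, rfl⟩⟩
    refine Nat.card_congr (Equiv.ofBijective
      (fun w => (⟨⟨ι w, hmem w⟩, Subtype.ext ((hrange _).2 ⟨w, rfl⟩)⟩ : (nsmulAddMonoidHom p : T →+ T).ker)) ⟨?_, ?_⟩)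
    · intro w w' h
      exact hι (congrArg (fun z => z.1.1) h)
    · intro t
      have ht : p • t.1.1 = 0 := congrArg Subtype.val t.2
      obtain ⟨w, hw⟩ := (hrange _).1 ht
      exact ⟨w, Subtype.ext (Subtype.ext hw)⟩
  rw [e1, e2] at h1
  rw [e3, ← h1, mul_comm] at h2
  exact (Nat.eq_of_mul_eq_mul_left Finite.card_pos h2).symm


theorem fgAux_claim {p m : ℕ} [Fact p.Prime] (hpm : ¬ p ∣ m) {W₁ W₀ WL : Type*}
    [AddCommGroup W₁] [AddCommGroup W₀] [AddCommGroup WL] [Finite W₁]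
    (hp1 : ∀ w : W₁, p • w = 0) (hp0 : ∀ w : W₀, p • w = 0)
    (π : W₁ →+ WL) (hπ : Function.Surjective π) (δ₁ : AddMonoid.End W₁) (δ₀ : AddMonoid.End W₀)
    (δL : AddMonoid.End WL) (hc : ∀ x, π (δ₁ x) = δL (π x)) (hδ₁ : δ₁ ^ m = 1)
    (a : ℤ) (ha1 : ∀ u ∈ π.ker, δ₁ u = a • u) (ha0 : ∀ w : W₀, δ₀ w = a • w)
    (hcard : Nat.card π.ker = Nat.card W₀) (P : ℤ[X]) (hP : redP p P ∣ X ^ m - 1) :
    dimK p (aeval δ₁ P) = dimK p (aeval δL P) + dimK p (aeval δ₀ P) := by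
  have hpL : ∀ w : WL, p • w = 0 := by
    intro w
    obtain ⟨x, rfl⟩ := hπ w
    rw [← map_nsmul, hp1, map_zero]
  obtain ⟨Sb, hS⟩ := hP
  have hsep : (X ^ m - C (1 : ZMod p)).Separable :=
    separable_X_pow_sub_C 1 (by rwa [Ne, ZMod.natCast_eq_zero_iff]) one_ne_zero
  rw [C_1, hS] at hsep
  obtain ⟨ab, bb, hab⟩ := hsep.isCoprime
  obtain ⟨S, rfl⟩ := Polynomial.map_surjective (Int.castRingHom (ZMod p)) ZMod.intCast_surjective Sb
  obtain ⟨a', rfl⟩ := Polynomial.map_surjective (Int.castRingHom (ZMod p)) ZMod.intCast_surjective ab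
  obtain ⟨b, rfl⟩ := Polynomial.map_surjective (Int.castRingHom (ZMod p)) ZMod.intCast_surjective bb
  have key := fgAux_exact π hπ (aeval δ₁ P) (aeval δ₁ (b * S)) (aeval δL P) (aeval δL (b * S))
    (fgAux_comm π δ₁ δL hc P) (fgAux_comm π δ₁ δL hc (b * S))
    (fun x => by
      rw [← fgAux_mul]
      refine fgAux_kill hp1 δ₁ hδ₁ _ (b.map (Int.castRingHom (ZMod p))) ?_ x
      rw [hS]
      simp only [redP, Polynomial.map_mul]
      ring)
    (fun y hy => by
      have h1 := fgAux_kill0 hpL δL (a' * P + b * S - 1) (by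
        simp only [redP, Polynomial.map_sub, Polynomial.map_add, Polynomial.map_mul, Polynomial.map_one]
        rw [sub_eq_zero]
        exact hab) y
      rw [map_sub, map_add, map_one] at h1
      have h2 : (aeval δL (a' * P) : AddMonoid.End WL) y + (aeval δL (b * S) : AddMonoid.End WL) y - y = 0 := h1
      rw [fgAux_mul δL a' P, hy, map_zero, zero_add, sub_eq_zero] at h2
      exact h2)
  have hsc : Nat.card ↥(AddMonoidHom.ker ((aeval δ₁ P : AddMonoid.End W₁) : W₁ →+ W₁) ⊓ π.ker) =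
      Nat.card (AddMonoidHom.ker ((aeval δ₀ P : AddMonoid.End W₀) : W₀ →+ W₀)) := by
    have h1 := fgAux_scalar_ker hp1 δ₁ a π.ker ha1 P
    have h0 := fgAux_scalar_ker hp0 δ₀ a ⊤ (fun u _ => ha0 u) P
    rw [inf_top_eq] at h0
    rw [h1, h0]
    split_ifs
    · rw [hcard, AddSubgroup.card_top]
    · rw [AddSubgroup.card_bot, AddSubgroup.card_bot]
  have hfinL : Finite WL := Finite.of_surjective π hπ
  unfold dimK
  rw [key, ← hsc, padicValNat.mul Finite.card_pos.ne' Finite.card_pos.ne']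


theorem fgAux_mem_torsion {A : Type*} [AddCommGroup A] (x : A) :
    x ∈ (Submodule.torsion ℤ A).toAddSubgroup ↔ ∃ n : ℕ, 0 < n ∧ n • x = 0 := by
  show x ∈ Submodule.torsion ℤ A ↔ _
  rw [Submodule.mem_torsion_iff]
  constructor
  · rintro ⟨c, hc⟩
    have hc0 : (c : ℤ) ≠ 0 := nonZeroDivisors.ne_zero c.2
    have hc' : (c : ℤ) • x = 0 := hc
    refine ⟨(c : ℤ).natAbs, Int.natAbs_pos.2 hc0, ?_⟩
    rcases Int.natAbs_eq (c : ℤ) with h | h
    · rw [h, natCast_zsmul] at hc'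
      exact hc'
    · rw [h, neg_smul, neg_eq_zero, natCast_zsmul] at hc'
      exact hc'
  · rintro ⟨n, hn, h⟩
    refine ⟨⟨(n : ℤ), mem_nonZeroDivisors_of_ne_zero (by exact_mod_cast hn.ne')⟩, ?_⟩
    show (n : ℤ) • x = 0
    rw [natCast_zsmul, h]

theorem isRatDiff_fg {p m : ℕ} [Fact p.Prime] (hm : 0 < m) (hpm : ¬ p ∣ m) {A W₁ W₀ : Type*}
    [AddCommGroup A] [Module.Finite ℤ A] [AddCommGroup W₁] [AddCommGroup W₀] (q : A →+ W₁)
    (hq : Function.Surjective q) (hker : ∀ x, q x = 0 ↔ ∃ y, p • y = x) (ι : W₀ →+ A)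
    (hι : Function.Injective ι) (hrange : ∀ x, p • x = 0 ↔ ∃ y, ι y = x) (δ : AddMonoid.End A)
    (δ₁ : AddMonoid.End W₁) (δ₀ : AddMonoid.End W₀) (hc₁ : ∀ x, q (δ x) = δ₁ (q x))
    (hc₀ : ∀ y, δ (ι y) = ι (δ₀ y)) (hδ : δ ^ m = 1)
    (htors : ∃ a : ℤ, ∀ x : A, (∃ n : ℕ, 0 < n ∧ n • x = 0) → δ x = a • x) :
    IsRatDiff p m δ₁ δ₀ := by
  obtain ⟨a, ha⟩ := htors
  have hp0 : 0 < p := (Fact.out : p.Prime).pos
  have hT := fgAux_mem_torsion (A := A)
  have hfinT : Finite (Submodule.torsion ℤ A).toAddSubgroup :=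
    Module.finite_of_fg_torsion (Submodule.torsion ℤ A) (Submodule.torsion_isTorsion)
  have hfree : Module.Free ℤ (A ⧸ (Submodule.torsion ℤ A).toAddSubgroup) := by
    have : Module.Free ℤ (A ⧸ Submodule.torsion ℤ A) := inferInstance
    exact this
  have hfin : Module.Finite ℤ (A ⧸ (Submodule.torsion ℤ A).toAddSubgroup) := by
    have : Module.Finite ℤ (A ⧸ Submodule.torsion ℤ A) := inferInstance
    exact this
  generalize (Submodule.torsion ℤ A).toAddSubgroup = T at hT hfinT hfree hfin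
  have hδT : T ≤ T.comap δ := by
    intro x hx
    obtain ⟨n, hn, h⟩ := (hT x).1 hx
    exact (hT _).2 ⟨n, hn, by rw [← map_nsmul, h, map_zero]⟩
  have hδV : T.map q ≤ (T.map q).comap δ₁ := by
    rintro _ ⟨x, hx, rfl⟩
    exact ⟨δ x, hδT hx, hc₁ x⟩
  have hp1 : ∀ w : W₁, p • w = 0 := by
    intro w
    obtain ⟨x, rfl⟩ := hq w
    rw [← map_nsmul]
    exact (hker _).2 ⟨x, rfl⟩
  have hpW0 : ∀ w : W₀, p • w = 0 := by
    intro w
    apply hι
    rw [map_nsmul, map_zero]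
    exact (hrange _).2 ⟨w, rfl⟩
  have hfinW : Finite W₁ := by
    have h1 : Module.Finite ℤ W₁ := Module.Finite.of_surjective q.toIntLinearMap hq
    refine Module.finite_of_fg_torsion W₁ ?_
    intro w
    exact ⟨⟨(p : ℤ), mem_nonZeroDivisors_of_ne_zero (by exact_mod_cast hp0.ne')⟩, by
      show (p : ℤ) • w = 0
      rw [natCast_zsmul, hp1]⟩
  have hδ₁ : δ₁ ^ m = 1 := by
    ext w
    obtain ⟨x, rfl⟩ := hq w
    rw [← fgAux_pow_comm q δ δ₁ hc₁, hδ]
    rfl
  -- the lattice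
  obtain ⟨δL, hδL⟩ : ∃ δL : AddMonoid.End (W₁ ⧸ T.map q), ∀ w : W₁,
      δL (QuotientAddGroup.mk' (T.map q) w) = QuotientAddGroup.mk' (T.map q) (δ₁ w) :=
    ⟨QuotientAddGroup.map (T.map q) (T.map q) δ₁ hδV, fun _ => rfl⟩
  obtain ⟨δΛ, hδΛ⟩ : ∃ δΛ : AddMonoid.End (A ⧸ T), ∀ x : A,
      δΛ (QuotientAddGroup.mk' T x) = QuotientAddGroup.mk' T (δ x) :=
    ⟨QuotientAddGroup.map T T δ hδT, fun _ => rfl⟩
  obtain ⟨qΛ, hqΛ⟩ : ∃ qΛ : A ⧸ T →+ W₁ ⧸ T.map q, ∀ x : A,
      qΛ (QuotientAddGroup.mk' T x) = QuotientAddGroup.mk' (T.map q) (q x) :=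
    ⟨QuotientAddGroup.map T (T.map q) q (AddSubgroup.le_comap_map q T), fun _ => rfl⟩
  have hrat : IsRat p m δL := by
    refine isRat_lattice hm hpm qΛ ?_ ?_ δΛ δL ?_ ?_
    · intro y
      obtain ⟨w, rfl⟩ := QuotientAddGroup.mk'_surjective _ y
      obtain ⟨x, rfl⟩ := hq w
      exact ⟨QuotientAddGroup.mk' T x, hqΛ x⟩
    · intro y
      obtain ⟨x, rfl⟩ := QuotientAddGroup.mk'_surjective _ y
      rw [hqΛ]
      constructor
      · intro h0
        obtain ⟨t, ht, htx⟩ := (QuotientAddGroup.eq_zero_iff _).1 h0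
        have h1 : q (x - t) = 0 := by rw [map_sub, htx, sub_self]
        obtain ⟨y, hy⟩ := (hker _).1 h1
        refine ⟨QuotientAddGroup.mk' T y, ?_⟩
        rw [← map_nsmul, hy, map_sub, sub_eq_self]
        exact (QuotientAddGroup.eq_zero_iff _).2 ht
      · rintro ⟨y, hy⟩
        obtain ⟨z, rfl⟩ := QuotientAddGroup.mk'_surjective _ y
        rw [← map_nsmul, ← sub_eq_zero, ← map_sub] at hy
        have hy' : p • z - x ∈ T := (QuotientAddGroup.eq_zero_iff _).1 hy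
        refine (QuotientAddGroup.eq_zero_iff _).2 ⟨-(p • z - x), T.neg_mem hy', ?_⟩
        rw [map_neg, map_sub, (hker (p • z)).2 ⟨z, rfl⟩, zero_sub, neg_neg]
    · intro y
      obtain ⟨x, rfl⟩ := QuotientAddGroup.mk'_surjective _ y
      rw [hδΛ, hqΛ, hqΛ, hδL, hc₁]
    · ext y
      obtain ⟨x, rfl⟩ := QuotientAddGroup.mk'_surjective _ y
      have := fgAux_pow_comm (QuotientAddGroup.mk' T) δ δΛ (fun x => (hδΛ x).symm) m x
      rw [hδ] at this
      exact this.symm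
  have hkerπ : (QuotientAddGroup.mk' (T.map q)).ker = T.map q := QuotientAddGroup.ker_mk' _
  have claim : ∀ P : ℤ[X], redP p P ∣ X ^ m - 1 →
      dimK p (aeval δ₁ P) = dimK p (aeval δL P) + dimK p (aeval δ₀ P) := by
    intro P hP
    refine fgAux_claim hpm hp1 hpW0 (QuotientAddGroup.mk' (T.map q)) (QuotientAddGroup.mk'_surjective _) δ₁ δ₀ δL
      (fun x => (hδL x).symm) hδ₁ a ?_ ?_ ?_ P hP
    · rw [hkerπ]
      rintro _ ⟨x, hx, rfl⟩
      rw [← hc₁, ha x ((hT x).1 hx), map_zsmul]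
    · intro w
      apply hι
      rw [← hc₀, map_zsmul]
      exact ha _ ⟨p, hp0, (hrange _).2 ⟨w, rfl⟩⟩
    · rw [hkerπ]
      exact fgAux_card_tors hp0 q hker ι hι hrange T hT
  intro d hd P hP
  have hcyc : cyclotomic d (ZMod p) ∣ X ^ m - 1 := by
    rw [← prod_cyclotomic_eq_X_pow_sub_one hm]
    exact Finset.dvd_prod_of_mem _ (Nat.mem_divisors.2 ⟨hd, hm.ne'⟩)
  have c1 := claim P (hP.trans hcyc)
  have c2 := claim (cyclotomic d ℤ) (by rw [redP, map_cyclotomic]; exact hcyc)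
  have c3 := hrat d hd P hP
  rw [c1, c2, mul_add, mul_add, c3]
  ring

/-- invariant functions -/
def invFun (Ω : Type*) (R : Type*) [AddCommGroup R] (E : Set (Equiv.Perm Ω)) :
    AddSubgroup (Ω → R) where
  carrier := {f | ∀ e ∈ E, ∀ x, f (e x) = f x}
  add_mem' := fun ha hb e he x => by simp only [Pi.add_apply, ha e he x, hb e he x]
  zero_mem' := fun _ _ _ => rfl
  neg_mem' := fun ha e he x => by simp only [Pi.neg_apply, ha e he x]

/-- `f ↦ f ∘ σ` on invariant functions -/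
def invShift {Ω : Type*} (R : Type*) [AddCommGroup R] (E : Set (Equiv.Perm Ω)) (σ : Equiv.Perm Ω)
    (hσ : ∀ e ∈ E, ∀ x, σ (e x) = e (σ x)) : AddMonoid.End (invFun Ω R E) where
  toFun f := ⟨fun x => f.1 (σ x), fun e he x => by
    show f.1 (σ (e x)) = f.1 (σ x)
    rw [hσ e he x]; exact f.2 e he _⟩
  map_zero' := rfl
  map_add' _ _ := rfl

theorem permAux_pow {Ω : Type*} (R : Type*) [AddCommGroup R] (E : Set (Equiv.Perm Ω)) (σ : Equiv.Perm Ω)
    (hσ : ∀ e ∈ E, ∀ x, σ (e x) = e (σ x)) (k : ℕ) (f : invFun Ω R E) (x : Ω) :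
    ((invShift R E σ hσ ^ k) f).1 x = f.1 ((σ ^ k) x) := by
  induction k generalizing f x with
  | zero => rfl
  | succ k ih =>
    rw [pow_succ]
    show ((invShift R E σ hσ ^ k) (invShift R E σ hσ f)).1 x = _
    rw [ih, pow_succ', Equiv.Perm.mul_apply]
    rfl

instance permAux_finite {Ω : Type*} [Finite Ω] (E : Set (Equiv.Perm Ω)) :
    Module.Finite ℤ (invFun Ω ℤ E) := by
  have : Module.Finite ℤ (AddSubgroup.toIntSubmodule (invFun Ω ℤ E)) := inferInstance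
  exact this

instance permAux_free {Ω : Type*} [Finite Ω] (E : Set (Equiv.Perm Ω)) :
    Module.Free ℤ (invFun Ω ℤ E) := by
  have : Module.Free ℤ (AddSubgroup.toIntSubmodule (invFun Ω ℤ E)) := inferInstance
  exact this

theorem isRat_perm {p m : ℕ} [Fact p.Prime] (hm : 0 < m) (hpm : ¬ p ∣ m) {Ω : Type*} [Finite Ω]
    (E : Set (Equiv.Perm Ω)) (σ : Equiv.Perm Ω) (hσ : ∀ e ∈ E, ∀ x, σ (e x) = e (σ x))
    (hσm : σ ^ m = 1) : IsRat p m (invShift (ZMod p) E σ hσ) := by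
  let q : invFun Ω ℤ E →+ invFun Ω (ZMod p) E :=
    { toFun := fun f => ⟨fun x => ((f.1 x : ℤ) : ZMod p), fun e he x => by
        show ((f.1 (e x) : ℤ) : ZMod p) = _
        rw [f.2 e he x]⟩
      map_zero' := by
        apply Subtype.ext
        funext x
        show (((0 : Ω → ℤ) x : ℤ) : ZMod p) = 0
        simp
      map_add' := fun f g => by
        apply Subtype.ext
        funext x
        show (((f.1 + g.1) x : ℤ) : ZMod p) = ((f.1 x : ℤ) : ZMod p) + ((g.1 x : ℤ) : ZMod p)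
        simp }
  refine isRat_lattice hm hpm q ?_ ?_ (invShift ℤ E σ hσ) _ ?_ ?_
  · intro g
    refine ⟨⟨fun x => ((g.1 x).val : ℤ), fun e he x => by
      show (((g.1 (e x)).val : ℕ) : ℤ) = _
      rw [g.2 e he x]⟩, ?_⟩
    apply Subtype.ext
    funext x
    show ((((g.1 x).val : ℕ) : ℤ) : ZMod p) = g.1 x
    simp
  · intro f
    constructor
    · intro h0
      have h1 : ∀ x, (p : ℤ) ∣ f.1 x := by
        intro x
        rw [← ZMod.intCast_zmod_eq_zero_iff_dvd]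
        exact congrFun (congrArg Subtype.val h0) x
      refine ⟨⟨fun x => f.1 x / p, fun e he x => by
        show f.1 (e x) / (p : ℤ) = _
        rw [f.2 e he x]⟩, ?_⟩
      apply Subtype.ext
      funext x
      show p • (f.1 x / (p : ℤ)) = f.1 x
      rw [nsmul_eq_mul]
      exact Int.mul_ediv_cancel' (h1 x)
    · rintro ⟨h, rfl⟩
      apply Subtype.ext
      funext x
      show (((p • h.1 x : ℤ)) : ZMod p) = 0
      simp
  · intro f
    rfl
  · ext f x
    rw [permAux_pow, hσm]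
    rfl

end Fermat.Agent.S56.E
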