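import Mathlib

set_option autoImplicit false

namespace Fermat.Agent.S56.E

open Representation Module

section Aux

variable {G : Type} [Group G] [Fintype G]
variable {U : Type} [AddCommGroup U] [Module ℚ U]

/-- restriction of a representation to a stable submodule -/
noncomputable def repAuxSub (τ : Representation ℚ G U) (N : Submodule ℚ U)
    (hN : ∀ g, ∀ x ∈ N, τ g x ∈ N) : Representation ℚ G N where
  toFun g := (τ g).restrict (hN g)
  map_one' := by
    ext x
    simp
  map_mul' g h := by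
    ext x
    simp

theorem repAuxSub_apply (τ : Representation ℚ G U) (N : Submodule ℚ U)
    (hN : ∀ g, ∀ x ∈ N, τ g x ∈ N) (g : G) (x : N) :
    ((repAuxSub τ N hN g x : N) : U) = τ g x := rfl

/-- Maschke by hand: an equivariant projection onto a stable submodule -/
theorem repAux_maschke (τ : Representation ℚ G U) (N : Submodule ℚ U)
    (hN : ∀ g, ∀ x ∈ N, τ g x ∈ N) :
    ∃ P : U →ₗ[ℚ] U, (∀ u, P u ∈ N) ∧ (∀ x ∈ N, P x = x) ∧ ∀ g u, P (τ g u) = τ g (P u) := by
  classical
  obtain ⟨π0, hπ0⟩ := LinearMap.exists_leftInverse_of_injective N.subtype (by simp)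
  have hπ : ∀ x : N, π0 x = x := fun x => LinearMap.congr_fun hπ0 x
  have hc : (Fintype.card G : ℚ) ≠ 0 := by
    exact_mod_cast Fintype.card_ne_zero
  refine ⟨(Fintype.card G : ℚ)⁻¹ • ∑ g : G, τ g ∘ₗ N.subtype ∘ₗ π0 ∘ₗ τ g⁻¹, ?_, ?_, ?_⟩
  · intro u
    rw [LinearMap.smul_apply, LinearMap.sum_apply]
    refine N.smul_mem _ (N.sum_mem fun g _ => ?_)
    exact hN g _ (π0 (τ g⁻¹ u)).2
  · intro x hx
    rw [LinearMap.smul_apply, LinearMap.sum_apply]
    have : ∀ g : G, (τ g ∘ₗ N.subtype ∘ₗ π0 ∘ₗ τ g⁻¹) x = x := by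
      intro g
      have h1 : π0 (τ g⁻¹ x) = ⟨τ g⁻¹ x, hN _ x hx⟩ := hπ ⟨τ g⁻¹ x, hN _ x hx⟩
      simp only [LinearMap.comp_apply, h1, Submodule.subtype_apply]
      rw [← Module.End.mul_apply, ← map_mul, mul_inv_cancel, map_one, Module.End.one_apply]
    rw [Finset.sum_congr rfl fun g _ => this g, Finset.sum_const, Finset.card_univ, ← Nat.cast_smul_eq_nsmul ℚ,
      smul_smul, inv_mul_cancel₀ hc, one_smul]
  · intro h u
    rw [LinearMap.smul_apply, LinearMap.smul_apply, LinearMap.sum_apply, LinearMap.sum_apply, map_smul, map_sum]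
    congr 1
    refine Fintype.sum_equiv (Equiv.mulLeft h⁻¹) _ _ fun g => ?_
    simp only [LinearMap.comp_apply, Equiv.coe_mulLeft, Submodule.subtype_apply]
    have h1 : τ (h⁻¹ * g)⁻¹ u = τ g⁻¹ (τ h u) := by
      rw [← Module.End.mul_apply, ← map_mul]
      congr 2
      group
    rw [h1, ← Module.End.mul_apply (τ h), ← map_mul]
    congr 2
    group

/-- the character of a stable submodule through an equivariant projection -/
theorem repAux_char_sub [FiniteDimensional ℚ U] (τ : Representation ℚ G U) (N : Submodule ℚ U)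
    (hN : ∀ g, ∀ x ∈ N, τ g x ∈ N) (P : U →ₗ[ℚ] U) (h1 : ∀ u, P u ∈ N) (h2 : ∀ x ∈ N, P x = x) (g : G) :
    (repAuxSub τ N hN).character g = LinearMap.trace ℚ U (τ g ∘ₗ P) := by
  have h3 : repAuxSub τ N hN g = (P.codRestrict N h1) ∘ₗ (τ g ∘ₗ N.subtype) := by
    ext x
    simp only [LinearMap.comp_apply, LinearMap.codRestrict_apply, Submodule.subtype_apply]
    rw [h2 _ (hN g x x.2)]
    rfl
  have h4 : (τ g ∘ₗ N.subtype) ∘ₗ (P.codRestrict N h1) = τ g ∘ₗ P := by
    ext u
    simp
  unfold Representation.character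
  rw [h3, LinearMap.trace_comp_comm', h4]

end Aux

section Main

variable {G : Type} [Group G] [Fintype G]

theorem repAux_exists_ne_zero {W V : Type} [AddCommGroup W] [Module ℚ W] [FiniteDimensional ℚ W]
    [AddCommGroup V] [Module ℚ V] [FiniteDimensional ℚ V] [Nontrivial W]
    (ρ : Representation ℚ G W) (σ : Representation ℚ G V)
    (hχ : ∀ g, ρ.character g = σ.character g) :
    ∃ f : W →ₗ[ℚ] V, f ≠ 0 ∧ ∀ g w, f (ρ g w) = σ g (f w) := by
  have hc : (Nat.card G : ℚ) ≠ 0 := by
    exact_mod_cast Nat.card_pos.ne'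
  letI : Invertible (Nat.card G : ℚ) := invertibleOfNonzero hc
  have h1 := card_inv_mul_sum_char_mul_char_eq_finrank ρ σ
  have h2 := card_inv_mul_sum_char_mul_char_eq_finrank ρ ρ
  have h3 : finrank ℚ (IntertwiningMap ρ σ) = finrank ℚ (IntertwiningMap ρ ρ) := by
    have : (finrank ℚ (IntertwiningMap ρ σ) : ℚ) = finrank ℚ (IntertwiningMap ρ ρ) := by
      rw [← h1, ← h2]
      congr 1
      refine Finset.sum_congr rfl fun g _ => ?_
      rw [hχ g]
    exact_mod_cast this
  haveI : FiniteDimensional ℚ (IntertwiningMap ρ ρ) :=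
    (invariantsEquivIntertwiningMap ρ ρ).finiteDimensional
  have h4 : 0 < finrank ℚ (IntertwiningMap ρ ρ) := by
    rw [Module.finrank_pos_iff_exists_ne_zero]
    refine ⟨IntertwiningMap.id ρ, ?_⟩
    intro h
    obtain ⟨w, hw⟩ := exists_ne (0 : W)
    apply hw
    have := congrArg (fun F : IntertwiningMap ρ ρ => F.toLinearMap w) h
    simpa using this
  rw [← h3] at h4
  haveI := Module.nontrivial_of_finrank_pos h4
  obtain ⟨F, hF⟩ := exists_ne (0 : IntertwiningMap ρ σ)
  refine ⟨F.toLinearMap, ?_, ?_⟩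
  · intro h
    apply hF
    ext w
    have := LinearMap.congr_fun h w
    simpa using this
  · intro g w
    exact LinearMap.congr_fun (F.isIntertwining' g) w

theorem repAux_exists_injective (n : ℕ) :
    ∀ (W V : Type) [AddCommGroup W] [Module ℚ W] [FiniteDimensional ℚ W]
      [AddCommGroup V] [Module ℚ V] [FiniteDimensional ℚ V]
      (ρ : Representation ℚ G W) (σ : Representation ℚ G V), finrank ℚ W = n →
      (∀ g, ρ.character g = σ.character g) →
      ∃ f : W →ₗ[ℚ] V, (∀ g w, f (ρ g w) = σ g (f w)) ∧ Function.Injective f := by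
  induction n using Nat.strong_induction_on with
  | _ n ih =>
    intro W V _ _ _ _ _ _ ρ σ hn hχ
    by_cases hW : Subsingleton W
    · exact ⟨0, fun g w => by simp, fun a b _ => Subsingleton.elim a b⟩
    rw [not_subsingleton_iff_nontrivial] at hW
    obtain ⟨f, hf0, hf⟩ := repAux_exists_ne_zero ρ σ hχ
    -- the kernel and the range
    have hK : ∀ g, ∀ x ∈ LinearMap.ker f, ρ g x ∈ LinearMap.ker f := by
      intro g x hx
      rw [LinearMap.mem_ker] at hx ⊢
      rw [hf, hx, map_zero]
    have hR : ∀ g, ∀ x ∈ LinearMap.range f, σ g x ∈ LinearMap.range f := by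
      rintro g _ ⟨w, rfl⟩
      exact ⟨ρ g w, hf g w⟩
    obtain ⟨p, hp1, hp2, hp3⟩ := repAux_maschke ρ (LinearMap.ker f) hK
    obtain ⟨p', hp1', hp2', hp3'⟩ := repAux_maschke σ (LinearMap.range f) hR
    have hC : ∀ g, ∀ x ∈ LinearMap.ker p', σ g x ∈ LinearMap.ker p' := by
      intro g x hx
      rw [LinearMap.mem_ker] at hx ⊢
      rw [hp3', hx, map_zero]
    -- generalized inverse
    obtain ⟨t, ht⟩ := LinearMap.exists_rightInverse_of_surjective f.rangeRestrict
      (LinearMap.range_rangeRestrict f)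
    have ht' : ∀ y : LinearMap.range f, f (t y) = y := by
      intro y
      have := LinearMap.congr_fun ht y
      exact congrArg Subtype.val this
    have hfp : ∀ w, f (p w) = 0 := fun w => hp1 w
    obtain ⟨s, hsdef⟩ : ∃ s : V →ₗ[ℚ] W,
        s = (LinearMap.id - p) ∘ₗ t ∘ₗ (p'.codRestrict (LinearMap.range f) hp1') := ⟨_, rfl⟩
    have hs1 : f ∘ₗ s = p' := by
      ext v
      simp only [hsdef, LinearMap.comp_apply, LinearMap.sub_apply, LinearMap.id_apply, map_sub, hfp, sub_zero,
        ht', LinearMap.codRestrict_apply]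
    have hs2 : s ∘ₗ f = LinearMap.id - p := by
      ext w
      simp only [hsdef, LinearMap.comp_apply, LinearMap.sub_apply, LinearMap.id_apply]
      set w1 := t (p'.codRestrict (LinearMap.range f) hp1' (f w)) with hw1
      have h1 : f w1 = f w := by
        rw [hw1, ht', LinearMap.codRestrict_apply, hp2' _ ⟨w, rfl⟩]
      have h2 : w1 - w ∈ LinearMap.ker f := by
        rw [LinearMap.mem_ker, map_sub, h1, sub_self]
      have h3 := hp2 _ h2
      rw [map_sub] at h3
      rw [sub_eq_sub_iff_sub_eq_sub]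
      exact h3.symm
    -- characters
    have hq1 : ∀ u, ((LinearMap.id : V →ₗ[ℚ] V) - p') u ∈ LinearMap.ker p' := by
      intro u
      rw [LinearMap.mem_ker, LinearMap.sub_apply, LinearMap.id_apply, map_sub, hp2' _ (hp1' u), sub_self]
    have hq2 : ∀ x ∈ LinearMap.ker p', ((LinearMap.id : V →ₗ[ℚ] V) - p') x = x := by
      intro x hx
      rw [LinearMap.mem_ker] at hx
      rw [LinearMap.sub_apply, LinearMap.id_apply, hx, sub_zero]
    have hχ' : ∀ g, (repAuxSub ρ (LinearMap.ker f) hK).character g =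
        (repAuxSub σ (LinearMap.ker p') hC).character g := by
      intro g
      rw [repAux_char_sub ρ _ hK p hp1 hp2, repAux_char_sub σ _ hC _ hq1 hq2]
      have e1 : ρ g ∘ₗ p = ρ g - (ρ g ∘ₗ s) ∘ₗ f := by
        rw [LinearMap.comp_assoc, hs2, LinearMap.comp_sub, LinearMap.comp_id, sub_sub_cancel]
      have e2 : σ g ∘ₗ (LinearMap.id - p') = σ g - f ∘ₗ (ρ g ∘ₗ s) := by
        have hfg : σ g ∘ₗ f = f ∘ₗ ρ g := by
          ext w
          exact (hf g w).symm
        rw [LinearMap.comp_sub, LinearMap.comp_id, ← hs1, ← LinearMap.comp_assoc, hfg, LinearMap.comp_assoc]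
      rw [e1, e2, map_sub, map_sub, LinearMap.trace_comp_comm']
      congr 1
      exact hχ g
    have hlt : finrank ℚ (LinearMap.ker f) < n := by
      rw [← hn]
      apply Submodule.finrank_lt
      intro h
      exact hf0 (LinearMap.ker_eq_top.1 h)
    obtain ⟨u, hu1, hu2⟩ := ih _ hlt (LinearMap.ker f) (LinearMap.ker p')
      (repAuxSub ρ (LinearMap.ker f) hK) (repAuxSub σ (LinearMap.ker p') hC) rfl hχ'
    refine ⟨f + (LinearMap.ker p').subtype ∘ₗ u ∘ₗ (p.codRestrict (LinearMap.ker f) hp1), ?_, ?_⟩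
    · intro g w
      simp only [LinearMap.add_apply, LinearMap.comp_apply, Submodule.subtype_apply, map_add, hf]
      congr 1
      have h1 : p.codRestrict (LinearMap.ker f) hp1 (ρ g w) =
          repAuxSub ρ (LinearMap.ker f) hK g (p.codRestrict (LinearMap.ker f) hp1 w) := by
        apply Subtype.ext
        exact hp3 g w
      rw [h1, hu1]
      rfl
    · rw [injective_iff_map_eq_zero]
      intro w hw
      simp only [LinearMap.add_apply, LinearMap.comp_apply, Submodule.subtype_apply] at hw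
      set c := u (p.codRestrict (LinearMap.ker f) hp1 w) with hc
      have h1 : p' (f w) = f w := hp2' _ ⟨w, rfl⟩
      have h2 : p' (c : V) = 0 := c.2
      have h3 : f w = 0 := by
        have := congrArg p' hw
        rw [map_add, h1, h2, add_zero, map_zero] at this
        exact this
      rw [h3, zero_add] at hw
      have h4 : c = 0 := Subtype.ext hw
      have h5 : p.codRestrict (LinearMap.ker f) hp1 w = 0 := by
        apply hu2
        rw [map_zero]
        exact h4
      have h6 : p w = 0 := congrArg Subtype.val h5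
      rw [← hp2 w h3, h6]

end Main
section Perm

variable {G : Type} [Group G] {X : Type} [Fintype X]

/-- the permutation representation on functions -/
noncomputable def repAuxPerm (a : G →* Equiv.Perm X) : Representation ℚ G (X → ℚ) where
  toFun g := LinearMap.funLeft ℚ ℚ (a g⁻¹)
  map_one' := by
    ext φ x
    simp [LinearMap.funLeft]
  map_mul' g h := by
    ext φ x
    simp [LinearMap.funLeft]

theorem repAuxPerm_apply (a : G →* Equiv.Perm X) (g : G) (φ : X → ℚ) (x : X) :
    repAuxPerm a g φ x = φ (a g⁻¹ x) := rfl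

theorem repAuxPerm_char (a : G →* Equiv.Perm X) (g : G) :
    (repAuxPerm a).character g = (Nat.card {x // a g x = x} : ℚ) := by
  classical
  unfold Representation.character
  rw [LinearMap.trace_eq_matrix_trace ℚ (Pi.basisFun ℚ X), Matrix.trace]
  have h1 : ∀ i : X, (LinearMap.toMatrix (Pi.basisFun ℚ X) (Pi.basisFun ℚ X) (repAuxPerm a g)).diag i =
      if a g i = i then 1 else 0 := by
    intro i
    rw [Matrix.diag_apply, LinearMap.toMatrix_apply]
    simp only [Pi.basisFun_apply, Pi.basisFun_repr, repAuxPerm_apply, Pi.single_apply]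
    have : a g⁻¹ i = i ↔ a g i = i := by
      rw [map_inv, Equiv.Perm.inv_eq_iff_eq]
      exact eq_comm
    simp only [this]
  rw [Finset.sum_congr rfl fun i _ => h1 i, Finset.sum_boole, Nat.card_eq_fintype_card, Fintype.card_subtype]

end Perm

theorem rep {Γ : Type} [Group Γ] {X Y : Type} [Fintype X] [Fintype Y] (πX : Γ →* Equiv.Perm X)
    (πY : Γ →* Equiv.Perm Y)
    (h : ∀ g, Nat.card {x // πX g x = x} = Nat.card {y // πY g y = y}) :
    ∃ T : X → Y → ℤ, (∀ g x y, T (πX g x) (πY g y) = T x y) ∧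
      Function.Injective (fun (f : Y → ℤ) (x : X) => ∑ y, T x y * f y) := by
  classical
  let G : Subgroup (Equiv.Perm X × Equiv.Perm Y) := (πX.prod πY).range
  letI : Fintype G := Fintype.ofFinite G
  let aX : G →* Equiv.Perm X := (MonoidHom.fst _ _).comp G.subtype
  let aY : G →* Equiv.Perm Y := (MonoidHom.snd _ _).comp G.subtype
  have hχ : ∀ g : G, (repAuxPerm aY).character g = (repAuxPerm aX).character g := by
    rintro ⟨_, γ, rfl⟩
    rw [repAuxPerm_char, repAuxPerm_char]
    exact_mod_cast (h γ).symm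
  obtain ⟨f, hf, hinj⟩ := repAux_exists_injective (G := G) _ (Y → ℚ) (X → ℚ) (repAuxPerm aY) (repAuxPerm aX)
    rfl hχ
  -- the matrix
  let M : X → Y → ℚ := fun x y => f (Pi.single y 1) x
  have hM : ∀ (φ : Y → ℚ) (x : X), f φ x = ∑ y, M x y * φ y := by
    intro φ x
    have h1 := LinearMap.pi_apply_eq_sum_univ f φ
    rw [h1, Finset.sum_apply]
    refine Finset.sum_congr rfl fun y _ => ?_
    rw [Pi.smul_apply, smul_eq_mul, mul_comm]
    have h2 : (fun j => if y = j then (1:ℚ) else 0) = Pi.single y 1 := by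
      ext j
      simp [Pi.single_apply, eq_comm]
    rw [h2]
  have hMinv : ∀ γ x y, M (πX γ x) (πY γ y) = M x y := by
    intro γ x y
    let g : G := ⟨(πX γ, πY γ), γ, rfl⟩
    have h1 : repAuxPerm aY g (Pi.single y 1) = Pi.single (πY γ y) 1 := by
      ext j
      rw [repAuxPerm_apply]
      have : aY g⁻¹ j = (πY γ)⁻¹ j := by
        rw [map_inv]
        rfl
      rw [this, Pi.single_apply, Pi.single_apply]
      have h2 : (πY γ)⁻¹ j = y ↔ j = πY γ y := by
        rw [Equiv.Perm.inv_eq_iff_eq]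
      simp only [h2]
    have h3 := congrFun (hf g (Pi.single y 1)) (πX γ x)
    rw [h1, repAuxPerm_apply] at h3
    have h4 : aX g⁻¹ (πX γ x) = x := by
      rw [map_inv]
      exact (πX γ).symm_apply_apply x
    rw [h4] at h3
    exact h3
  obtain ⟨b, hb⟩ := IsLocalization.exist_integer_multiples (nonZeroDivisors ℤ) (Finset.univ : Finset (X × Y))
    (fun i => M i.1 i.2)
  have hb0 : ((b : ℤ) : ℚ) ≠ 0 := by
    exact_mod_cast nonZeroDivisors.ne_zero b.2
  have hT : ∀ x y, ∃ z : ℤ, (z : ℚ) = ((b : ℤ) : ℚ) * M x y := by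
    intro x y
    obtain ⟨z, hz⟩ := hb (x, y) (Finset.mem_univ _)
    refine ⟨z, ?_⟩
    rw [zsmul_eq_mul] at hz
    simpa using hz
  choose T hT using hT
  refine ⟨T, ?_, ?_⟩
  · intro γ x y
    have : ((T (πX γ x) (πY γ y) : ℤ) : ℚ) = T x y := by
      rw [hT, hT, hMinv]
    exact_mod_cast this
  · intro φ ψ hφψ
    have h1 : f (fun y => (φ y : ℚ)) = f (fun y => (ψ y : ℚ)) := by
      ext x
      have h2 := congrFun hφψ x
      have h3 : ((∑ y, T x y * φ y : ℤ) : ℚ) = ((∑ y, T x y * ψ y : ℤ) : ℚ) := by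
        exact congrArg _ h2
      push_cast at h3
      simp only [hT, mul_assoc, ← Finset.mul_sum] at h3
      rw [hM, hM]
      exact mul_left_cancel₀ hb0 h3
    have h4 := hinj h1
    ext y
    have := congrFun h4 y
    exact_mod_cast this

end Fermat.Agent.S56.E
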