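import Fermat.Agent.S56.E.Abs.HomF
import Fermat.Agent.S56.E.Abs.Jantzen
import Fermat.Agent.S56.E.Abs.Rep

/-!
# S56 / E : `lam (Map(X, N))` depends only on the permutation character of `X`   (assembly of REP, JANTZEN, HOMF)
-/

set_option autoImplicit false

noncomputable section

namespace Fermat.Agent.S56.E

open Fermat.Agent.S55

variable {Γ : Type} [Group Γ] {U : Subgroup Γ} {p : ℕ} {V : Type} [AddCommGroup V]

theorem lam_eq_of_fix [Fact p.Prime] (L : LamData U p V) {N : Type} [AddCommGroup N]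
    {ρN : Γ →* AddMonoid.End N} (hN : IsMod U p ρN) {X Y : Type} [Fintype X] [Fintype Y]
    (πX : Γ →* Equiv.Perm X) (πY : Γ →* Equiv.Perm Y) (hX : ∀ u ∈ U, πX u = 1)
    (hY : ∀ u ∈ U, πY u = 1)
    (h : ∀ g, Nat.card {x // πX g x = x} = Nat.card {y // πY g y = y}) :
    L.lam _ (Fn πX ρN) = L.lam _ (Fn πY ρN) := by
  obtain ⟨T, hT, hinj⟩ := rep πX πY h
  have hcard : Fintype.card X = Fintype.card Y := by
    have h1 := h 1
    rw [← Nat.card_eq_fintype_card, ← Nat.card_eq_fintype_card,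
      ← Nat.card_congr (Equiv.subtypeUnivEquiv (p := fun x : X => πX 1 x = x) (fun _ => by simp)),
      ← Nat.card_congr (Equiv.subtypeUnivEquiv (p := fun y : Y => πY 1 y = y) (fun _ => by simp))]
    exact h1
  rw [← lam_hom_Fn L hN πX hX, ← lam_hom_Fn L hN πY hY]
  exact jantzen (L.hom ρN hN) πX πY hX hY T hT hcard hinj

end Fermat.Agent.S56.E
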